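import Fermat.Agent.S16.LDefs

set_option autoImplicit false

/-!
# S16, block D: every integral parabolic homomorphism is the real part of a period map
-/

namespace Fermat.Agent.S16

open UpperHalfPlane ModularForm Filter Function Complex CongruenceSubgroup ModularCurve
  ModularCurve.Period
open scoped MatrixGroups Manifold Topology Real ComplexConjugate
open S21 S21.PartG7

/-- real-valued version. -/
theorem exists_re_Per_real (N : ℕ) [NeZero N] (ψ : Additive (Gamma0 N) →+ ℂ)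
    (hψ : IsParabolicHom (Gamma0 N) ψ) (hreal : ∀ γ, (ψ γ).im = 0) :
    ∃ f : CuspForm (Gamma0 N) 2, ∀ γ, ((Per N f γ).re : ℂ) = ψ γ := by
  obtain ⟨⟨f, g⟩, hfg⟩ := S21.PartH.le_range N (show ψ ∈ parabolicHoms ℂ (Gamma0 N) ℂ from hψ)
  rw [S21.PartH.periodHomPair_apply] at hfg
  set u := S21.PartH.cuspToMF N (f + g) with hu_def
  set v := S21.PartH.cuspToMF N (f - g) with hv_def
  have hu : IsCF (Gamma0 N) 2 u.1 := S21.PartH.cuspToMF_isCF N _
  have hv : IsCF (Gamma0 N) 2 v.1 := S21.PartH.cuspToMF_isCF N _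
  obtain ⟨Fu, hFu⟩ := exists_isPrim hu.holo
  obtain ⟨Fv, hFv⟩ := exists_isPrim hv.holo
  have hN : 0 < N := Nat.pos_of_ne_zero (NeZero.ne N)
  have hNr : (0 : ℝ) < (N : ℝ) := by exact_mod_cast hN
  have hrel : ∀ γ : Gamma0 N, perLin (Gamma0 N) u (Additive.ofMul γ)
      + perLin (Gamma0 N) v (Additive.ofMul (jConjGamma0 N γ)) = ψ (Additive.ofMul γ) := by
    intro γ
    have := DFunLike.congr_fun hfg (Additive.ofMul γ)
    simpa using this
  have hPu : ∀ (γ : Gamma0 N) (z : ℍ), Fu ((γ : SL(2, ℤ)) • z) = Fu z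
      + perLin (Gamma0 N) u (Additive.ofMul γ) := fun γ z => by
    rw [perLin_spec _ u Fu hFu γ z]; ring
  have hPv : ∀ (γ : Gamma0 N) (z : ℍ), Fv ((γ : SL(2, ℤ)) • z) = Fv z
      + perLin (Gamma0 N) v (Additive.ofMul γ) := fun γ z => by
    rw [perLin_spec _ v Fv hFv γ z]; ring
  set Fc : ℍ → ℂ := fun z => conj (Fv (cc z)) with hFc
  set vs : ℍ → ℂ := fun z => -conj (v.1 (cc z)) with hvs
  have hFcP : IsPrim vs Fc := PartG7.IsPrim.conj_cc hFv
  have hFc_inv : ∀ (γ : Gamma0 N) (z : ℍ), Fc ((γ : SL(2, ℤ)) • z) = Fc z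
      + conj (perLin (Gamma0 N) v (Additive.ofMul (jConjGamma0 N γ))) := by
    intro γ z
    simp only [hFc]
    rw [cc_smul, ← jConjGamma0_coe, hPv, map_add]
  have hcu := fun δ => prim_cusp hu hFu hN (conj_T_pow_mem_Gamma0 N) δ
  have hcv := fun δ => prim_cusp hv hFv hN (conj_T_pow_mem_Gamma0 N) δ
  have hFc_per : ∀ (δ : SL(2, ℤ)) (z : ℍ), Fc (δ • ((N : ℝ) +ᵥ z)) = Fc (δ • z) := by
    intro δ z
    simp only [hFc]
    rw [cc_smul, cc_smul, cc_vadd]
    have := (hcv (jConjSL δ)).1 ((-(N : ℝ)) +ᵥ cc z)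
    rw [← this]
    congr 3
    rw [vadd_vadd]; simp
  have hFc_lim : ∀ δ : SL(2, ℤ), ∃ L : ℂ, Tendsto (fun z : ℍ => Fc (δ • z)) atImInfty (𝓝 L) := by
    intro δ
    obtain ⟨L, hL⟩ := (hcv (jConjSL δ)).2
    refine ⟨conj L, ?_⟩
    have h1 : (fun z : ℍ => Fc (δ • z)) = fun z => conj (Fv (jConjSL δ • cc z)) := by
      funext z; simp only [hFc]; rw [cc_smul]
    rw [h1]
    exact (Complex.continuous_conj.tendsto L).comp (hL.comp tendsto_cc)
  have e2 : (fun z => Complex.I * (u.1 - vs) z) = 0 := by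
    refine eq_zero_of_re_invariant (Gamma0 N)
      (PartG7.IsPrim.const_mul Complex.I (PartG7.IsPrim.sub hFu hFcP)) ?_ hNr ?_ ?_
    · intro γ hγ z
      have a1 := hPu ⟨γ, hγ⟩ z
      have a2 := hFc_inv ⟨γ, hγ⟩ z
      have a3 := congrArg Complex.im (hrel ⟨γ, hγ⟩)
      rw [hreal, Complex.add_im] at a3
      simp only [Pi.sub_apply] at *
      rw [a1, a2]
      simp
      linarith
    · intro δ z
      simp only [Pi.sub_apply]
      rw [(hcu δ).1 z, hFc_per δ z]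
    · intro δ
      obtain ⟨L1, hL1⟩ := (hcu δ).2
      obtain ⟨L2, hL2⟩ := hFc_lim δ
      exact ⟨Complex.I * (L1 - L2), (hL1.sub hL2).const_mul _⟩
  have e2' : vs = u.1 := by
    funext z
    have := congrFun e2 z
    have h3 : u.1 z - vs z = 0 := by simpa [Complex.I_ne_zero] using this
    exact (sub_eq_zero.mp h3).symm
  rw [e2'] at hFcP
  obtain ⟨c, hc⟩ := hFcP.eq_add_const hFu
  have hconj : ∀ γ : Gamma0 N, conj (perLin (Gamma0 N) v (Additive.ofMul (jConjGamma0 N γ)))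
      = perLin (Gamma0 N) u (Additive.ofMul γ) := by
    intro γ
    have a1 := hPu γ UpperHalfPlane.I
    have a2 := hFc_inv γ UpperHalfPlane.I
    rw [hc, hc, a1] at a2
    linear_combination -a2
  refine ⟨(2 : ℂ) • (f + g), fun γ => ?_⟩
  obtain ⟨γ, rfl⟩ := Additive.ofMul.surjective γ
  have h1 : Per N ((2 : ℂ) • (f + g)) (Additive.ofMul γ)
      = 2 * perLin (Gamma0 N) u (Additive.ofMul γ) := by
    rw [map_smul]; rfl
  rw [h1, ← hrel γ]
  have h2 : perLin (Gamma0 N) v (Additive.ofMul (jConjGamma0 N γ))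
      = conj (perLin (Gamma0 N) u (Additive.ofMul γ)) := by
    rw [← hconj γ, Complex.conj_conj]
  rw [h2, Complex.add_conj]
  simp

/-- **LREAL**. -/
theorem exists_re_Per (N : ℕ) [NeZero N] (ψ : Additive (Gamma0 N) →+ ℤ)
    (hψ : IsParabolicHom (Gamma0 N) ψ) :
    ∃ f : CuspForm (Gamma0 N) 2, ∀ γ, (Per N f γ).re = ψ γ := by
  obtain ⟨f, hf⟩ := exists_re_Per_real N ((Int.castAddHom ℂ).comp ψ)
    (fun γ hγ => by simp [hψ γ hγ]) (fun γ => by simp)
  refine ⟨f, fun γ => ?_⟩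
  have := hf γ
  simp only [AddMonoidHom.coe_comp, comp_apply, Int.coe_castAddHom] at this
  exact_mod_cast this

end Fermat.Agent.S16
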