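import Fermat.Agent.S16.LCount2
import Fermat.Agent.S20

set_option autoImplicit false

/-!
# S16, block D, LCOUNT part 3: field independence of the dimensions, and the final count
-/

namespace Fermat.Agent.S16.LCount

open CongruenceSubgroup ModularCurve ModularCurve.Period
open Fermat.Agent.S21 Fermat.Agent.S21.PartF
open scoped MatrixGroups

variable {Γ : Subgroup SL(2, ℤ)} {k : Type*} [Field k]

/-- orbits of the cyclic group generated by `g`. -/
abbrev Om (Γ : Subgroup SL(2, ℤ)) (g : SL(2, ℤ)) : Type :=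
  MulAction.orbitRel.Quotient (Subgroup.zpowers g) (SL(2, ℤ) ⧸ Γ)

omit [Field k] in
lemma invariant_zpowers {g : SL(2, ℤ)} {l : (SL(2, ℤ) ⧸ Γ) → k} (hl : ∀ x, l (g • x) = l x)
    (h : SL(2, ℤ)) (hh : h ∈ Subgroup.zpowers g) (x : SL(2, ℤ) ⧸ Γ) : l (h • x) = l x := by
  let H : Subgroup SL(2, ℤ) :=
    { carrier := {h | ∀ x, l (h • x) = l x}
      mul_mem' := by
        intro a b ha hb x
        rw [mul_smul, ha, hb]
      one_mem' := by intro x; rw [one_smul]
      inv_mem' := by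
        intro a ha x
        have := ha (a⁻¹ • x)
        rw [smul_inv_smul] at this
        exact this.symm }
  have hle : Subgroup.zpowers g ≤ H := by
    rw [Subgroup.zpowers_le]
    exact hl
  exact hle hh x

/-- invariant functions are functions on the orbit space. -/
noncomputable def IgMap (Γ : Subgroup SL(2, ℤ)) (k : Type*) [Field k] (g : SL(2, ℤ)) :
    (Om Γ g → k) →ₗ[k] Ig Γ k g where
  toFun F := ⟨fun x => F (Quotient.mk'' x), mem_Ig.mpr fun x => by
    congr 1
    apply Quotient.sound'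
    exact ⟨⟨g, Subgroup.mem_zpowers g⟩, rfl⟩⟩
  map_add' _ _ := rfl
  map_smul' _ _ := rfl

lemma IgMap_bijective (g : SL(2, ℤ)) : Function.Bijective (IgMap Γ k g) := by
  constructor
  · intro F F' h
    funext q
    induction q using Quotient.inductionOn' with
    | h x => exact congrFun (congrArg Subtype.val h) x
  · intro l
    have hl := mem_Ig.mp l.2
    refine ⟨fun q => Quotient.liftOn' q (l : (SL(2, ℤ) ⧸ Γ) → k) ?_, ?_⟩
    · rintro a b ⟨⟨h, hh⟩, rfl⟩
      exact invariant_zpowers hl h hh b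
    · apply Subtype.ext
      funext x
      rfl

lemma finrank_Ig [Finite (SL(2, ℤ) ⧸ Γ)] (g : SL(2, ℤ)) :
    Module.finrank k (Ig Γ k g) = Nat.card (Om Γ g) := by
  have : Finite (Om Γ g) := Quotient.finite _
  have : Fintype (Om Γ g) := Fintype.ofFinite _
  rw [← (LinearEquiv.ofBijective (IgMap Γ k g) (IgMap_bijective g)).finrank_eq,
    Module.finrank_fintype_fun_eq_card, Nat.card_eq_fintype_card]

lemma finrank_Rg_add [Fintype (SL(2, ℤ) ⧸ Γ)] (g : SL(2, ℤ)) :
    Module.finrank k (Rg Γ k g) + Nat.card (Om Γ g) = Fintype.card (SL(2, ℤ) ⧸ Γ) := by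
  have h := LinearMap.finrank_range_add_finrank_ker (Dg Γ k g)
  rw [Module.finrank_fintype_fun_eq_card] at h
  rw [← h, ← finrank_Ig (k := k) g]
  rfl

lemma Ig_T_eq : Ig Γ ℂ ModularGroup.T = S20.AT Γ := by
  ext l
  rw [mem_Ig]
  rfl

lemma Rg_S_eq (hneg : -1 ∈ Γ) : Rg Γ ℂ ModularGroup.S = AS Γ := by
  apply le_antisymm
  · rintro _ ⟨u, rfl⟩ x
    have hSS : ModularGroup.S * ModularGroup.S = -1 := by decide
    have : ModularGroup.S • ModularGroup.S • x = x := by
      rw [← mul_smul, hSS, neg_one_smul_coset hneg]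
    simp only [Dg_apply, this]
    ring
  · intro v hv
    refine ⟨(-1 / 2 : ℂ) • v, ?_⟩
    funext x
    have := hv x
    simp only [Dg_apply, Pi.smul_apply, smul_eq_mul]
    linear_combination (-1 / 2 : ℂ) * this

lemma Rg_U_eq (hneg : -1 ∈ Γ) : Rg Γ ℂ Umat = AU Γ := by
  apply le_antisymm
  · rintro _ ⟨u, rfl⟩ x
    have hU : Umat * Umat * Umat = -1 := by decide
    have : Umat • Umat • Umat • x = x := by
      rw [← mul_smul, ← mul_smul, hU, neg_one_smul_coset hneg]
    simp only [Dg_apply, this]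
    ring
  · intro v hv
    refine ⟨fun x => (-2 / 3 : ℂ) * v x + (-1 / 3 : ℂ) * v (Umat • x), ?_⟩
    funext x
    have := hv x
    simp only [Dg_apply]
    linear_combination (-1 / 3 : ℂ) * this

/-- the dimension bound for `Γ₀(N)`. -/
theorem finrank_PE_Gamma0_le (N : ℕ) [NeZero N] :
    Module.finrank k (PE (Gamma0 N) k) ≤ 2 * Module.finrank ℂ (CuspForm (Gamma0 N) 2) := by
  classical
  have : Fintype (SL(2, ℤ) ⧸ Gamma0 N) := Fintype.ofFinite _
  have hneg := S21.PartH.neg_one_mem_Gamma0 N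
  have h1 := finrank_PE_le (Γ := Gamma0 N) (k := k)
  have h2 := S20.PartD.main_nat N
  have h3 := S20.finrank_AT N
  have h4 : Fintype.card (SL(2, ℤ) ⧸ Gamma0 N) = (Gamma0 N).index := by
    rw [Subgroup.index, Nat.card_eq_fintype_card]
  have a1 := finrank_Rg_add (Γ := Gamma0 N) (k := k) ModularGroup.S
  have a2 := finrank_Rg_add (Γ := Gamma0 N) (k := ℂ) ModularGroup.S
  have b1 := finrank_Rg_add (Γ := Gamma0 N) (k := k) Umat
  have b2 := finrank_Rg_add (Γ := Gamma0 N) (k := ℂ) Umat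
  have c1 := finrank_Ig (Γ := Gamma0 N) (k := k) ModularGroup.T
  have c2 := finrank_Ig (Γ := Gamma0 N) (k := ℂ) ModularGroup.T
  rw [Rg_S_eq hneg] at a2
  rw [Rg_U_eq hneg] at b2
  rw [Ig_T_eq] at c2
  omega

end Fermat.Agent.S16.LCount

namespace Fermat.Agent.S16

open CongruenceSubgroup ModularCurve ModularCurve.Period
open scoped MatrixGroups

/-- **LCOUNT**. -/
theorem card_isPE_le (N : ℕ) [NeZero N] (ℓ : ℕ) [Fact ℓ.Prime] :
    Finite {φ : Additive (Gamma0 N) →+ ZMod ℓ // IsPE (Gamma0 N) φ} ∧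
    Nat.card {φ : Additive (Gamma0 N) →+ ZMod ℓ // IsPE (Gamma0 N) φ} ≤
      ℓ ^ (2 * Module.finrank ℂ (CuspForm (Gamma0 N) 2)) := by
  have hfd := LCount.finiteDimensional_PE (Γ := Gamma0 N) (k := ZMod ℓ)
  have hfin : Finite (LCount.PE (Gamma0 N) (ZMod ℓ)) := Module.finite_of_finite (ZMod ℓ)
  refine ⟨hfin, ?_⟩
  have h1 := Module.natCard_eq_pow_finrank (K := ZMod ℓ) (V := LCount.PE (Gamma0 N) (ZMod ℓ))
  rw [Nat.card_zmod] at h1
  have h2 := LCount.finrank_PE_Gamma0_le (k := ZMod ℓ) N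
  calc Nat.card {φ : Additive (Gamma0 N) →+ ZMod ℓ // IsPE (Gamma0 N) φ}
      = ℓ ^ Module.finrank (ZMod ℓ) (LCount.PE (Gamma0 N) (ZMod ℓ)) := h1
    _ ≤ _ := Nat.pow_le_pow_right (Fact.out : ℓ.Prime).pos h2

end Fermat.Agent.S16
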