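import Fermat.Agent.S16.LDefs

set_option autoImplicit false

/-!
# S16, block D, package LLIFT: lifting homomorphisms `Γ₀(N) → ℤ/M` to parabolic `Γ₀(N) → ℤ`
-/

namespace Fermat.Agent.S16

open CongruenceSubgroup ModularCurve ModularCurve.Period
open scoped MatrixGroups DirectSum

namespace LLift

section General

variable (Γ : Subgroup SL(2, ℤ))

/-- images in the abelianisation of the parabolic elements and of the elements with `γ^12 = 1`. -/
def peSet : Set (Additive (Abelianization Γ)) :=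
  {x | ∃ γ : Γ, (((γ : SL(2, ℤ)) : Matrix (Fin 2) (Fin 2) ℤ).trace ^ 2 = 4 ∨ γ ^ 12 = 1) ∧
    x = Additive.ofMul (Abelianization.of γ)}

/-- `Γ^ab / (parabolic, finite order)`. -/
abbrev Q : Type := Additive (Abelianization Γ) ⧸ AddSubgroup.closure (peSet Γ)

/-- the projection. -/
def mkHom : Additive Γ →+ Q Γ :=
  (QuotientAddGroup.mk' _).comp (MonoidHom.toAdditive Abelianization.of)

theorem mkHom_surjective : Function.Surjective (mkHom Γ) := by
  intro x
  obtain ⟨y, rfl⟩ := QuotientAddGroup.mk'_surjective _ x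
  obtain ⟨γ, hγ⟩ := QuotientGroup.mk_surjective (Additive.toMul y)
  refine ⟨Additive.ofMul γ, ?_⟩
  show QuotientAddGroup.mk' _ (Additive.ofMul (Abelianization.of γ)) = _
  congr 1

variable {Γ}

theorem isPE_comp {A : Type*} [AddCommGroup A] (ψ : Q Γ →+ A) : IsPE Γ (ψ.comp (mkHom Γ)) := by
  have key : ∀ γ : Γ, (((γ : SL(2, ℤ)) : Matrix (Fin 2) (Fin 2) ℤ).trace ^ 2 = 4 ∨ γ ^ 12 = 1) →
      mkHom Γ (Additive.ofMul γ) = 0 := by
    intro γ hγ
    show QuotientAddGroup.mk' _ (Additive.ofMul (Abelianization.of γ)) = 0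
    rw [QuotientAddGroup.mk'_apply, QuotientAddGroup.eq_zero_iff]
    exact AddSubgroup.subset_closure ⟨γ, hγ, rfl⟩
  refine ⟨fun γ hγ => ?_, fun γ hγ => ?_⟩
  · rw [AddMonoidHom.comp_apply, key γ (Or.inl hγ), map_zero]
  · rw [AddMonoidHom.comp_apply, key γ (Or.inr hγ), map_zero]

/-- descent of a `PE` homomorphism. -/
def desc {A : Type*} [AddCommGroup A] (φ : Additive Γ →+ A) (hφ : IsPE Γ φ) : Q Γ →+ A :=
  QuotientAddGroup.lift _
    (MonoidHom.toAdditiveLeft (Abelianization.lift (AddMonoidHom.toMultiplicativeRight φ))) (by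
      rw [AddSubgroup.closure_le]
      rintro x ⟨γ, hγ, rfl⟩
      show φ (Additive.ofMul γ) = 0
      rcases hγ with hγ | hγ
      · exact hφ.1 γ hγ
      · exact hφ.2 γ hγ)

theorem desc_mkHom {A : Type*} [AddCommGroup A] (φ : Additive Γ →+ A) (hφ : IsPE Γ φ)
    (γ : Additive Γ) : desc φ hφ (mkHom Γ γ) = φ γ := rfl

end General

section Core

variable {G : Type*} [AddCommGroup G]

/-- a homomorphism from `ℤ^n × ⨁ ℤ/(pᵢ^eᵢ)` is determined by its values on the generators. -/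
theorem hom_ext_prod {n : ℕ} {ι : Type} [DecidableEq ι] {p e : ι → ℕ} {A : Type*} [AddCommGroup A]
    (α β : (Fin n →₀ ℤ) × (⨁ i : ι, ZMod (p i ^ e i)) →+ A)
    (h1 : ∀ j, α (Finsupp.single j 1, 0) = β (Finsupp.single j 1, 0))
    (h2 : ∀ i (y : ZMod (p i ^ e i)), α (0, DirectSum.of _ i y) = β (0, DirectSum.of _ i y)) :
    α = β := by
  classical
  have hA : α.comp (AddMonoidHom.inl _ _) = β.comp (AddMonoidHom.inl _ _) := by
    refine Finsupp.addHom_ext fun j z => ?_
    have hz : (Finsupp.single j z : Fin n →₀ ℤ) = z • Finsupp.single j 1 := by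
      rw [Finsupp.smul_single, smul_eq_mul, mul_one]
    simp only [AddMonoidHom.comp_apply, hz, map_zsmul]
    congr 1
    exact h1 j
  have hB : α.comp (AddMonoidHom.inr _ _) = β.comp (AddMonoidHom.inr _ _) := by
    refine DirectSum.addHom_ext fun i y => ?_
    exact h2 i y
  ext x : 1
  obtain ⟨a, t⟩ := x
  have : ((a, t) : (Fin n →₀ ℤ) × (⨁ i : ι, ZMod (p i ^ e i))) =
      AddMonoidHom.inl _ _ a + AddMonoidHom.inr _ _ t := by simp
  rw [this, map_add, map_add]
  exact congrArg₂ _ (DFunLike.congr_fun hA a) (DFunLike.congr_fun hB t)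

theorem core [AddGroup.FG G] (n : ℕ)
    (hrank : ∀ (m : ℕ) (x : Fin m → G), (∀ ψ : G →+ ℂ, (∀ i, ψ (x i) = 0) → ψ = 0) → n ≤ m)
    (hcount : ∀ (ℓ : ℕ) [Fact ℓ.Prime], Finite (G →+ ZMod ℓ) ∧ Nat.card (G →+ ZMod ℓ) ≤ ℓ ^ n)
    (M : ℕ) (φ : G →+ ZMod M) : ∃ ψ : G →+ ℤ, ∀ x, ((ψ x : ℤ) : ZMod M) = φ x := by
  classical
  obtain ⟨n', ι, _, p, hp, e, ⟨f⟩⟩ := AddCommGroup.equiv_free_prod_directSum_zmod G
  -- step 1
  have hn : n ≤ n' := by
    refine hrank n' (fun j => f.symm (Finsupp.single j 1, 0)) fun ψ hψ => ?_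
    have : ψ.comp f.symm.toAddMonoidHom = 0 := by
      refine hom_ext_prod _ _ (fun j => ?_) fun i y => ?_
      · simpa using hψ j
      · have h0 : (p i ^ e i) • (ψ.comp f.symm.toAddMonoidHom) (0, DirectSum.of _ i y) = 0 := by
          rw [← map_nsmul, Prod.smul_mk, smul_zero, ← map_nsmul]
          have : (p i ^ e i) • y = 0 := by
            rw [nsmul_eq_mul, ZMod.natCast_self, zero_mul]
          rw [this, map_zero]
          exact map_zero _
        have hne : (p i ^ e i) ≠ 0 := pow_ne_zero _ (hp i).ne_zero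
        rw [AddMonoidHom.zero_apply]
        exact (smul_eq_zero.mp h0).resolve_left hne
    ext x
    have := DFunLike.congr_fun this (f x)
    simpa using this
  -- step 2
  have he : ∀ i, e i = 0 := by
    intro i₀
    by_contra hi
    have : Fact (p i₀).Prime := ⟨hp i₀⟩
    obtain ⟨hfin, hcard⟩ := hcount (p i₀)
    set ℓ := p i₀ with hℓ
    let cst : ZMod (p i₀ ^ e i₀) →+ ZMod ℓ :=
      (ZMod.castHom (dvd_pow_self ℓ hi) (ZMod ℓ)).toAddMonoidHom
    let Φ : (Fin n' → ZMod ℓ) × ZMod ℓ → (G →+ ZMod ℓ) := fun c =>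
      (((Finsupp.linearCombination ℤ c.1).toAddMonoidHom.comp (AddMonoidHom.fst _ _)) +
        (((AddMonoidHom.mulLeft c.2).comp cst).comp
          ((DirectSum.component ℤ ι (fun i => ZMod (p i ^ e i)) i₀).toAddMonoidHom.comp
            (AddMonoidHom.snd _ _)))).comp f.toAddMonoidHom
    have hΦ : Function.Injective Φ := by
      intro c c' h
      refine Prod.ext (funext fun j => ?_) ?_
      · have := DFunLike.congr_fun h (f.symm (Finsupp.single j 1, 0))
        simpa [Φ] using this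
      · have := DFunLike.congr_fun h (f.symm (0, DirectSum.of _ i₀ 1))
        have hc : (DirectSum.component ℤ ι (fun i => ZMod (p i ^ e i)) i₀)
            ((DirectSum.of (fun i => ZMod (p i ^ e i)) i₀) 1) = 1 := by
          rw [← DirectSum.apply_eq_component, DirectSum.of_eq_same]
        have hc1 : cst 1 = 1 := map_one (ZMod.castHom (dvd_pow_self ℓ hi) (ZMod ℓ))
        simpa [Φ, hc, hc1] using this
    have h1 := Nat.card_le_card_of_injective Φ hΦ
    rw [Nat.card_prod, Nat.card_fun, Nat.card_zmod, Nat.card_fin] at h1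
    have h2 : ℓ ^ n' * ℓ ≤ ℓ ^ n' :=
      h1.trans (hcard.trans (Nat.pow_le_pow_right (hp i₀).pos hn))
    have h3 : ℓ ^ n' * 2 ≤ ℓ ^ n' * ℓ := Nat.mul_le_mul_left _ (hp i₀).two_le
    have h4 : 0 < ℓ ^ n' := pow_pos (hp i₀).pos _
    omega
  -- step 3
  choose m hm using fun j : Fin n' =>
    ZMod.intCast_surjective (φ (f.symm (Finsupp.single j 1, 0)))
  refine ⟨((Finsupp.linearCombination ℤ m).toAddMonoidHom.comp (AddMonoidHom.fst _ _)).comp
    f.toAddMonoidHom, fun x => ?_⟩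
  have key : (Int.castAddHom (ZMod M)).comp
      ((Finsupp.linearCombination ℤ m).toAddMonoidHom.comp (AddMonoidHom.fst _ _)) =
      φ.comp f.symm.toAddMonoidHom := by
    refine hom_ext_prod _ _ (fun j => ?_) fun i y => ?_
    · simpa using hm j
    · have hy : y = 0 := by
        have : Subsingleton (ZMod (p i ^ e i)) := by
          rw [he i, pow_zero]
          infer_instance
        exact Subsingleton.elim _ _
      rw [hy, map_zero]
      have h00 : ((0 : Fin n' →₀ ℤ), (0 : ⨁ i : ι, ZMod (p i ^ e i))) = 0 := rfl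
      rw [h00, map_zero, map_zero]
  have := DFunLike.congr_fun key (f x)
  simpa using this

end Core

section Apply

variable (N : ℕ) [NeZero N]

instance fg_Q : AddGroup.FG (Q (Gamma0 N)) := by
  have h0 : Group.FG SL(2, ℤ) := by
    rw [Group.fg_iff]
    exact ⟨{ModularGroup.S, ModularGroup.T}, SpecialLinearGroup.SL2Z_generators, by simp⟩
  have h1 : Group.FG (Gamma0 N) := Subgroup.fg_of_index_ne_zero _
  have h2 : Group.FG (Abelianization (Gamma0 N)) :=
    inferInstanceAs (Group.FG ((Gamma0 N) ⧸ commutator (Gamma0 N)))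
  have h3 : AddGroup.FG (Additive (Abelianization (Gamma0 N))) := inferInstance
  infer_instance

theorem isPE_of_isParabolicHom {Γ : Subgroup SL(2, ℤ)} {φ : Additive Γ →+ ℂ}
    (hφ : IsParabolicHom Γ φ) : IsPE Γ φ := by
  refine ⟨hφ, fun γ hγ => ?_⟩
  have h : (12 : ℕ) • φ (Additive.ofMul γ) = 0 := by
    rw [← map_nsmul, ← ofMul_pow, hγ]
    exact map_zero φ
  exact (smul_eq_zero.mp h).resolve_left (by norm_num)

theorem rank_le (m : ℕ) (x : Fin m → Q (Gamma0 N))
    (hx : ∀ ψ : Q (Gamma0 N) →+ ℂ, (∀ i, ψ (x i) = 0) → ψ = 0) :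
    2 * Module.finrank ℂ (CuspForm (Gamma0 N) 2) ≤ m := by
  choose γ hγ using fun i => mkHom_surjective (Gamma0 N) (x i)
  let E : (Additive (Gamma0 N) →+ ℂ) →ₗ[ℂ] (Fin m → ℂ) :=
    { toFun := fun φ i => φ (γ i)
      map_add' := fun _ _ => rfl
      map_smul' := fun _ _ => rfl }
  have hinj : Function.Injective (E ∘ₗ ModularCurve.periodHomPair N) := by
    rw [← LinearMap.ker_eq_bot, LinearMap.ker_eq_bot']
    intro fg h
    apply S21.PartH.injective_periodHomPair N
    rw [map_zero]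
    have hpar : IsParabolicHom (Gamma0 N) (ModularCurve.periodHomPair N fg) :=
      S21.PartH.range_le N ⟨fg, rfl⟩
    have hpe := isPE_of_isParabolicHom hpar
    have h0 : desc _ hpe = 0 := by
      refine hx _ fun i => ?_
      rw [← hγ i, desc_mkHom]
      exact congrFun h i
    refine DFunLike.ext _ _ fun δ => ?_
    rw [← desc_mkHom _ hpe, h0]
    rfl
  have hfd2 : FiniteDimensional ℂ (CuspForm (Gamma0 N) 2 × CuspForm (Gamma0 N) 2) :=
    FiniteDimensional.of_injective _ hinj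
  have hfd : FiniteDimensional ℂ (CuspForm (Gamma0 N) 2) :=
    FiniteDimensional.of_injective (LinearMap.inl ℂ _ (CuspForm (Gamma0 N) 2))
      LinearMap.inl_injective
  have h := LinearMap.finrank_le_finrank_of_injective hinj
  rw [Module.finrank_prod, Module.finrank_fin_fun] at h
  omega

end Apply

end LLift

/-- **LLIFT**. -/
theorem exists_lift (N : ℕ) [NeZero N]
    (hcount : ∀ (ℓ : ℕ) [Fact ℓ.Prime],
      Finite {φ : Additive (Gamma0 N) →+ ZMod ℓ // IsPE (Gamma0 N) φ} ∧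
      Nat.card {φ : Additive (Gamma0 N) →+ ZMod ℓ // IsPE (Gamma0 N) φ} ≤
        ℓ ^ (2 * Module.finrank ℂ (CuspForm (Gamma0 N) 2)))
    (M : ℕ) (φ : Additive (Gamma0 N) →+ ZMod M) (hφ : IsPE (Gamma0 N) φ) :
    ∃ ψ : Additive (Gamma0 N) →+ ℤ, IsParabolicHom (Gamma0 N) ψ ∧
      ∀ γ, ((ψ γ : ℤ) : ZMod M) = φ γ := by
  obtain ⟨ψ, hψ⟩ := LLift.core (G := LLift.Q (Gamma0 N))
    (2 * Module.finrank ℂ (CuspForm (Gamma0 N) 2)) (LLift.rank_le N) (fun ℓ _ => by
      obtain ⟨hfin, hcard⟩ := hcount ℓ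
      let Ψ : (LLift.Q (Gamma0 N) →+ ZMod ℓ) →
          {φ : Additive (Gamma0 N) →+ ZMod ℓ // IsPE (Gamma0 N) φ} :=
        fun ψ => ⟨ψ.comp (LLift.mkHom _), LLift.isPE_comp ψ⟩
      have hΨ : Function.Injective Ψ := by
        intro a b h
        refine DFunLike.ext _ _ fun x => ?_
        obtain ⟨γ, rfl⟩ := LLift.mkHom_surjective _ x
        exact DFunLike.congr_fun (congrArg Subtype.val h) γ
      exact ⟨Finite.of_injective Ψ hΨ, (Nat.card_le_card_of_injective Ψ hΨ).trans hcard⟩)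
    M (LLift.desc φ hφ)
  exact ⟨ψ.comp (LLift.mkHom _), (LLift.isPE_comp ψ).1, fun γ => hψ _⟩

end Fermat.Agent.S16
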