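import Fermat.Agent.S21.Defs
import Fermat.Agent.S23.Primitive
import Fermat.Agent.S24.JFunQ
import Fermat.Agent.S24.DegMF

/-!
# S16: the trace from `Γ₀(p)` to level one and the Atkin–Lehner operator, at the level of functions
-/

set_option autoImplicit false

namespace Fermat.Agent.S16

open UpperHalfPlane ModularForm CongruenceSubgroup Fermat.Agent.S21 Fermat.Agent.S23
  Fermat.Agent.S23.Prim Filter
open scoped MatrixGroups Manifold Topology

local notation "𝕢" => Function.Periodic.qParam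
local notation "S" => ModularGroup.S
local notation "T" => ModularGroup.T

section group

lemma S_T_zpow_S_inv_mem (p : ℕ) {m : ℤ} (hm : (p : ℤ) ∣ m) : S * T ^ m * S⁻¹ ∈ Gamma0 p := by
  rw [Gamma0_mem, ZMod.intCast_zmod_eq_zero_iff_dvd]
  have : (S * T ^ m * S⁻¹) 1 0 = -m := by
    simp [Matrix.SpecialLinearGroup.coe_mul, ModularGroup.coe_T_zpow, ModularGroup.coe_S,
      Matrix.SpecialLinearGroup.coe_inv, Matrix.adjugate_fin_two, Matrix.mul_apply,
      Fin.sum_univ_two]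
  rw [this]
  exact (dvd_neg).mpr hm

lemma S_T_S_mem (p : ℕ) {b b' : ℤ} (h : (p : ℤ) ∣ b * b' + 1) :
    S * T ^ b * S * (S * T ^ b')⁻¹ ∈ Gamma0 p := by
  rw [Gamma0_mem, ZMod.intCast_zmod_eq_zero_iff_dvd]
  have : (S * T ^ b * S * (S * T ^ b')⁻¹) 1 0 = b * b' + 1 := by
    simp [Matrix.SpecialLinearGroup.coe_mul, ModularGroup.coe_T_zpow, ModularGroup.coe_S,
      Matrix.SpecialLinearGroup.coe_inv, Matrix.adjugate_fin_two, Matrix.mul_apply,
      Fin.sum_univ_two]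
  rw [this]
  exact h

lemma S_mul_S_mem (p : ℕ) : S * S ∈ Gamma0 p := by
  rw [Gamma0_mem]
  simp [Matrix.SpecialLinearGroup.coe_mul, ModularGroup.coe_S, Matrix.mul_apply, Fin.sum_univ_two]

lemma T_mem (p : ℕ) : T ∈ Gamma0 p := by
  rw [Gamma0_mem]
  simp [ModularGroup.coe_T]

end group

section conj

variable {p : ℕ} {k : ℤ} {F : ℍ → ℂ}

lemma slash_mul_of_mem {Γ : Subgroup SL(2, ℤ)} (hF : IsMF Γ k F) {γ : SL(2, ℤ)} (hγ : γ ∈ Γ)
    (g : SL(2, ℤ)) : F ∣[k] (γ * g) = F ∣[k] g := by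
  rw [SlashAction.slash_mul, hF.inv γ hγ]

/-- the conjugates `F|S T^b` -/
noncomputable def cj (k : ℤ) (F : ℍ → ℂ) (b : ℤ) : ℍ → ℂ := F ∣[k] (S * T ^ b)

lemma cj_congr (hF : IsMF (Gamma0 p) k F) {b b' : ℤ} (h : (p : ℤ) ∣ b - b') :
    cj k F b = cj k F b' := by
  unfold cj
  have e : S * T ^ b = (S * T ^ (b - b') * S⁻¹) * (S * T ^ b') := by
    rw [zpow_sub]
    group
  rw [e, slash_mul_of_mem hF (S_T_zpow_S_inv_mem p h)]

lemma cj_slash_T (b : ℤ) : cj k F b ∣[k] T = cj k F (b + 1) := by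
  unfold cj
  rw [← SlashAction.slash_mul, mul_assoc, zpow_add_one]

lemma cj_zero : cj k F 0 = F ∣[k] S := by
  simp [cj]

lemma cj_zero_slash_S (hF : IsMF (Gamma0 p) k F) : cj k F 0 ∣[k] S = F := by
  rw [cj_zero, ← SlashAction.slash_mul]
  exact hF.inv _ (S_mul_S_mem p)

lemma cj_slash_S (hF : IsMF (Gamma0 p) k F) {b b' : ℤ} (h : (p : ℤ) ∣ b * b' + 1) :
    cj k F b ∣[k] S = cj k F b' := by
  unfold cj
  rw [← SlashAction.slash_mul]
  have e : S * T ^ b * S = (S * T ^ b * S * (S * T ^ b')⁻¹) * (S * T ^ b') := by group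
  rw [e, slash_mul_of_mem hF (S_T_S_mem p h)]

lemma cj_mdiff (hF : IsMF (Gamma0 p) k F) (b : ℤ) : MDiff (cj k F b) :=
  hF.holo.slash k _

lemma cj_bdd (hF : IsMF (Gamma0 p) k F) (b : ℤ) : IsBoundedAtImInfty (cj k F b) :=
  hF.bdd _

/-- the sum of the `p` conjugates at the other cusp -/
noncomputable def trU (p : ℕ) [NeZero p] (k : ℤ) (F : ℍ → ℂ) : ℍ → ℂ := ∑ b : ZMod p, cj k F (b.val : ℤ)

/-- the trace to level one -/
noncomputable def tr (p : ℕ) [NeZero p] (k : ℤ) (F : ℍ → ℂ) : ℍ → ℂ := F + trU p k F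

variable [hp : Fact p.Prime]

lemma dvd_val_sub (x : ZMod p) (n : ℤ) (h : (n : ZMod p) = x) : (p : ℤ) ∣ (x.val : ℤ) - n := by
  rw [← ZMod.intCast_zmod_eq_zero_iff_dvd]
  push_cast
  rw [h, ZMod.natCast_zmod_val, sub_self]

lemma trU_slash_T (hF : IsMF (Gamma0 p) k F) : trU p k F ∣[k] T = trU p k F := by
  unfold trU
  rw [SlashAction.sum_slash]
  simp_rw [cj_slash_T]
  rw [← Equiv.sum_comp (Equiv.addRight (1 : ZMod p)) (fun b : ZMod p => cj k F (b.val : ℤ))]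
  refine Finset.sum_congr rfl fun b _ => ?_
  refine (cj_congr hF ?_).symm
  apply dvd_val_sub
  simp

lemma tr_slash_T (hF : IsMF (Gamma0 p) k F) : tr p k F ∣[k] T = tr p k F := by
  unfold tr
  rw [SlashAction.add_slash, trU_slash_T hF, hF.inv _ (T_mem p)]

lemma tr_slash_S (hF : IsMF (Gamma0 p) k F) : tr p k F ∣[k] S = tr p k F := by
  unfold tr trU
  rw [SlashAction.add_slash, SlashAction.sum_slash,
    ← Finset.add_sum_erase Finset.univ _ (Finset.mem_univ (0 : ZMod p)),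
    ← Finset.add_sum_erase Finset.univ (fun b : ZMod p => cj k F (b.val : ℤ))
      (Finset.mem_univ (0 : ZMod p))]
  simp only [ZMod.val_zero, Nat.cast_zero]
  rw [cj_zero_slash_S hF, ← cj_zero]
  have key : ∑ x ∈ Finset.univ.erase (0 : ZMod p), cj k F (x.val : ℤ) ∣[k] S =
      ∑ x ∈ Finset.univ.erase (0 : ZMod p), cj k F (x.val : ℤ) := by
    refine Finset.sum_nbij' (fun b => -b⁻¹) (fun b => -b⁻¹) ?_ ?_ ?_ ?_ ?_
    · intro b hb
      simp only [Finset.mem_erase, Finset.mem_univ, and_true] at hb ⊢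
      simpa using hb
    · intro b hb
      simp only [Finset.mem_erase, Finset.mem_univ, and_true] at hb ⊢
      simpa using hb
    · intro b _
      simp
    · intro b _
      simp
    · intro b hb
      simp only [Finset.mem_erase, Finset.mem_univ, and_true] at hb
      refine cj_slash_S hF ?_
      rw [← ZMod.intCast_zmod_eq_zero_iff_dvd]
      push_cast
      rw [ZMod.natCast_zmod_val, ZMod.natCast_zmod_val]
      field_simp
      ring
  rw [key]
  abel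

theorem isMF_tr (hF : IsMF (Gamma0 p) k F) : IsMF ⊤ k (tr p k F) := by
  have hinv : ∀ γ : SL(2, ℤ), tr p k F ∣[k] γ = tr p k F :=
    SlashInvariantForm.slash_action_generators_SL2Z (tr_slash_S hF) (tr_slash_T hF)
  refine ⟨?_, fun γ _ => hinv γ, fun g => ?_⟩
  · refine hF.holo.add ?_
    unfold trU
    exact MDifferentiable.sum (t := Finset.univ) fun b _ => cj_mdiff hF _
  · rw [hinv g]
    have h1 : IsBoundedAtImInfty F := by simpa using hF.bdd 1
    refine h1.add ?_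
    unfold IsBoundedAtImInfty trU at *
    exact (Filter.boundedFilterSubmodule ℂ atImInfty).sum_mem fun i _ => cj_bdd hF _

end conj

section sharp

open Matrix.SpecialLinearGroup

variable (p : ℕ) [NeZero p] (k : ℤ)

/-- the matrix `(0 -1; p 0)` -/
noncomputable def Wm : GL (Fin 2) ℝ := mapGL ℝ S * Dm p

/-- `F^♯(τ) = (F|_k S)(pτ) = (pτ)^{-k} F(-1/(pτ))` -/
noncomputable def sharp (F : ℍ → ℂ) (τ : ℍ) : ℂ := (F ∣[k] S) (Dm p • τ)

variable {p k}

lemma Wm_mul_of_mem_Gamma0 (γ : SL(2, ℤ)) (hγ : γ ∈ Gamma0 p) :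
    ∃ γ' ∈ Gamma0 p, Wm p * mapGL ℝ γ = mapGL ℝ γ' * Wm p := by
  rw [Gamma0_mem, ZMod.intCast_zmod_eq_zero_iff_dvd] at hγ
  obtain ⟨r', hr'⟩ := hγ
  have hdet := Matrix.det_fin_two γ.1
  rw [γ.2] at hdet
  have hdet' : (!![γ 1 1, -r'; -(p * γ 0 1), γ 0 0] : Matrix (Fin 2) (Fin 2) ℤ).det = 1 := by
    rw [Matrix.det_fin_two_of]
    rw [hr'] at hdet
    linarith
  let γ' : SL(2, ℤ) := ⟨!![γ 1 1, -r'; -(p * γ 0 1), γ 0 0], hdet'⟩
  have e00 : γ' 0 0 = γ 1 1 := rfl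
  have e01 : γ' 0 1 = -r' := rfl
  have e10 : γ' 1 0 = -(p * γ 0 1) := rfl
  have e11 : γ' 1 1 = γ 0 0 := rfl
  refine ⟨γ', ?_, ?_⟩
  · rw [Gamma0_mem, ZMod.intCast_zmod_eq_zero_iff_dvd, e10]
    simp
  · ext i j
    have h10 : ((γ 1 0 : ℤ) : ℝ) = p * r' := by rw [hr']; push_cast; ring
    fin_cases i <;> fin_cases j <;>
      simp [Wm, Dm, Matrix.mul_apply, Fin.sum_univ_two, h10, mul_comm, ModularGroup.coe_S,
        e00, e01, e10, e11]

lemma slash_Wm_apply (F : ℍ → ℂ) (τ : ℍ) :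
    (F ∣[k] Wm p) τ = sharp p k F τ * (p : ℂ) ^ (k - 1) := by
  rw [Wm, SlashAction.slash_mul, Fermat.Agent.S24.DegMF.slash_Dm_apply']
  rfl

/-- `F|W` as a modular form -/
noncomputable def WMF (F : ModularForm (Gamma0 p) k) : ModularForm (Gamma0 p) k where
  toFun := ⇑F ∣[k] Wm p
  slash_action_eq' g hg := by
    obtain ⟨γ, hγ, rfl⟩ := hg
    obtain ⟨γ', hγ'm, hγ'⟩ := Wm_mul_of_mem_Gamma0 γ hγ
    rw [← SlashAction.slash_mul, hγ', SlashAction.slash_mul]
    congr 1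
    exact F.slash_action_eq' _ ⟨γ', hγ'm, rfl⟩
  holo' := (ModularFormClass.holo F).slash k (Wm p)
  bdd_at_cusps' {c} hc := by
    have h := (ModularForm.translate F (Wm p)).bdd_at_cusps' (c := c)
    refine h (hc.mono ?_)
    rintro g ⟨γ, hγ, rfl⟩
    obtain ⟨γ', hγ'm, hγ'⟩ := Wm_mul_of_mem_Gamma0 γ hγ
    rw [Subgroup.mem_pointwise_smul_iff_inv_smul_mem]
    refine ⟨γ', hγ'm, ?_⟩
    simp only [map_inv, inv_inv, ConjAct.smul_def, ConjAct.ofConjAct_toConjAct]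
    rw [hγ']
    group

theorem isMF_sharp {F : ℍ → ℂ} (hF : IsMF (Gamma0 p) k F) : IsMF (Gamma0 p) k (sharp p k F) := by
  have h1 : IsMF (Gamma0 p) k (F ∣[k] Wm p) := isMF_coe (WMF hF.toModularForm)
  have h2 := h1.smul (((p : ℂ) ^ (k - 1))⁻¹)
  have hd0 : (p : ℂ) ≠ 0 := by exact_mod_cast NeZero.ne p
  have e : (((p : ℂ) ^ (k - 1))⁻¹ • (F ∣[k] Wm p)) = sharp p k F := by
    funext τ
    rw [Pi.smul_apply, slash_Wm_apply, smul_eq_mul]
    have := zpow_ne_zero (k - 1) hd0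
    field_simp
  rwa [e] at h2

lemma slash_S_apply (F : ℍ → ℂ) (z : ℍ) : (F ∣[k] S) z = F (S • z) * (z : ℂ) ^ (-k) := by
  rw [SL_slash_apply, ModularGroup.denom_S]

lemma sharp_apply (F : ℍ → ℂ) (τ : ℍ) :
    sharp p k F τ = F (S • (Dm p • τ)) * ((p : ℂ) * τ) ^ (-k) := by
  rw [sharp, slash_S_apply, coe_Dm_smul]

lemma sharp_add (F G : ℍ → ℂ) : sharp p k (F + G) = sharp p k F + sharp p k G := by
  funext τ
  simp [sharp, SlashAction.add_slash]

lemma sharp_sub (F G : ℍ → ℂ) : sharp p k (F - G) = sharp p k F - sharp p k G := by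
  funext τ
  simp [sharp_apply, sub_mul]

lemma sharp_smul (c : ℂ) (F : ℍ → ℂ) : sharp p k (c • F) = c • sharp p k F := by
  funext τ
  simp [sharp_apply, mul_assoc]

lemma sharp_neg (F : ℍ → ℂ) : sharp p k (-F) = -sharp p k F := by
  funext τ
  simp [sharp_apply]

lemma sharp_mul {l : ℤ} (F G : ℍ → ℂ) :
    sharp p (k + l) (F * G) = sharp p k F * sharp p l G := by
  funext τ
  simp only [sharp, mul_slash_SL2, Pi.mul_apply]

lemma sharp_pow (F : ℍ → ℂ) (n : ℕ) : sharp p (n * k) (F ^ n) = sharp p k F ^ n := by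
  induction n with
  | zero =>
    funext τ
    simp [sharp_apply]
  | succ n ih =>
    have e : ((n + 1 : ℕ) : ℤ) * k = n * k + k := by push_cast; ring
    rw [e, pow_succ, sharp_mul, ih, pow_succ]

lemma sharp_of_levelOne {E : ℍ → ℂ} (hE : IsMF ⊤ k E) : sharp p k E = fun τ => E (Dm p • τ) := by
  funext τ
  rw [sharp, hE.inv S trivial]

lemma Dm_S_Dm (τ : ℍ) : Dm p • (S • (Dm p • τ)) = S • τ := by
  ext
  rw [coe_Dm_smul, UpperHalfPlane.modular_S_smul, UpperHalfPlane.modular_S_smul]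
  simp only [coe_Dm_smul]
  have hd0 : (p : ℂ) ≠ 0 := by exact_mod_cast NeZero.ne p
  have := τ.ne_zero
  field_simp

theorem sharp_sharp {F : ℍ → ℂ} (hF : IsMF (Gamma0 p) k F) :
    sharp p k (sharp p k F) = ((p : ℂ) ^ (-k)) • F := by
  funext τ
  have h1 : F τ = (F ∣[k] S) (S • τ) * (τ : ℂ) ^ (-k) := by
    rw [← slash_S_apply, ← SlashAction.slash_mul, hF.inv _ (S_mul_S_mem p)]
  rw [sharp_apply, sharp, Dm_S_Dm, Pi.smul_apply, smul_eq_mul, h1, mul_zpow]
  ring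

lemma sharp_comp_Dm {E : ℍ → ℂ} (hE : IsMF ⊤ k E) :
    sharp p k (fun τ => E (Dm p • τ)) = ((p : ℂ) ^ (-k)) • E := by
  rw [← sharp_of_levelOne hE, sharp_sharp hE.of_top]

end sharp

section qexp

variable {p : ℕ} [NeZero p] {k : ℤ} {F : ℍ → ℂ}

lemma mem_niceAlg_of_isMF (hF : IsMF (Gamma0 p) k F) : F ∈ niceAlg :=
  mem_niceAlg (CongruenceSubgroup.one_mem_strictPeriods_Gamma0 p) hF.toModularForm

lemma mem_niceAlg_of_isMF_top (hF : IsMF ⊤ k F) : F ∈ niceAlg :=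
  mem_niceAlg one_mem_strictPeriods_SL hF.toLevelOne

lemma one_mul_p_pos : (0 : ℝ) < 1 * (p : ℝ) := by
  simpa using Nat.pos_of_ne_zero (NeZero.ne p)

/-- `τ ↦ (τ + b)/p` -/
noncomputable def ub (p : ℕ) [NeZero p] (b : ℤ) : GL (Fin 2) ℝ :=
  upperTriangularGL 1 b p (one_mul_p_pos (p := p)).ne'

lemma coe_ub_smul (b : ℤ) (τ : ℍ) : ((ub p b • τ : ℍ) : ℂ) = ((τ : ℂ) + b) / p := by
  rw [ub, coe_ut_smul _ one_mul_p_pos]
  simp

lemma cj_apply (b : ℤ) (τ : ℍ) : cj k F b τ = sharp p k F (ub p b • τ) := by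
  have h1 : Dm p • (ub p b • τ) = T ^ b • τ := by
    ext
    rw [coe_Dm_smul, coe_ub_smul, ModularGroup.coe_T_zpow_smul_eq]
    have hd0 : (p : ℂ) ≠ 0 := by exact_mod_cast NeZero.ne p
    field_simp
  rw [sharp, h1, cj, SlashAction.slash_mul, SL_slash_apply (F ∣[k] S)]
  rw [ModularGroup.denom_apply, ModularGroup.coe_T_zpow]
  simp

lemma sum_zmod_val {M : Type*} [AddCommMonoid M] (f : ℕ → M) :
    ∑ b : ZMod p, f b.val = ∑ i ∈ Finset.range p, f i := by
  refine Finset.sum_bij (fun b _ => b.val) ?_ ?_ ?_ ?_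
  · intro b _
    exact Finset.mem_range.mpr (ZMod.val_lt b)
  · intro a _ b _ h
    exact ZMod.val_injective p h
  · intro i hi
    exact ⟨(i : ZMod p), Finset.mem_univ _, ZMod.val_cast_of_lt (Finset.mem_range.mp hi)⟩
  · intro b _
    rfl

lemma sum_root_pow (n : ℕ) :
    ∑ b : ZMod p, (Complex.exp (2 * Real.pi * Complex.I / p) ^ n) ^ b.val =
      if p ∣ n then (p : ℂ) else 0 := by
  have hprim := Complex.isPrimitiveRoot_exp p (NeZero.ne p)
  rw [sum_zmod_val (fun i => (Complex.exp (2 * Real.pi * Complex.I / p) ^ n) ^ i)]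
  split_ifs with h
  · rw [(hprim.pow_eq_one_iff_dvd n).mpr h]
    simp
  · have h1 : Complex.exp (2 * Real.pi * Complex.I / p) ^ n ≠ 1 := fun h' =>
      h ((hprim.pow_eq_one_iff_dvd n).mp h')
    have h2 := mul_neg_geom_sum (Complex.exp (2 * Real.pi * Complex.I / p) ^ n) p
    rw [← pow_mul, mul_comm n p, pow_mul, hprim.pow_eq_one, one_pow, sub_self] at h2
    exact (mul_eq_zero.mp h2).resolve_left (sub_ne_zero.mpr h1.symm)

lemma qParam_ub (b : ℕ) (τ : ℍ) :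
    𝕢 1 ((ub p b • τ : ℍ) : ℂ) =
      𝕢 p (τ : ℂ) * Complex.exp (2 * Real.pi * Complex.I / p) ^ b := by
  rw [coe_ub_smul, Function.Periodic.qParam, Function.Periodic.qParam, ← Complex.exp_nat_mul,
    ← Complex.exp_add]
  congr 1
  have hd0 : (p : ℂ) ≠ 0 := by exact_mod_cast NeZero.ne p
  push_cast
  field_simp

lemma qParam_p_pow (τ : ℍ) : 𝕢 p (τ : ℂ) ^ p = 𝕢 1 (τ : ℂ) := by
  rw [Function.Periodic.qParam, Function.Periodic.qParam, ← Complex.exp_nat_mul]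
  congr 1
  have hd0 : (p : ℂ) ≠ 0 := by exact_mod_cast NeZero.ne p
  push_cast
  field_simp

lemma hasSum_trU (hF : IsMF (Gamma0 p) k F) (τ : ℍ) :
    HasSum (fun m : ℕ => ((p : ℂ) * (qExpansion 1 (sharp p k F)).coeff (p * m)) • 𝕢 1 (τ : ℂ) ^ m)
      (trU p k F τ) := by
  have hG := mem_niceAlg_of_isMF (isMF_sharp hF)
  have h1 : ∀ b : ZMod p, HasSum (fun n : ℕ => (qExpansion 1 (sharp p k F)).coeff n •
      𝕢 1 ((ub p (b.val : ℤ) • τ : ℍ) : ℂ) ^ n) (cj k F (b.val : ℤ) τ) := by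
    intro b
    rw [cj_apply (p := p)]
    exact hasSum_qExpansion one_pos hG.1 hG.2.1 hG.2.2 _
  have h2 := hasSum_sum (s := Finset.univ) fun b _ => h1 b
  have h3 : trU p k F τ = ∑ b : ZMod p, cj k F (b.val : ℤ) τ := by
    simp [trU]
  rw [h3]
  have hinj : Function.Injective (fun m : ℕ => p * m) := fun a b h =>
    Nat.eq_of_mul_eq_mul_left (Nat.pos_of_ne_zero (NeZero.ne p)) h
  have key : ∀ n : ℕ, ∑ b : ZMod p, (qExpansion 1 (sharp p k F)).coeff n •
      𝕢 1 ((ub p (b.val : ℤ) • τ : ℍ) : ℂ) ^ n =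
      if p ∣ n then ((p : ℂ) * (qExpansion 1 (sharp p k F)).coeff n) * 𝕢 p (τ : ℂ) ^ n else 0 := by
    intro n
    have : ∀ b : ZMod p, (qExpansion 1 (sharp p k F)).coeff n •
        𝕢 1 ((ub p (b.val : ℤ) • τ : ℍ) : ℂ) ^ n =
        ((qExpansion 1 (sharp p k F)).coeff n * 𝕢 p (τ : ℂ) ^ n) *
          (Complex.exp (2 * Real.pi * Complex.I / p) ^ n) ^ b.val := by
      intro b
      have e : 𝕢 1 ((ub p (b.val : ℤ) • τ : ℍ) : ℂ) =
          𝕢 p (τ : ℂ) * Complex.exp (2 * Real.pi * Complex.I / p) ^ b.val :=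
        qParam_ub (p := p) b.val τ
      rw [smul_eq_mul, e, mul_pow, ← pow_mul, ← pow_mul, mul_comm b.val n]
      ring
    simp_rw [this]
    rw [← Finset.mul_sum, sum_root_pow]
    split_ifs
    · ring
    · simp
  simp_rw [key] at h2
  rw [← hinj.hasSum_iff] at h2
  · convert h2 using 2 with m
    simp only [Function.comp_apply, dvd_mul_right, if_true, smul_eq_mul]
    rw [pow_mul, qParam_p_pow]
  · intro x hx
    have : ¬ p ∣ x := by
      rintro ⟨y, rfl⟩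
      exact hx ⟨y, rfl⟩
    simp [this]

end qexp

section qexp2

variable {p : ℕ} [hp : Fact p.Prime] {k : ℤ} {F : ℍ → ℂ}

lemma trU_mem_niceAlg (hF : IsMF (Gamma0 p) k F) : trU p k F ∈ niceAlg := by
  have h1 := mem_niceAlg_of_isMF_top (isMF_tr hF)
  have h2 := mem_niceAlg_of_isMF hF
  have : trU p k F = tr p k F - F := by simp [tr]
  rw [this]
  exact sub_mem h1 h2

theorem qExpansion_trU_coeff (hF : IsMF (Gamma0 p) k F) (n : ℕ) :
    (qExpansion 1 (trU p k F)).coeff n = (p : ℂ) * (qExpansion 1 (sharp p k F)).coeff (p * n) :=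
  (Fermat.Agent.S24.qExpansion_coeff_unique' (analyticAt_of_mem_niceAlg (trU_mem_niceAlg hF))
    (hasSum_trU hF) n).symm

/-- the `q`-expansion of the trace -/
theorem qExpansion_tr_coeff (hF : IsMF (Gamma0 p) k F) (n : ℕ) :
    (qExpansion 1 (tr p k F)).coeff n =
      (qExpansion 1 F).coeff n + (p : ℂ) * (qExpansion 1 (sharp p k F)).coeff (p * n) := by
  rw [tr, qExpansion_add (analyticAt_of_mem_niceAlg (mem_niceAlg_of_isMF hF))
    (analyticAt_of_mem_niceAlg (trU_mem_niceAlg hF)), map_add, qExpansion_trU_coeff hF]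

lemma qExpansion_smul' {G : ℍ → ℂ} (hG : G ∈ niceAlg) (c : ℂ) :
    qExpansion 1 (c • G) = c • qExpansion 1 G :=
  qExpansion_smul (analyticAt_of_mem_niceAlg hG) c

/-- weight `2`: the trace vanishes -/
theorem tr_two_eq_zero (hF : IsMF (Gamma0 p) 2 F) : tr p 2 F = 0 :=
  isMF_top_two_eq_zero (isMF_tr hF)

theorem coeff_eq_neg_of_two (hF : IsMF (Gamma0 p) 2 F) (n : ℕ) :
    (qExpansion 1 F).coeff n = -((p : ℂ) * (qExpansion 1 (sharp p 2 F)).coeff (p * n)) := by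
  have h := qExpansion_tr_coeff hF n
  rw [tr_two_eq_zero hF, qExpansion_zero, map_zero] at h
  linear_combination -h

/-- weight `2`: `F^♯ = -p⁻¹ U_p F`, i.e. `F|W = -U_p F` -/
theorem sharp_two_coeff (hF : IsMF (Gamma0 p) 2 F) (n : ℕ) :
    (qExpansion 1 (sharp p 2 F)).coeff n = -((p : ℂ)⁻¹ * (qExpansion 1 F).coeff (p * n)) := by
  have h := coeff_eq_neg_of_two (isMF_sharp hF) n
  rw [sharp_sharp hF, qExpansion_smul' (mem_niceAlg_of_isMF hF), PowerSeries.coeff_smul,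
    smul_eq_mul] at h
  rw [h]
  have hd0 : (p : ℂ) ≠ 0 := by exact_mod_cast hp.out.ne_zero
  have e : (p : ℂ) ^ (-2 : ℤ) = ((p : ℂ) ^ 2)⁻¹ := by
    rw [zpow_neg]; norm_cast
  rw [e]
  field_simp

/-- weight `2`: `U_p² = 1` -/
theorem coeff_p_sq_of_two (hF : IsMF (Gamma0 p) 2 F) (n : ℕ) :
    (qExpansion 1 F).coeff (p * (p * n)) = (qExpansion 1 F).coeff n := by
  have h1 := coeff_eq_neg_of_two hF n
  rw [sharp_two_coeff hF] at h1
  have hd0 : (p : ℂ) ≠ 0 := by exact_mod_cast hp.out.ne_zero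
  rw [h1]
  field_simp

end qexp2

section Vp

variable {p : ℕ} [NeZero p]

lemma comp_Dm_mem_niceAlg {E : ℍ → ℂ} (hE : E ∈ niceAlg) : (fun τ => E (Dm p • τ)) ∈ niceAlg := by
  have hdet : 0 < (Dm p).det.val := by
    rw [Dm, det_ut]
    exact N_mul_one_pos p
  refine ⟨?_, hE.2.1.comp (mdifferentiable_smul hdet), ?_⟩
  · intro w
    by_cases hw : 0 < w.im
    · have hw' : 0 < (w + 1).im := by simpa using hw
      simp only [Function.comp_apply, ofComplex_apply_of_im_pos hw, ofComplex_apply_of_im_pos hw']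
      have h1 := hE.1.nat_mul p ((Dm p • (⟨w, hw⟩ : ℍ) : ℍ) : ℂ)
      simp only [Function.comp_apply, ofComplex_apply] at h1
      rw [← h1]
      have e : ((Dm p • (⟨w, hw⟩ : ℍ) : ℍ) : ℂ) + p * 1 = ((Dm p • (⟨w + 1, hw'⟩ : ℍ) : ℍ) : ℂ) := by
        rw [coe_Dm_smul, coe_Dm_smul]
        show (p : ℂ) * w + p * 1 = p * (w + 1)
        ring
      rw [e, ofComplex_apply]
    · have hw' : (w + 1).im ≤ 0 := by simpa using not_lt.mp hw
      simp only [Function.comp_apply]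
      rw [ofComplex_apply_eq_of_im_nonpos hw' (not_lt.mp hw)]
  · have := tendsto_ut_smul (a := p) (b := 0) (d := 1)
      (by exact_mod_cast Nat.pos_of_ne_zero (NeZero.ne p)) one_pos
    exact hE.2.2.comp_tendsto this

/-- the `q`-expansion of `E(pτ)` -/
theorem qExpansion_comp_Dm_coeff {E : ℍ → ℂ} (hE : E ∈ niceAlg) (n : ℕ) :
    (qExpansion 1 (fun τ => E (Dm p • τ))).coeff n =
      if p ∣ n then (qExpansion 1 E).coeff (n / p) else 0 := by
  have hN : 0 < p := Nat.pos_of_ne_zero (NeZero.ne p)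
  refine (Fermat.Agent.S24.qExpansion_coeff_unique'
    (c := fun n => if p ∣ n then (qExpansion 1 E).coeff (n / p) else 0)
    (analyticAt_of_mem_niceAlg (comp_Dm_mem_niceAlg hE)) ?_ n).symm
  intro τ
  have h1 := hasSum_qExpansion one_pos hE.1 hE.2.1 hE.2.2 (Dm p • τ)
  have hinj : Function.Injective (fun m : ℕ => m * p) := fun a b h =>
    Nat.eq_of_mul_eq_mul_right hN h
  rw [← hinj.hasSum_iff]
  · convert h1 using 2 with m
    simp only [Function.comp_apply, dvd_mul_left, if_true, Nat.mul_div_cancel _ hN, smul_eq_mul]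
    rw [qParam_Dm, ← pow_mul, mul_comm p m]
  · intro x hx
    have : ¬ p ∣ x := by
      rintro ⟨y, rfl⟩
      exact hx ⟨y, mul_comm _ _⟩
    simp [this]

end Vp

end Fermat.Agent.S16
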