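import Fermat.Agent.S16.LevelOneDefs
import Fermat.Agent.S24.JFunOrd

/-!
# S16, level-one block: `q`-expansions of `E₂, E₄, E₆, Δ`, the operator `θ = q d/dq`,
and Ramanujan's identities in `ℤ⟦q⟧`
-/

set_option autoImplicit false

namespace Fermat.Agent.S16

open UpperHalfPlane ModularForm Filter Fermat.Agent.S21 Fermat.Agent.S23 Fermat.Agent.S24 Derivative
open scoped MatrixGroups Manifold Topology

local notation "𝕢" => Function.Periodic.qParam

namespace LevelOne

/-- `θ = q d/dq` on power series -/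
noncomputable def theta (A : Type*) [CommRing A] : Derivation A (PowerSeries A) (PowerSeries A) :=
  (PowerSeries.X : PowerSeries A) • PowerSeries.derivative A

lemma theta_apply {A : Type*} [CommRing A] (f : PowerSeries A) :
    theta A f = PowerSeries.X * PowerSeries.derivative A f := rfl

lemma coeff_theta {A : Type*} [CommRing A] (f : PowerSeries A) (n : ℕ) :
    (theta A f).coeff n = n * f.coeff n := by
  rw [theta_apply]
  cases n with
  | zero => simp
  | succ n =>
    rw [mul_comm, PowerSeries.coeff_succ_mul_X, PowerSeries.coeff_derivative]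
    push_cast
    ring

lemma theta_map {A B : Type*} [CommRing A] [CommRing B] (φ : A →+* B) (f : PowerSeries A) :
    theta B (f.map φ) = (theta A f).map φ := by
  ext n
  simp [coeff_theta]

/-- the normalised derivative of a nice function is nice, with `q`-expansion `θ` of the
`q`-expansion -/
lemma D_mem_niceAlg {g : ℍ → ℂ} (hg : g ∈ niceAlg) :
    normalizedDerivOfComplex g ∈ niceAlg ∧
      qExpansion 1 (normalizedDerivOfComplex g) = theta ℂ (qExpansion 1 g) := by
  set G := cuspFunction 1 g with hG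
  have hGd : DifferentiableOn ℂ G (Metric.ball 0 1) :=
    differentiableOn_cuspFunction_ball one_pos hg.1 hg.2.1 hg.2.2
  have hG'd : DifferentiableOn ℂ (deriv G) (Metric.ball 0 1) := hGd.deriv Metric.isOpen_ball
  have key : normalizedDerivOfComplex g = qFun * fun τ : ℍ => deriv G (𝕢 1 τ) := by
    funext τ
    have h1 : (g ∘ ofComplex) =ᶠ[𝓝 (τ : ℂ)] (G ∘ 𝕢 1) := by
      filter_upwards [isOpen_upperHalfPlaneSet.mem_nhds τ.im_pos] with z hz
      have := eq_cuspFunction (f := g) (h := 1) ⟨z, hz⟩ one_ne_zero hg.1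
      simp only [Function.comp_apply, ofComplex_apply_of_im_pos hz]
      exact this.symm
    have h2 : HasDerivAt (𝕢 1) (2 * Real.pi * Complex.I * 𝕢 1 (τ : ℂ)) (τ : ℂ) := by
      have : HasDerivAt (fun z : ℂ => 2 * Real.pi * Complex.I * z / (1 : ℝ))
          (2 * Real.pi * Complex.I) (τ : ℂ) := by
        simpa using (hasDerivAt_id (τ : ℂ)).const_mul (2 * Real.pi * Complex.I)
      have h := this.cexp
      rw [mul_comm (Complex.exp _)] at h
      exact h
    have h3 : HasDerivAt G (deriv G (𝕢 1 (τ : ℂ))) (𝕢 1 (τ : ℂ)) :=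
      (hGd.differentiableAt (Metric.isOpen_ball.mem_nhds
        (by simpa using norm_qParam_lt_one' τ))).hasDerivAt
    have h4 := (h3.comp (τ : ℂ) h2).deriv
    unfold normalizedDerivOfComplex
    rw [h1.deriv_eq, h4]
    simp only [Pi.mul_apply, qFun]
    have := Complex.two_pi_I_ne_zero
    field_simp
  have hm : (fun τ : ℍ => deriv G (𝕢 1 τ)) ∈ niceAlg := mem_niceAlg_comp_qParam hG'd
  refine ⟨key ▸ mul_mem qFun_mem hm, ?_⟩
  have h5 : qHom (⟨qFun, qFun_mem⟩ * ⟨_, hm⟩) =
      PowerSeries.X * qExpansion 1 (fun τ : ℍ => deriv G (𝕢 1 τ)) := by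
    rw [map_mul, qHom_apply, qHom_apply, qExpansion_qFun]
  rw [key, theta_apply]
  refine h5.trans ?_
  congr 1
  ext n
  rw [qExpansion_comp_qParam_coeff hG'd, PowerSeries.coeff_derivative, qExpansion_coeff,
    ← iteratedDeriv_succ', Nat.factorial_succ]
  have : ((n : ℂ) + 1) ≠ 0 := by exact_mod_cast Nat.succ_ne_zero n
  have h6 : (n.factorial : ℂ) ≠ 0 := by exact_mod_cast Nat.factorial_ne_zero n
  push_cast
  field_simp
  rfl

/-! ### the `q`-expansions -/

lemma cst_injective : Function.Injective (cst ℂ) :=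
  PowerSeries.map_injective _ Int.cast_injective

theorem qExpansion_E4 : qExpansion 1 E₄ = cst ℂ E4q := Fermat.Agent.S24.qExpansion_E4

theorem qExpansion_E6 : qExpansion 1 E₆ = cst ℂ E6q := by
  ext m
  rw [EisensteinSeries.E_qExpansion_coeff _ ⟨3, rfl⟩, PowerSeries.coeff_map,
    E6q, PowerSeries.coeff_mk, show bernoulli 6 = 1 / 42 by decide +kernel]
  split_ifs with h
  · simp
  · simp only [ArithmeticFunction.sigma_apply]
    push_cast
    norm_num

theorem qExpansion_D : qExpansion 1 discriminant = cst ℂ Dq := by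
  rw [qExpansion_discriminant, Dq, cst, map_mul, PowerSeries.map_X]

lemma E2_mem : EisensteinSeries.E2 ∈ niceAlg :=
  ⟨periodic_E2, E2_mdifferentiable, EisensteinSeries.isBoundedAtImInfty_E2⟩

lemma E6_mem : (⇑E₆ : ℍ → ℂ) ∈ niceAlg := mem_niceAlg one_mem_strictPeriods_SL E₆

theorem qExpansion_E2 : qExpansion 1 EisensteinSeries.E2 = cst ℂ E2q := by
  ext m
  have h := qExpansion_coeff_unique' (analyticAt_of_mem_niceAlg E2_mem)
    (c := fun m : ℕ => (if m = 0 then 1 else -24 * ArithmeticFunction.sigma 1 m : ℂ))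
    (fun τ => by
      simpa only [Function.Periodic.qParam, Complex.ofReal_one, div_one] using
        EisensteinSeries.hasSum_qExpansion_E2 (z := τ)) m
  rw [← h, PowerSeries.coeff_map, E2q, PowerSeries.coeff_mk]
  split_ifs with h
  · simp
  · simp only [ArithmeticFunction.sigma_apply]
    push_cast
    norm_num

/-! ### Ramanujan's identities -/

/-- transfer an identity between nice functions to their `q`-expansions -/
lemma qExp_eq_of_eq {a b : niceAlg} (h : a = b) : qHom a = qHom b := by rw [h]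

theorem ramanujan_E4 : 3 * theta ℤ E4q = E2q * E4q - E6q := by
  apply cst_injective
  have h : (3 : niceAlg) * ⟨_, (D_mem_niceAlg E4_mem).1⟩ =
      ⟨_, E2_mem⟩ * ⟨_, E4_mem⟩ - ⟨_, E6_mem⟩ := by
    apply Subtype.ext
    funext τ
    show (3 : ℂ) * normalizedDerivOfComplex (E₄ : ℍ → ℂ) τ = EisensteinSeries.E2 τ * E₄ τ - E₆ τ
    rw [D_E4]
    ring
  have h2 := qExp_eq_of_eq h
  simp only [map_mul, map_sub, qHom_apply, (D_mem_niceAlg E4_mem).2, qExpansion_E4, qExpansion_E2,
    qExpansion_E6, map_ofNat] at h2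
  simp only [cst, map_mul, map_sub, ← theta_map, map_ofNat]
  exact h2

theorem ramanujan_E6 : 2 * theta ℤ E6q = E2q * E6q - E4q ^ 2 := by
  apply cst_injective
  have h : (2 : niceAlg) * ⟨_, (D_mem_niceAlg E6_mem).1⟩ =
      ⟨_, E2_mem⟩ * ⟨_, E6_mem⟩ - ⟨_, E4_mem⟩ ^ 2 := by
    apply Subtype.ext
    funext τ
    show (2 : ℂ) * normalizedDerivOfComplex (E₆ : ℍ → ℂ) τ =
      EisensteinSeries.E2 τ * E₆ τ - E₄ τ ^ 2
    rw [D_E6]
    ring
  have h2 := qExp_eq_of_eq h
  simp only [map_mul, map_sub, map_pow, qHom_apply, (D_mem_niceAlg E6_mem).2, qExpansion_E4,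
    qExpansion_E2, qExpansion_E6, map_ofNat] at h2
  simp only [cst, map_mul, map_sub, map_pow, ← theta_map, map_ofNat]
  exact h2

theorem E4q_cube_sub_E6q_sq : E4q ^ 3 - E6q ^ 2 = 1728 * Dq := by
  apply cst_injective
  have h : (⟨_, E4_mem⟩ : niceAlg) ^ 3 - ⟨_, E6_mem⟩ ^ 2 = 1728 * ⟨_, discriminant_mem⟩ := by
    apply Subtype.ext
    funext τ
    show E₄ τ ^ 3 - E₆ τ ^ 2 = (1728 : ℂ) * discriminant τ
    rw [discriminant_eq_E₄_cube_sub_E₆_sq]
    ring
  have h2 := qExp_eq_of_eq h
  simp only [map_mul, map_sub, map_pow, qHom_apply, qExpansion_E4,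
    qExpansion_D, qExpansion_E6, map_ofNat] at h2
  simp only [cst, map_mul, map_sub, map_pow, map_ofNat]
  exact h2

lemma constantCoeff_E2q : PowerSeries.constantCoeff E2q = 1 := by
  rw [← PowerSeries.coeff_zero_eq_constantCoeff]
  simp [E2q]

lemma constantCoeff_E4q : PowerSeries.constantCoeff E4q = 1 :=
  ModularCurve.constantCoeff_eisenstein4

lemma constantCoeff_E6q : PowerSeries.constantCoeff E6q = 1 := by
  rw [← PowerSeries.coeff_zero_eq_constantCoeff]
  simp [E6q]

end LevelOne

end Fermat.Agent.S16
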