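import Fermat.Agent.S16.LDefs

set_option autoImplicit false

/-!
# S16, block D: the cocycle formula for Hecke operators on periods
-/

namespace Fermat.Agent.S16

open CongruenceSubgroup ModularCurve ModularCurve.Period UpperHalfPlane CuspForm
open Matrix.SpecialLinearGroup
open scoped MatrixGroups ModularForm

/-- chain rule, weight 2, for `GL₂(ℝ)⁺`. -/
theorem isPrim_comp_smul_GL {f F : ℍ → ℂ} (h : S21.IsPrim f F) (g : GL (Fin 2) ℝ)
    (hg : 0 < g.val.det) : S21.IsPrim (f ∣[(2 : ℤ)] g) (fun z => F (g • z)) := by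
  have hdet : g.det.val = g.val.det := Matrix.GeneralLinearGroup.val_det_apply g
  have hg' : 0 < g.det.val := hdet ▸ hg
  have h1 := S22P.IsDer.comp_smul h g hg'
  refine S22P.IsDer.congr h1 fun τ => ?_
  rw [ModularForm.slash_apply, UpperHalfPlane.σ, if_pos hg']
  simp only [ContinuousAlgEquiv.refl_apply]
  rw [abs_of_pos hg', show (2 : ℤ) - 1 = 1 by norm_num, zpow_one, zpow_neg]
  rw [show (2 : ℤ) = ((2 : ℕ) : ℤ) by norm_num, zpow_natCast]
  ring

theorem isPrim_sum {ι : Type*} (s : Finset ι) {f F : ι → ℍ → ℂ}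
    (h : ∀ i ∈ s, S21.IsPrim (f i) (F i)) : S21.IsPrim (∑ i ∈ s, f i) (∑ i ∈ s, F i) := by
  classical
  induction s using Finset.induction_on with
  | empty =>
    intro τ
    simp
  | insert a s ha ih =>
    rw [Finset.sum_insert ha, Finset.sum_insert ha]
    exact S21.PartG1.IsPrim.add (h a (Finset.mem_insert_self a s))
      (ih fun i hi => h i (Finset.mem_insert_of_mem hi))

/-- **LHECKE**: the cocycle formula. -/
theorem Per_hecke {N : ℕ} [NeZero N] {ι : Type*} [Fintype ι] (α : ι → GL (Fin 2) ℝ)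
    (hdet : ∀ x, 0 < (α x).val.det)
    (T : CuspForm (Gamma0 N) 2 →ₗ[ℂ] CuspForm (Gamma0 N) 2)
    (hT : ∀ f : CuspForm (Gamma0 N) 2, ⇑(T f) = ∑ x, (f : ℍ → ℂ) ∣[(2 : ℤ)] α x)
    (γ : Gamma0 N) (σ : Equiv.Perm ι) (γ' : ι → Gamma0 N)
    (h : ∀ x, α x * mapGL ℝ (γ : SL(2, ℤ)) = mapGL ℝ (γ' x : SL(2, ℤ)) * α (σ x))
    (f : CuspForm (Gamma0 N) 2) :
    Per N (T f) (Additive.ofMul γ) = ∑ x, Per N f (Additive.ofMul (γ' x)) := by
  obtain ⟨F, hF⟩ := S21.exists_isPrim (f := f) f.holo'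
  have hG : S21.IsPrim (T f) (∑ x, fun z => F (α x • z)) := by
    rw [hT]
    exact isPrim_sum _ fun x _ => isPrim_comp_smul_GL hF (α x) (hdet x)
  rw [Per_spec N (T f) _ hG γ UpperHalfPlane.I]
  simp only [Finset.sum_apply]
  have key : ∀ x, F (α x • ((γ : SL(2, ℤ)) • UpperHalfPlane.I)) =
      Per N f (Additive.ofMul (γ' x)) + F (α (σ x) • UpperHalfPlane.I) := by
    intro x
    rw [Per_spec N f F hF (γ' x) (α (σ x) • UpperHalfPlane.I)]
    have e : α x • ((γ : SL(2, ℤ)) • UpperHalfPlane.I) =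
        ((γ' x : Gamma0 N) : SL(2, ℤ)) • (α (σ x) • UpperHalfPlane.I) := by
      have e1 : ∀ (g : SL(2, ℤ)) (z : ℍ), g • z = mapGL ℝ g • z := fun g z => rfl
      rw [e1, e1, ← mul_smul, ← mul_smul, h x]
    rw [e]; ring
  simp only [key]
  rw [Finset.sum_add_distrib, Equiv.sum_comp σ (fun x => F (α x • UpperHalfPlane.I))]
  ring

open P2MW.S_ModularForm_heckeT_slash_eq_self_of_mem_Gamma0.ModularForm.HeckeSlashInvariance

/-- existence of the shifted elements for `T_q`, `q ∤ N`. -/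
theorem exists_shift_T {N q : ℕ} [Fact q.Prime] (hqN : ¬ q ∣ N) (γ : Gamma0 N) :
    ∃ (σ : Equiv.Perm (OnePoint (ZMod q))) (γ' : OnePoint (ZMod q) → Gamma0 N),
      ∀ x, heckeRep q x * mapGL ℝ (γ : SL(2, ℤ)) = mapGL ℝ (γ' x : SL(2, ℤ)) * heckeRep q (σ x) := by
  have hcN : (N : ℤ) ∣ (γ : SL(2, ℤ)) 1 0 :=
    (ZMod.intCast_zmod_eq_zero_iff_dvd _ _).mp (Gamma0_mem.mp γ.2)
  choose g' hg' hmul using fun x => heckeRep_mul hqN (γ : SL(2, ℤ)) hcN x
  exact ⟨MulAction.toPerm (redMatrix q (γ : SL(2, ℤ))),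
    fun x => ⟨g' x, Gamma0_mem.mpr ((ZMod.intCast_zmod_eq_zero_iff_dvd _ _).mpr (hg' x))⟩, hmul⟩

/-- existence of the shifted elements for `U_q`, `q ∣ N`. -/
theorem exists_shift_U {N q : ℕ} [NeZero q] (hqN : q ∣ N) (γ : Gamma0 N) :
    ∃ (σ : Equiv.Perm (ZMod q)) (γ' : ZMod q → Gamma0 N),
      ∀ x, ModularForm.heckeMatrix q x.val * mapGL ℝ (γ : SL(2, ℤ)) =
        mapGL ℝ (γ' x : SL(2, ℤ)) * ModularForm.heckeMatrix q (σ x).val := by
  have hcN : (N : ℤ) ∣ (γ : SL(2, ℤ)) 1 0 :=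
    (ZMod.intCast_zmod_eq_zero_iff_dvd _ _).mp (Gamma0_mem.mp γ.2)
  have hc : (q : ℤ) ∣ (γ : SL(2, ℤ)) 1 0 := (Int.natCast_dvd_natCast.mpr hqN).trans hcN
  choose g' hg' hmul using fun x => heckeMatrix_mul_of_dvd (γ : SL(2, ℤ)) hc x
  refine ⟨affinePerm (γ : SL(2, ℤ)) ((ZMod.intCast_zmod_eq_zero_iff_dvd _ _).mpr hc),
    fun x => ⟨g' x, ?_⟩, hmul⟩
  rw [Gamma0_mem, hg' x]
  push_cast
  rw [Gamma0_mem.mp γ.2, mul_zero]

theorem Per_heckeT {N q : ℕ} [NeZero N] [Fact q.Prime] (hq : q.Prime) (hqN : ¬ q ∣ N)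
    (γ : Gamma0 N) (σ : Equiv.Perm (OnePoint (ZMod q))) (γ' : OnePoint (ZMod q) → Gamma0 N)
    (h : ∀ x, heckeRep q x * mapGL ℝ (γ : SL(2, ℤ)) = mapGL ℝ (γ' x : SL(2, ℤ)) * heckeRep q (σ x))
    (f : CuspForm (Gamma0 N) 2) :
    Per N (heckeTLin 2 hq hqN f) (Additive.ofMul γ) = ∑ x, Per N f (Additive.ofMul (γ' x)) := by
  refine Per_hecke (heckeRep q) ?_ (heckeTLin 2 hq hqN) ?_ γ σ γ' h f
  · intro x
    induction x using OnePoint.rec with
    | infty =>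
      have := ModularForm.det_heckeDiagMatrix_pos q
      rwa [Matrix.GeneralLinearGroup.val_det_apply] at this
    | coe j =>
      have := ModularForm.det_heckeMatrix_pos q j.val
      rwa [Matrix.GeneralLinearGroup.val_det_apply] at this
  · intro f
    rw [CuspForm.coe_heckeTLin_apply, heckeT_eq_sum_onePoint]

theorem Per_heckeU {N q : ℕ} [NeZero N] [NeZero q] (hqN : q ∣ N)
    (γ : Gamma0 N) (σ : Equiv.Perm (ZMod q)) (γ' : ZMod q → Gamma0 N)
    (h : ∀ x, ModularForm.heckeMatrix q x.val * mapGL ℝ (γ : SL(2, ℤ)) =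
        mapGL ℝ (γ' x : SL(2, ℤ)) * ModularForm.heckeMatrix q (σ x).val)
    (f : CuspForm (Gamma0 N) 2) :
    Per N (heckeULin 2 hqN f) (Additive.ofMul γ) = ∑ x, Per N f (Additive.ofMul (γ' x)) := by
  refine Per_hecke (fun x : ZMod q => ModularForm.heckeMatrix q x.val) ?_ (heckeULin 2 hqN) ?_
    γ σ γ' h f
  · intro x
    have := ModularForm.det_heckeMatrix_pos q x.val
    rwa [Matrix.GeneralLinearGroup.val_det_apply] at this
  · intro f
    rw [CuspForm.coe_heckeULin_apply, heckeU_eq_sum_zmod]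

end Fermat.Agent.S16
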