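import Fermat.Agent.S16.LHecke

set_option autoImplicit false

/-!
# S16, block D: assembly of the lower bound from the packages (taken as hypotheses)
-/

namespace Fermat.Agent.S16

open CongruenceSubgroup ModularCurve ModularCurve.Period UpperHalfPlane CuspForm
open Matrix.SpecialLinearGroup
open scoped MatrixGroups ModularForm
open P2MW.S_ModularForm_heckeT_slash_eq_self_of_mem_Gamma0.ModularForm.HeckeSlashInvariance

/-- forms all of whose periods have real part in `M ℤ`. -/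
def LamM (N : ℕ) [NeZero N] (M : ℤ) : AddSubgroup (CuspForm (Gamma0 N) 2) where
  carrier := {f | ∀ γ : Gamma0 N, ∃ m : ℤ, (Per N f (Additive.ofMul γ)).re = M * m}
  zero_mem' := fun γ => ⟨0, by simp⟩
  add_mem' := by
    intro f g hf hg γ
    obtain ⟨m, hm⟩ := hf γ
    obtain ⟨m', hm'⟩ := hg γ
    exact ⟨m + m', by simp [hm, hm']; ring⟩
  neg_mem' := by
    intro f hf γ
    obtain ⟨m, hm⟩ := hf γ
    exact ⟨-m, by simp [hm]⟩

theorem mem_LamM {N : ℕ} [NeZero N] {M : ℤ} {f : CuspForm (Gamma0 N) 2} :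
    f ∈ LamM N M ↔ ∀ γ : Gamma0 N, ∃ m : ℤ, (Per N f (Additive.ofMul γ)).re = M * m := Iff.rfl

theorem exists_sum_eq {ι : Type*} (s : Finset ι) (M : ℤ) (r : ι → ℝ)
    (h : ∀ x ∈ s, ∃ m : ℤ, r x = M * m) : ∃ m : ℤ, ∑ x ∈ s, r x = M * m := by
  classical
  induction s using Finset.induction_on with
  | empty => exact ⟨0, by simp⟩
  | insert a s ha ih =>
    obtain ⟨m, hm⟩ := h a (Finset.mem_insert_self a s)
    obtain ⟨m', hm'⟩ := ih fun i hi => h i (Finset.mem_insert_of_mem hi)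
    exact ⟨m + m', by rw [Finset.sum_insert ha, hm, hm']; push_cast; ring⟩

theorem zsmul_mem_LamM {N : ℕ} [NeZero N] {M : ℤ} {f : CuspForm (Gamma0 N) 2} (c : ℤ)
    (hf : f ∈ LamM N M) : c • f ∈ LamM N M := (LamM N M).zsmul_mem hf c

/-- the Hecke algebra stabilises `LamM`. -/
theorem hecke_mem_LamM {N : ℕ} [NeZero N] (M : ℤ) {S : Set ℕ}
    {t : Module.End ℂ (CuspForm (Gamma0 N) 2)} (ht : t ∈ heckeAlgebra N 2 S) :
    ∀ f ∈ LamM N M, t f ∈ LamM N M := by
  induction ht using Algebra.adjoin_induction with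
  | mem T hT =>
    rcases hT with ⟨ℓ, hℓ, hℓN, -, rfl⟩ | ⟨q, hqN, hq, -, rfl⟩
    · intro f hf γ
      have : Fact ℓ.Prime := ⟨hℓ⟩
      obtain ⟨σ, γ', h⟩ := exists_shift_T hℓN γ
      rw [Per_heckeT hℓ hℓN γ σ γ' h f, Complex.re_sum]
      exact exists_sum_eq _ M _ fun x _ => hf (γ' x)
    · intro f hf γ
      have : NeZero q := ⟨hq.ne_zero⟩
      obtain ⟨σ, γ', h⟩ := exists_shift_U hqN γ
      rw [Per_heckeU hqN γ σ γ' h f, Complex.re_sum]
      exact exists_sum_eq _ M _ fun x _ => hf (γ' x)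
  | algebraMap r =>
    intro f hf
    have : (algebraMap ℤ (Module.End ℂ (CuspForm (Gamma0 N) 2)) r) f = r • f := by
      simp
    rw [this]
    exact zsmul_mem_LamM r hf
  | add T T' _ _ h h' =>
    intro f hf
    rw [LinearMap.add_apply]
    exact add_mem (h f hf) (h' f hf)
  | mul T T' _ _ h h' =>
    intro f hf
    exact h _ (h' f hf)

section main

variable (p : ℕ) [Fact p.Prime]

local notation "n" => eisensteinNumerator p

variable (lam : Additive (Gamma0 p) →+ ZMod (eisensteinNumerator p))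
  (hT : ∀ (q : ℕ) [Fact q.Prime], q ≠ p → ∀ (γ : Gamma0 p) (σ : Equiv.Perm (OnePoint (ZMod q)))
        (γ' : OnePoint (ZMod q) → Gamma0 p),
        (∀ x, heckeRep q x * mapGL ℝ (γ : SL(2, ℤ)) = mapGL ℝ (γ' x : SL(2, ℤ)) * heckeRep q (σ x)) →
        ∑ x, lam (Additive.ofMul (γ' x)) = (1 + q : ℕ) • lam (Additive.ofMul γ))
  (hU : ∀ (γ : Gamma0 p) (σ : Equiv.Perm (ZMod p)) (γ' : ZMod p → Gamma0 p),
        (∀ x, ModularForm.heckeMatrix p x.val * mapGL ℝ (γ : SL(2, ℤ)) =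
          mapGL ℝ (γ' x : SL(2, ℤ)) * ModularForm.heckeMatrix p (σ x).val) →
        ∑ x, lam (Additive.ofMul (γ' x)) = lam (Additive.ofMul γ))
  (ψ : CuspForm (Gamma0 p) 2) (ψ₀ : Additive (Gamma0 p) →+ ℤ)
  (hψ : ∀ γ, (Per p ψ γ).re = ψ₀ γ) (hred : ∀ γ, ((ψ₀ γ : ℤ) : ZMod (eisensteinNumerator p)) = lam γ)

include hT hU hψ hred

/-- the generators act on `ψ` by the Eisenstein eigenvalues modulo `n Λ`. -/
theorem gen_sub_mem (ℓ : Nat.Primes) :
    ((heckeFormsGen p 2 ℓ : heckeAlgebra p 2 ∅) : Module.End ℂ (CuspForm (Gamma0 p) 2)) ψ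
      - eisensteinSystem p ℓ • ψ ∈ LamM p (n : ℤ) := by
  intro γ
  by_cases h : (ℓ : ℕ) ∣ p
  · rw [heckeFormsGen_of_dvd h, eisensteinSystem_of_dvd h, heckeAlgebra.coe_U]
    have hℓp : (ℓ : ℕ) = p := (Nat.prime_dvd_prime_iff_eq ℓ.2 Fact.out).mp h
    obtain ⟨ℓ, hℓ⟩ := ℓ
    simp only at hℓp h ⊢
    subst hℓp
    obtain ⟨σ, γ', hs⟩ := exists_shift_U h γ
    have h1 := hU γ σ γ' hs
    rw [map_sub, AddMonoidHom.sub_apply, Per_heckeU h γ σ γ' hs ψ, one_smul, Complex.sub_re,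
      Complex.re_sum]
    simp only [hψ]
    have h2 : (((∑ x, ψ₀ (Additive.ofMul (γ' x)) - ψ₀ (Additive.ofMul γ) : ℤ)) :
        ZMod (eisensteinNumerator ℓ)) = 0 := by
      push_cast
      simp only [hred]
      rw [h1, sub_self]
    obtain ⟨m, hm⟩ := (ZMod.intCast_zmod_eq_zero_iff_dvd _ _).mp h2
    refine ⟨m, ?_⟩
    have := congrArg (Int.cast : ℤ → ℝ) hm
    push_cast at this
    exact this
  · rw [heckeFormsGen_of_not_dvd h, eisensteinSystem_of_not_dvd h, heckeAlgebra.coe_T]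
    have : Fact (ℓ : ℕ).Prime := ⟨ℓ.2⟩
    have hne : (ℓ : ℕ) ≠ p := fun e => h (e ▸ dvd_rfl)
    obtain ⟨σ, γ', hs⟩ := exists_shift_T h γ
    have h1 := hT ℓ hne γ σ γ' hs
    rw [map_sub, AddMonoidHom.sub_apply, Per_heckeT ℓ.2 h γ σ γ' hs ψ, Complex.sub_re,
      Complex.re_sum, map_zsmul, AddMonoidHom.coe_smul, Pi.smul_apply]
    simp only [hψ, zsmul_eq_mul, Complex.mul_re, Complex.intCast_re, Complex.intCast_im, zero_mul,
      sub_zero]
    have h2 : (((∑ x, ψ₀ (Additive.ofMul (γ' x)) - (1 + (ℓ : ℕ) : ℤ) * ψ₀ (Additive.ofMul γ) : ℤ)) :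
        ZMod (eisensteinNumerator p)) = 0 := by
      push_cast
      simp only [hred]
      rw [h1]
      simp
    obtain ⟨m, hm⟩ := (ZMod.intCast_zmod_eq_zero_iff_dvd _ _).mp h2
    refine ⟨m, ?_⟩
    have := congrArg (Int.cast : ℤ → ℝ) hm
    push_cast at this
    push_cast
    exact this

/-- every Hecke polynomial acts on `ψ` through the Eisenstein character modulo `n Λ`. -/
theorem eval_sub_mem (Q : HeckeAlg) :
    ((heckeEvalForms p 2 Q : heckeAlgebra p 2 ∅) : Module.End ℂ (CuspForm (Gamma0 p) 2)) ψ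
      - (MvPolynomial.aeval (eisensteinSystem p) Q : ℤ) • ψ ∈ LamM p (n : ℤ) := by
  induction Q using MvPolynomial.induction_on with
  | C a =>
    rw [heckeEvalForms_C, MvPolynomial.aeval_C]
    have : ((algebraMap ℤ (heckeAlgebra p 2 ∅) a : heckeAlgebra p 2 ∅) :
        Module.End ℂ (CuspForm (Gamma0 p) 2)) ψ = a • ψ := by
      simp
    rw [this]
    simp
  | add P Q hP hQ =>
    have := add_mem hP hQ
    rw [map_add, map_add, add_smul]
    have e : ((heckeEvalForms p 2 P + heckeEvalForms p 2 Q : heckeAlgebra p 2 ∅) :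
        Module.End ℂ (CuspForm (Gamma0 p) 2)) ψ =
        ((heckeEvalForms p 2 P : heckeAlgebra p 2 ∅) : Module.End ℂ (CuspForm (Gamma0 p) 2)) ψ +
        ((heckeEvalForms p 2 Q : heckeAlgebra p 2 ∅) : Module.End ℂ (CuspForm (Gamma0 p) 2)) ψ := rfl
    rw [e]
    convert this using 1
    abel
  | mul_X Q ℓ hQ =>
    have hg := gen_sub_mem p lam hT hU ψ ψ₀ hψ hred ℓ
    have h1 := hecke_mem_LamM (n : ℤ) (heckeEvalForms p 2 Q).2 _ hg
    have h2 := zsmul_mem_LamM (eisensteinSystem p ℓ) hQ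
    have := add_mem h1 h2
    rw [map_mul, map_mul, MvPolynomial.aeval_X]
    have e : heckeEvalForms p 2 (MvPolynomial.X ℓ) = heckeFormsGen p 2 ℓ :=
      heckeEvalForms_heckeGen p 2 ℓ
    rw [e]
    have e2 : ((heckeEvalForms p 2 Q * heckeFormsGen p 2 ℓ : heckeAlgebra p 2 ∅) :
        Module.End ℂ (CuspForm (Gamma0 p) 2)) ψ =
        ((heckeEvalForms p 2 Q : heckeAlgebra p 2 ∅) : Module.End ℂ (CuspForm (Gamma0 p) 2))
        (((heckeFormsGen p 2 ℓ : heckeAlgebra p 2 ∅) : Module.End ℂ (CuspForm (Gamma0 p) 2)) ψ) := rfl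
    rw [e2]
    convert this using 1
    rw [map_sub, map_zsmul, smul_sub, smul_smul, mul_comm]
    abel

theorem ideal_mem (t : heckeAlgebra p 2 ∅)
    (ht : t ∈ Ideal.map (heckeEvalForms p 2) (eisensteinIdeal p)) :
    (t : Module.End ℂ (CuspForm (Gamma0 p) 2)) ψ ∈ LamM p (n : ℤ) := by
  unfold Ideal.map at ht
  induction ht using Submodule.span_induction with
  | mem t ht =>
    obtain ⟨Q, hQ, rfl⟩ := ht
    have h1 := eval_sub_mem p lam hT hU ψ ψ₀ hψ hred Q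
    have h2 : (MvPolynomial.aeval (eisensteinSystem p) Q : ℤ) = 0 :=
      (mem_eigenIdeal_iff _ _).mp hQ
    rwa [h2, zero_smul, sub_zero] at h1
  | zero => exact zero_mem _
  | add s t _ _ hs ht => exact add_mem hs ht
  | smul s t _ ht => exact hecke_mem_LamM (n : ℤ) s.2 _ ht

theorem lower_of (hsurj : Function.Surjective lam) (a : ℤ)
    (ha : (a : heckeAlgebra p 2 ∅) ∈ Ideal.map (heckeEvalForms p 2) (eisensteinIdeal p)) :
    (n : ℤ) ∣ a := by
  have h1 := ideal_mem p lam hT hU ψ ψ₀ hψ hred _ ha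
  obtain ⟨γ, hγ⟩ := hsurj 1
  obtain ⟨γ, rfl⟩ := Additive.ofMul.surjective γ
  obtain ⟨m, hm⟩ := h1 γ
  have e : (((a : heckeAlgebra p 2 ∅) : heckeAlgebra p 2 ∅) :
      Module.End ℂ (CuspForm (Gamma0 p) 2)) ψ = a • ψ := by
    simp
  rw [e, map_zsmul, AddMonoidHom.coe_smul, Pi.smul_apply] at hm
  simp only [hψ, zsmul_eq_mul, Complex.mul_re, Complex.intCast_re, Complex.intCast_im, zero_mul,
      sub_zero] at hm
  have hm' : a * ψ₀ (Additive.ofMul γ) = (n : ℤ) * m := by exact_mod_cast hm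
  have h3 := congrArg (Int.cast : ℤ → ZMod (eisensteinNumerator p)) hm'
  push_cast at h3
  rw [hred, hγ, mul_one, ZMod.natCast_self, zero_mul] at h3
  exact (ZMod.intCast_zmod_eq_zero_iff_dvd _ _).mp h3

end main

end Fermat.Agent.S16
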