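import Mathlib
import Fermat.Prelude.Def_ModularForm_HeckeOperator
import Fermat.Prelude.Def_GaloisRep_Flat
import Fermat.Agent.S21.Defs

/-!
# S16 (index of the Eisenstein ideal): shared definitions

* formal operators `Up`, `Vp` on power series;
* `coeffRing A`, `Cong A M s t` : integrality / congruences of `q`-expansions w.r.t. a subring `A ⊆ ℂ`;
* `natF p k F` : the expansion of `F` at the cusp `0`, normalised as `τ ↦ (F ∣[k] S) (p τ)`;
* `IsPair p k F A B` : `F ∈ M_k(Γ₀(p))` with `q`-expansions `A` (at `∞`) and `B` (of `natF p k F`);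
* `IsL1 k F A` : `F ∈ M_k(SL₂(ℤ))` with `q`-expansion `A`.
-/

set_option autoImplicit false

noncomputable section

namespace Fermat.Agent.S16

open UpperHalfPlane ModularForm CongruenceSubgroup
open scoped MatrixGroups ArithmeticFunction.sigma

section Formal

variable {R : Type*} [CommRing R]

/-- `U_p` on power series: `a_n ↦ a_{n p}`. -/
def Up (p : ℕ) (s : PowerSeries R) : PowerSeries R :=
  PowerSeries.mk fun n => PowerSeries.coeff (n * p) s

/-- `V_p` on power series: `q ↦ q ^ p`. -/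
def Vp (p : ℕ) (s : PowerSeries R) : PowerSeries R :=
  PowerSeries.mk fun n => if p ∣ n then PowerSeries.coeff (n / p) s else 0

@[simp] theorem coeff_Up (p : ℕ) (s : PowerSeries R) (n : ℕ) :
    PowerSeries.coeff n (Up p s) = PowerSeries.coeff (n * p) s := by
  simp [Up]

@[simp] theorem coeff_Vp (p : ℕ) (s : PowerSeries R) (n : ℕ) :
    PowerSeries.coeff n (Vp p s) = if p ∣ n then PowerSeries.coeff (n / p) s else 0 := by
  simp [Vp]

/-- `∑_{n ≥ 1} σ_k(n) q^n` over any commutative ring. -/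
def sigmaS (R : Type*) [CommRing R] (k : ℕ) : PowerSeries R :=
  PowerSeries.mk fun n => ((σ k n : ℕ) : R)

end Formal

/-- `σ'(k)` = sum of the divisors of `k` prime to `p` (for `p` prime), as `σ(k) - p σ(k/p)`. -/
def sigmaP (p k : ℕ) : ℤ :=
  (σ 1 k : ℤ) - if p ∣ k then (p : ℤ) * (σ 1 (k / p) : ℤ) else 0

/-- `δ = ∑_{k ≥ 1} σ'(k) q^k`. -/
def deltaS (p : ℕ) : PowerSeries ℂ := PowerSeries.mk fun k => ((sigmaP p k : ℤ) : ℂ)

/-- power series with all coefficients in the subring `A`. -/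
def coeffRing (A : Subring ℂ) : Subring (PowerSeries ℂ) where
  carrier := {s | ∀ n, PowerSeries.coeff n s ∈ A}
  mul_mem' {s t} hs ht n := by
    rw [PowerSeries.coeff_mul]
    exact A.sum_mem fun x _ => A.mul_mem (hs _) (ht _)
  one_mem' n := by
    rw [PowerSeries.coeff_one]
    split_ifs
    · exact A.one_mem
    · exact A.zero_mem
  add_mem' {s t} hs ht n := by
    rw [map_add]
    exact A.add_mem (hs _) (ht _)
  zero_mem' n := by
    rw [map_zero]
    exact A.zero_mem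
  neg_mem' {s} hs n := by
    rw [map_neg]
    exact A.neg_mem (hs _)

theorem mem_coeffRing {A : Subring ℂ} {s : PowerSeries ℂ} :
    s ∈ coeffRing A ↔ ∀ n, PowerSeries.coeff n s ∈ A := Iff.rfl

/-- `s ≡ t mod M · A[[q]]`. -/
def Cong (A : Subring ℂ) (M : ℂ) (s t : PowerSeries ℂ) : Prop :=
  ∃ u ∈ coeffRing A, s - t = PowerSeries.C M * u

/-- `ℤ_(ℓ)` as a subring of `ℂ`. -/
def Zloc (ℓ : ℕ) : Subring ℂ := (GaloisRep.ratLocalizedAt ℓ).map (algebraMap ℚ ℂ)

/-- the integral closure of `ℤ_(ℓ)` in `ℂ`. -/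
def Oloc (ℓ : ℕ) : Subring ℂ := (integralClosure (Zloc ℓ) ℂ).toSubring

/-- The expansion at the cusp `0`: `F^♮ (τ) = (F ∣[k] S) (p τ) = (p τ)^(-k) F (-1 / (p τ))`. -/
def natF (p : ℕ) (k : ℤ) (F : ℍ → ℂ) : ℍ → ℂ :=
  fun τ => (F ∣[k] ModularGroup.S) (heckeDiagMatrix p • τ)

/-- `F ∈ M_k(Γ₀(p))`, `A` = `q`-expansion of `F`, `B` = `q`-expansion of `F^♮`. -/
structure IsPair (p : ℕ) (k : ℤ) (F : ℍ → ℂ) (A B : PowerSeries ℂ) : Prop where
  isMF : S21.IsMF (Gamma0 p) k F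
  qexp : qExpansion 1 F = A
  qexp0 : qExpansion 1 (natF p k F) = B

/-- `F ∈ M_k(SL₂(ℤ))` with `q`-expansion `A`. -/
structure IsL1 (k : ℤ) (F : ℍ → ℂ) (A : PowerSeries ℂ) : Prop where
  isMF : S21.IsMF ⊤ k F
  qexp : qExpansion 1 F = A

/-- the norm from `Γ₀(p)` to `SL₂(ℤ)`: product over the cosets `1, S T^b`. -/
def normF (p : ℕ) (k : ℤ) (F : ℍ → ℂ) : ℍ → ℂ :=
  F * ∏ b ∈ Finset.range p, F ∣[k] (ModularGroup.S * ModularGroup.T ^ b)

/-- the trace from `Γ₀(p)` to `SL₂(ℤ)`: sum over the cosets `1, S T^b`. -/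
def traceF (p : ℕ) (k : ℤ) (F : ℍ → ℂ) : ℍ → ℂ :=
  F + ∑ b ∈ Finset.range p, F ∣[k] (ModularGroup.S * ModularGroup.T ^ b)

/-- `exp (2 π i / p)`. -/
def zetaP (p : ℕ) : ℂ := Complex.exp (2 * Real.pi * Complex.I / p)

/-- `q`-expansions of `E₄`, `E₆`, `Δ`. -/
def e4 : PowerSeries ℂ := qExpansion 1 E₄
def e6 : PowerSeries ℂ := qExpansion 1 E₆
def dl : PowerSeries ℂ := qExpansion 1 ModularForm.discriminant

end Fermat.Agent.S16
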