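import Fermat.Statements.S16
import Fermat.Agent.S16.Defs
import Fermat.Agent.S23.Main

/-!
# S16, ALG: reduction of the statement to the upper bound (in `q`-expansion form), duality and the
lower bound.
-/

set_option autoImplicit false

noncomputable section

namespace Fermat.Agent.S16

open UpperHalfPlane CongruenceSubgroup CuspForm ModularCurve

theorem heckeEvalForms_surjective (N : ℕ) [NeZero N] (k : ℤ) :
    Function.Surjective (heckeEvalForms N k) := by
  rintro ⟨t, ht⟩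
  suffices h : ∃ P, ((heckeEvalForms N k P : heckeAlgebra N k ∅) :
      Module.End ℂ (CuspForm (Gamma0 N) k)) = t by
    obtain ⟨P, hP⟩ := h
    exact ⟨P, Subtype.ext hP⟩
  induction ht using Algebra.adjoin_induction with
  | mem x hx =>
    rcases hx with ⟨ℓ, hℓ, hℓN, -, rfl⟩ | ⟨q, hqN, hq, -, rfl⟩
    · refine ⟨heckeGen ⟨ℓ, hℓ⟩, ?_⟩
      rw [heckeEvalForms_heckeGen_of_not_dvd (ℓ := ⟨ℓ, hℓ⟩) hℓN]
      rfl
    · refine ⟨heckeGen ⟨q, hq⟩, ?_⟩
      rw [heckeEvalForms_heckeGen_of_dvd (q := ⟨q, hq⟩) hqN]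
      rfl
  | algebraMap r =>
    refine ⟨MvPolynomial.C r, ?_⟩
    rw [heckeEvalForms_C]
    rfl
  | add x y _ _ hx hy =>
    obtain ⟨P, rfl⟩ := hx
    obtain ⟨Q, rfl⟩ := hy
    exact ⟨P + Q, by rw [map_add]; rfl⟩
  | mul x y _ _ hx hy =>
    obtain ⟨P, rfl⟩ := hx
    obtain ⟨Q, rfl⟩ := hy
    exact ⟨P * Q, by rw [map_mul]; rfl⟩

variable (p : ℕ) [Fact p.Prime]

/-- the Eisenstein ideal of the statement. -/
abbrev eisI : Ideal ↥(heckeLatticeAlgebra p ∅) :=
  Ideal.map ((latticeRestrictHom p ∅).toRingHom.comp (heckeEvalForms p 2)) (eisensteinIdeal p)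

theorem sub_C_mem_eisensteinIdeal (P : HeckeAlg) :
    P - MvPolynomial.C (MvPolynomial.aeval (eisensteinSystem p) P) ∈ eisensteinIdeal p := by
  rw [eisensteinIdeal, mem_eigenIdeal_iff, map_sub, MvPolynomial.aeval_C]
  simp

theorem intCast_surjective :
    Function.Surjective (Int.castRingHom (↥(heckeLatticeAlgebra p ∅) ⧸ eisI p)) := by
  intro x
  obtain ⟨y, rfl⟩ := Ideal.Quotient.mk_surjective x
  obtain ⟨z, rfl⟩ := latticeRestrictHom_surjective p ∅ y
  obtain ⟨P, rfl⟩ := heckeEvalForms_surjective p 2 z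
  refine ⟨MvPolynomial.aeval (eisensteinSystem p) P, ?_⟩
  have h := Ideal.mem_map_of_mem ((latticeRestrictHom p ∅).toRingHom.comp (heckeEvalForms p 2))
    (sub_C_mem_eisensteinIdeal p P)
  rw [map_sub] at h
  have h2 := (Ideal.Quotient.eq (I := eisI p)).mpr h
  rw [← MvPolynomial.algebraMap_eq, eq_intCast, map_intCast, map_intCast] at h2
  rw [eq_intCast]
  exact h2.symm

theorem intCast_mem_of_mem_eisI (a : ℤ) (ha : (a : ↥(heckeLatticeAlgebra p ∅)) ∈ eisI p) :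
    (a : ↥(heckeAlgebra p 2 ∅)) ∈ Ideal.map (heckeEvalForms p 2) (eisensteinIdeal p) := by
  have hbij := latticeRestrictHom_bijective p ∅ (S23.hasIntegralStructure p 2)
  rw [eisI, ← Ideal.map_map] at ha
  obtain ⟨x, hx, hxa⟩ := (Ideal.mem_map_iff_of_surjective (latticeRestrictHom p ∅).toRingHom
    hbij.2).mp ha
  have : x = (a : ↥(heckeAlgebra p 2 ∅)) := by
    apply hbij.1
    have h1 : (latticeRestrictHom p ∅) x = (a : ↥(heckeLatticeAlgebra p ∅)) := hxa
    rw [h1, map_intCast]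
  rwa [← this]

/-- The statement, from the three blocks. -/
theorem main_of
    (hno : ∀ (f : CuspForm (Gamma0 p) 2) (ℓ r : ℕ) [Fact ℓ.Prime] (a : ℕ → ℤ),
      (∀ k, (qExpansion 1 f).coeff k = a k) →
      (∀ k, 1 ≤ k → ((ℓ : ℤ) ^ r) ∣ a k - sigmaP p k) → ℓ ^ r ∣ eisensteinNumerator p)
    (hdual : ∀ (M : ℕ) (φ : ↥(heckeLatticeAlgebra p ∅) →+* ZMod M),
      (∀ x ∈ eisI p, φ x = 0) →
      ∃ (f : CuspForm (Gamma0 p) 2) (a : ℕ → ℤ), (∀ k, (qExpansion 1 f).coeff k = a k) ∧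
        ∀ k, 1 ≤ k → ((a k : ℤ) : ZMod M) = ((sigmaP p k : ℤ) : ZMod M))
    (hlow : ∀ a : ℤ,
      (a : ↥(heckeAlgebra p 2 ∅)) ∈ Ideal.map (heckeEvalForms p 2) (eisensteinIdeal p) →
      (eisensteinNumerator p : ℤ) ∣ a) :
    Nat.card (↥(heckeLatticeAlgebra p ∅) ⧸ eisI p) = eisensteinNumerator p := by
  set R := ↥(heckeLatticeAlgebra p ∅) ⧸ eisI p with hR
  set m := ringChar R with hm
  haveI : CharP R m := ringChar.charP R
  have hbij : Function.Bijective (ZMod.castHom (dvd_refl m) R) := by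
    refine ⟨ZMod.castHom_injective R, fun x => ?_⟩
    obtain ⟨a, rfl⟩ := intCast_surjective p x
    exact ⟨(a : ZMod m), by simp⟩
  let e : ZMod m ≃+* R := RingEquiv.ofBijective _ hbij
  have hcard : Nat.card R = m := by
    rw [← Nat.card_congr e.toEquiv, Nat.card_zmod]
  rw [hcard]
  apply Nat.dvd_antisymm
  · rw [Nat.dvd_iff_prime_pow_dvd_dvd]
    intro ℓ r hℓ hdvd
    haveI : Fact ℓ.Prime := ⟨hℓ⟩
    let φ : ↥(heckeLatticeAlgebra p ∅) →+* ZMod (ℓ ^ r) :=
      ((ZMod.castHom hdvd (ZMod (ℓ ^ r))).comp e.symm.toRingHom).comp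
        (Ideal.Quotient.mk (eisI p))
    have hφ : ∀ x ∈ eisI p, φ x = 0 := by
      intro x hx
      have : Ideal.Quotient.mk (eisI p) x = 0 := Ideal.Quotient.eq_zero_iff_mem.mpr hx
      simp only [φ, RingHom.comp_apply, this, map_zero]
    obtain ⟨f, a, ha, hc⟩ := hdual (ℓ ^ r) φ hφ
    refine hno f ℓ r a ha fun k hk => ?_
    have := hc k hk
    rw [← sub_eq_zero, ← Int.cast_sub, ZMod.intCast_zmod_eq_zero_iff_dvd] at this
    exact_mod_cast this
  · have h0 : ((m : ℤ) : R) = 0 := by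
      rw [Int.cast_natCast]
      exact CharP.cast_eq_zero R m
    have h1 : ((m : ℤ) : ↥(heckeLatticeAlgebra p ∅)) ∈ eisI p := by
      rw [← Ideal.Quotient.eq_zero_iff_mem, map_intCast]
      exact h0
    have := hlow m (intCast_mem_of_mem_eisI p m h1)
    exact_mod_cast this

end Fermat.Agent.S16
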