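import Fermat.Prelude.Def_CuspForm_HeckeLocal
import Fermat.Prelude.Def_CuspForm_HeckeEvalForms
import Fermat.Prelude.Def_HeckeGalois_EichlerShimura
import Fermat.Prelude.Thm_ModularFormClass_qCoeff_heckeT
import Fermat.Prelude.Thm_ModularFormClass_qCoeff_heckeU
import Fermat.Prelude.Thm_CongruenceSubgroup_one_mem_strictPeriods_Gamma0
import Fermat.Agent.S16.Defs

/-!
# S16, package DUAL: `a_1`-duality between the Hecke algebra and the lattice of integral forms
-/

set_option autoImplicit false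

noncomputable section

namespace Fermat.Agent.S16

open UpperHalfPlane ModularForm CongruenceSubgroup CuspForm ModularCurve
open scoped MatrixGroups ArithmeticFunction.sigma

namespace Dual

/-! ### Hecke identities for `σ` and `σ'` -/

theorem sigma_hecke {q : ℕ} (hq : q.Prime) {n : ℕ} (hn : n ≠ 0) :
    (σ 1 (n * q) : ℤ) = (1 + q) * σ 1 n - if q ∣ n then (q : ℤ) * σ 1 (n / q) else 0 := by
  obtain ⟨a, m, hm, rfl⟩ := Nat.exists_eq_pow_mul_and_not_dvd hn q hq.ne_one
  have hcop : ∀ i, Nat.Coprime (q ^ i) m := fun i =>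
    Nat.Coprime.pow_left i ((Nat.Prime.coprime_iff_not_dvd hq).mpr hm)
  have hs : ∀ i, σ 1 (q ^ i * m) = (∑ j ∈ Finset.range (i + 1), q ^ j) * σ 1 m := by
    intro i
    rw [ArithmeticFunction.isMultiplicative_sigma.map_mul_of_coprime (hcop i),
      ArithmeticFunction.sigma_apply_prime_pow hq]
    simp
  have e1 : q ^ a * m * q = q ^ (a + 1) * m := by ring
  rw [e1, hs, hs]
  rcases a with _ | a
  · have : ¬ q ∣ q ^ 0 * m := by simpa using hm
    rw [if_neg this]
    simp [Finset.sum_range_succ]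
  · have hd : q ∣ q ^ (a + 1) * m := Dvd.dvd.mul_right (dvd_pow_self q (Nat.succ_ne_zero a)) m
    have e2 : q ^ (a + 1) * m / q = q ^ a * m := by
      rw [pow_succ, mul_right_comm]
      exact Nat.mul_div_cancel _ hq.pos
    rw [if_pos hd, e2, hs]
    push_cast
    rw [Finset.sum_range_succ _ (a + 1 + 1), Finset.sum_range_succ _ (a + 1)]
    ring

theorem sigmaP_mul_self {p : ℕ} (hp : p.Prime) {k : ℕ} (hk : k ≠ 0) :
    sigmaP p (k * p) = sigmaP p k := by
  unfold sigmaP
  rw [if_pos (Dvd.intro_left k rfl), Nat.mul_div_cancel _ hp.pos, sigma_hecke hp hk]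
  ring

theorem sigmaP_mul_prime {p q : ℕ} (hp : p.Prime) (hq : q.Prime) (hpq : q ≠ p) {k : ℕ}
    (hk : k ≠ 0) :
    sigmaP p (k * q) = (1 + q) * sigmaP p k - if q ∣ k then (q : ℤ) * sigmaP p (k / q) else 0 := by
  have hpq' : ¬ p ∣ q := fun h => hpq ((Nat.prime_dvd_prime_iff_eq hp hq).mp h).symm
  have hqp' : ¬ q ∣ p := fun h => hpq ((Nat.prime_dvd_prime_iff_eq hq hp).mp h)
  unfold sigmaP
  by_cases hpk : p ∣ k
  · obtain ⟨k1, rfl⟩ := hpk
    have hk1 : k1 ≠ 0 := fun h => hk (by simp [h])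
    have h1 : p ∣ p * k1 * q := Dvd.dvd.mul_right (Dvd.intro k1 rfl) q
    have e1 : p * k1 * q / p = k1 * q := by
      rw [mul_assoc]; exact Nat.mul_div_cancel_left _ hp.pos
    have e2 : p * k1 / p = k1 := Nat.mul_div_cancel_left _ hp.pos
    rw [if_pos h1, if_pos (Dvd.intro k1 rfl), e1, e2, sigma_hecke hq hk, sigma_hecke hq hk1]
    by_cases hqk : q ∣ k1
    · obtain ⟨k2, rfl⟩ := hqk
      have h2 : q ∣ p * (q * k2) := Dvd.dvd.mul_left (Dvd.intro k2 rfl) p
      have e3 : p * (q * k2) / q = p * k2 := by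
        rw [mul_left_comm]; exact Nat.mul_div_cancel_left _ hq.pos
      have e4 : q * k2 / q = k2 := Nat.mul_div_cancel_left _ hq.pos
      have e5 : p * k2 / p = k2 := Nat.mul_div_cancel_left _ hp.pos
      simp only [if_pos h2, if_pos (Dvd.intro k2 rfl : q ∣ q * k2), e3, e4,
        if_pos (Dvd.intro k2 rfl : p ∣ p * k2), e5]
      ring
    · have h2 : ¬ q ∣ p * k1 := fun h => (hq.dvd_mul.mp h).elim hqp' hqk
      simp only [if_neg h2, if_neg hqk]
      ring
  · have h1 : ¬ p ∣ k * q := fun h => (hp.dvd_mul.mp h).elim hpk hpq'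
    rw [if_neg h1, if_neg hpk, sigma_hecke hq hk]
    by_cases hqk : q ∣ k
    · have h2 : ¬ p ∣ k / q := fun h => hpk (h.trans (Nat.div_dvd_of_dvd hqk))
      simp only [if_pos hqk, if_neg h2]
      ring
    · simp only [if_neg hqk]
      ring


/-! ### Coefficient functionals -/

section Coeff

variable (N : ℕ)

theorem hper : (1 : ℝ) ∈ (Subgroup.map (Matrix.SpecialLinearGroup.mapGL ℝ) (Gamma0 N)).strictPeriods :=
  CongruenceSubgroup.one_mem_strictPeriods_Gamma0 N

/-- the `n`-th `q`-coefficient as a linear functional. -/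
def qc (n : ℕ) : CuspForm (Gamma0 N) 2 →ₗ[ℂ] ℂ where
  toFun f := (qExpansion 1 f).coeff n
  map_add' f g := by
    rw [FunLike.coe_add, ModularForm.qExpansion_add one_pos (hper N) f g, map_add]
  map_smul' c f := by
    have : (⇑(c • f) : ℍ → ℂ) = c • ⇑f := rfl
    rw [this, ModularForm.qExpansion_smul one_pos (hper N) c f]
    simp

theorem qc_apply (n : ℕ) (f : CuspForm (Gamma0 N) 2) : qc N n f = (qExpansion 1 f).coeff n := rfl

theorem qc_zero (f : CuspForm (Gamma0 N) 2) : qc N 0 f = 0 :=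
  CuspFormClass.qExpansion_coeff_zero f one_pos (hper N)

theorem eq_zero_of_qc (f : CuspForm (Gamma0 N) 2) (h : ∀ n, 1 ≤ n → qc N n f = 0) : f = 0 := by
  have h0 : qExpansion 1 f = 0 := by
    ext n
    rcases Nat.eq_zero_or_pos n with rfl | hn
    · rw [map_zero]; exact qc_zero N f
    · rw [map_zero]; exact h n hn
  have : Fact (IsCusp OnePoint.infty (Subgroup.map (Matrix.SpecialLinearGroup.mapGL ℝ) (Gamma0 N))) :=
    ⟨Subgroup.isCusp_of_mem_strictPeriods one_pos (hper N)⟩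
  have := (UpperHalfPlane.qExpansion_eq_zero_iff one_pos
    (SlashInvariantFormClass.periodic_comp_ofComplex f (hper N)) (CuspFormClass.holo f)
    (ModularFormClass.bdd_at_infty f)).mp h0
  exact DFunLike.coe_injective this

theorem exists_int_of_mem {f : CuspForm (Gamma0 N) 2} (hf : f ∈ intLattice N 2) (n : ℕ) :
    ∃ m : ℤ, qc N n f = m := by
  induction hf using Submodule.span_induction with
  | mem x hx => exact hx n
  | zero => exact ⟨0, by simp⟩
  | add x y _ _ hx hy =>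
    obtain ⟨a, ha⟩ := hx
    obtain ⟨b, hb⟩ := hy
    exact ⟨a + b, by rw [map_add, ha, hb]; push_cast; rfl⟩
  | smul c x _ hx =>
    obtain ⟨a, ha⟩ := hx
    refine ⟨c * a, ?_⟩
    have : c • x = (c : ℂ) • x := (Int.cast_smul_eq_zsmul ℂ c x).symm
    rw [this, map_smul, ha]; push_cast; rfl

/-- the integral `n`-th coefficient on the lattice. -/
def cz (n : ℕ) : ↥(intLattice N 2) →ₗ[ℤ] ℤ where
  toFun g := (exists_int_of_mem N g.2 n).choose
  map_add' f g := by
    have h1 := (exists_int_of_mem N (f + g).2 n).choose_spec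
    have h2 := (exists_int_of_mem N f.2 n).choose_spec
    have h3 := (exists_int_of_mem N g.2 n).choose_spec
    have : (((exists_int_of_mem N (f + g).2 n).choose : ℤ) : ℂ) =
        (((exists_int_of_mem N f.2 n).choose + (exists_int_of_mem N g.2 n).choose : ℤ) : ℂ) := by
      rw [← h1]; push_cast; rw [← h2, ← h3]; simp
    exact_mod_cast this
  map_smul' c g := by
    have h1 := (exists_int_of_mem N (c • g).2 n).choose_spec
    have h3 := (exists_int_of_mem N g.2 n).choose_spec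
    have : (((exists_int_of_mem N (c • g).2 n).choose : ℤ) : ℂ) =
        ((c * (exists_int_of_mem N g.2 n).choose : ℤ) : ℂ) := by
      rw [← h1]; push_cast; rw [← h3]
      have : c • (g : CuspForm (Gamma0 N) 2) =
          (c : ℂ) • (g : CuspForm (Gamma0 N) 2) := (Int.cast_smul_eq_zsmul ℂ c _).symm
      rw [this, map_smul]; rfl
    simpa using (by exact_mod_cast this :
      (exists_int_of_mem N (c • g).2 n).choose = c * (exists_int_of_mem N g.2 n).choose)

theorem cz_spec (n : ℕ) (g : ↥(intLattice N 2)) :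
    ((cz N n g : ℤ) : ℂ) = qc N n (g : CuspForm (Gamma0 N) 2) :=
  (exists_int_of_mem N g.2 n).choose_spec.symm

theorem eq_zero_of_cz (g : ↥(intLattice N 2)) (h : ∀ n, 1 ≤ n → cz N n g = 0) : g = 0 := by
  apply Subtype.ext
  apply eq_zero_of_qc N
  intro n hn
  rw [← cz_spec, h n hn]; simp

end Coeff


/-! ### Hecke operators on the lattice -/

section Hecke

variable (p : ℕ) [Fact p.Prime]

/-- the lattice Hecke algebra. -/
abbrev TT : Type := ↥(heckeLatticeAlgebra p ∅)
/-- the lattice of integral forms. -/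
abbrev LL : Type := ↥(intLattice p 2)

/-- `T_q` in the lattice Hecke algebra. -/
def Tq {q : ℕ} (hq : q.Prime) (hqp : ¬ q ∣ p) : (TT p) :=
  latticeRestrictHom p ∅ (heckeAlgebra.T hq hqp (Set.notMem_empty _))

/-- `U_p` in the lattice Hecke algebra. -/
def Uq : (TT p) :=
  latticeRestrictHom p ∅ (heckeAlgebra.U (Fact.out : p.Prime) (dvd_refl p) (Set.notMem_empty _))

theorem cz_Tq {q : ℕ} (hq : q.Prime) (hqp : ¬ q ∣ p) (n : ℕ) (g : (LL p)) :
    cz p n ((Tq p hq hqp : Module.End ℤ (LL p)) g) =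
      cz p (n * q) g + if q ∣ n then (q : ℤ) * cz p (n / q) g else 0 := by
  have h := ModularFormClass.qCoeff_heckeT (k := 2) (g : CuspForm (Gamma0 p) 2) (hper p) hq.ne_zero n
  have h1 : ((cz p n ((Tq p hq hqp : Module.End ℤ (LL p)) g) : ℤ) : ℂ) =
      ModularFormClass.qCoeff (ModularForm.heckeT 2 q ⇑(g : CuspForm (Gamma0 p) 2)) n := by
    rw [cz_spec]; rfl
  rw [h, ModularForm.coeffHeckeT_apply] at h1
  have h2 : ∀ m, ModularFormClass.qCoeff ⇑(g : CuspForm (Gamma0 p) 2) m = ((cz p m g : ℤ) : ℂ) := by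
    intro m; rw [cz_spec]; rfl
  rw [h2, h2] at h1
  have h3 : ((2 : ℤ) - 1) = 1 := by norm_num
  rw [h3, zpow_one] at h1
  split_ifs at h1 ⊢ with hd
  · exact_mod_cast h1
  · exact_mod_cast h1

theorem cz_Uq (n : ℕ) (g : (LL p)) :
    cz p n ((Uq p : Module.End ℤ (LL p)) g) = cz p (n * p) g := by
  have h := ModularFormClass.qCoeff_heckeU (k := 2) (g : CuspForm (Gamma0 p) 2) (hper p)
    (Fact.out : p.Prime).ne_zero n
  have h1 : ((cz p n ((Uq p : Module.End ℤ (LL p)) g) : ℤ) : ℂ) =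
      ModularFormClass.qCoeff (ModularForm.heckeU 2 p ⇑(g : CuspForm (Gamma0 p) 2)) n := by
    rw [cz_spec]; rfl
  rw [h, ModularForm.coeffHeckeU_apply] at h1
  have h2 : ∀ m, ModularFormClass.qCoeff ⇑(g : CuspForm (Gamma0 p) 2) m = ((cz p m g : ℤ) : ℂ) := by
    intro m; rw [cz_spec]; rfl
  rw [h2] at h1
  exact_mod_cast h1


variable {p} {M : ℕ} (φ : (TT p) →+* ZMod M)
  (hφ : ∀ x ∈ Ideal.map ((latticeRestrictHom p ∅).toRingHom.comp (heckeEvalForms p 2))
    (eisensteinIdeal p), φ x = 0)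

include hφ

theorem phi_gen (ℓ : Nat.Primes) :
    φ (latticeRestrictHom p ∅ (heckeFormsGen p 2 ℓ)) = ((eisensteinSystem p ℓ : ℤ) : ZMod M) := by
  have hmem : heckeGen ℓ - MvPolynomial.C (eisensteinSystem p ℓ) ∈ eisensteinIdeal p :=
    heckeGen_sub_mem_eigenIdeal (eisensteinSystem p) ℓ (eisensteinSystem p ℓ) rfl
  have h := hφ _ (Ideal.mem_map_of_mem
    ((latticeRestrictHom p ∅).toRingHom.comp (heckeEvalForms p 2)) hmem)
  rw [map_sub, map_sub, sub_eq_zero] at h
  rw [RingHom.comp_apply, RingHom.comp_apply, heckeEvalForms_heckeGen, heckeEvalForms_C] at h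
  have h2 : (latticeRestrictHom p ∅).toRingHom
      (algebraMap ℤ (↥(heckeAlgebra p 2 ∅)) (eisensteinSystem p ℓ)) =
      ((eisensteinSystem p ℓ : ℤ) : TT p) := by
    simp
  rw [h2, map_intCast] at h
  exact h

theorem phi_Tq {q : ℕ} (hq : q.Prime) (hqp : ¬ q ∣ p) : φ (Tq p hq hqp) = ((1 + q : ℤ) : ZMod M) := by
  have h := phi_gen φ hφ ⟨q, hq⟩
  rw [heckeFormsGen_of_not_dvd (N := p) (k := 2) (ℓ := ⟨q, hq⟩) hqp,
    eisensteinSystem_of_not_dvd (N := p) (ℓ := ⟨q, hq⟩) hqp] at h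
  exact h

theorem phi_Uq : φ (Uq p) = 1 := by
  have h := phi_gen φ hφ ⟨p, Fact.out⟩
  rw [heckeFormsGen_of_dvd (N := p) (k := 2) (q := ⟨p, Fact.out⟩) (dvd_refl p),
    eisensteinSystem_of_dvd (N := p) (ℓ := ⟨p, Fact.out⟩) (dvd_refl p), Int.cast_one] at h
  exact h

theorem exists_t (k : ℕ) (hk : 1 ≤ k) :
    ∃ t : TT p, (∀ g : LL p, cz p 1 ((t : Module.End ℤ (LL p)) g) = cz p k g) ∧
      φ t = ((sigmaP p k : ℤ) : ZMod M) := by
  have hp : p.Prime := Fact.out
  induction k using Nat.strong_induction_on with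
  | _ k ih =>
    rcases Nat.eq_or_lt_of_le hk with rfl | hk1
    · refine ⟨1, fun g => rfl, ?_⟩
      simp [sigmaP, Nat.Prime.one_lt hp |>.ne']
    · set q := k.minFac with hqdef
      have hq : q.Prime := Nat.minFac_prime hk1.ne'
      obtain ⟨k', hk'⟩ : ∃ k', k = k' * q := ⟨k / q, (Nat.div_mul_cancel (Nat.minFac_dvd k)).symm⟩
      have hk'0 : k' ≠ 0 := by rintro rfl; simp at hk'; omega
      have hk'lt : k' < k := by
        rw [hk']; exact lt_mul_of_one_lt_right (Nat.pos_of_ne_zero hk'0) hq.one_lt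
      obtain ⟨t', ht', hφ'⟩ := ih k' hk'lt (Nat.pos_of_ne_zero hk'0)
      by_cases hqp : q = p
      · refine ⟨t' * Uq p, fun g => ?_, ?_⟩
        · have : ((t' * Uq p : TT p) : Module.End ℤ (LL p)) g =
              (t' : Module.End ℤ (LL p)) ((Uq p : Module.End ℤ (LL p)) g) := rfl
          rw [this, ht', cz_Uq, hk', hqp]
        · rw [map_mul, hφ', phi_Uq φ hφ, mul_one, hk', hqp, sigmaP_mul_self hp hk'0]
      · have hqp' : ¬ q ∣ p := fun h => hqp ((Nat.prime_dvd_prime_iff_eq hq hp).mp h)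
        by_cases hd : q ∣ k'
        · have hlt2 : k' / q < k := lt_of_le_of_lt (Nat.div_le_self _ _) hk'lt
          have hpos2 : 1 ≤ k' / q := Nat.div_pos (Nat.le_of_dvd (Nat.pos_of_ne_zero hk'0) hd) hq.pos
          obtain ⟨t'', ht'', hφ''⟩ := ih (k' / q) hlt2 hpos2
          refine ⟨t' * Tq p hq hqp' - (q : ℤ) • t'', fun g => ?_, ?_⟩
          · have : ((t' * Tq p hq hqp' - (q : ℤ) • t'' : TT p) : Module.End ℤ (LL p)) g =
                (t' : Module.End ℤ (LL p)) ((Tq p hq hqp' : Module.End ℤ (LL p)) g) -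
                  (q : ℤ) • (t'' : Module.End ℤ (LL p)) g := rfl
            rw [this, map_sub, map_smul, ht', ht'', cz_Tq, if_pos hd, hk']
            simp
          · rw [map_sub, map_mul, hφ', phi_Tq φ hφ, zsmul_eq_mul, map_mul, map_intCast, hφ'', hk',
              sigmaP_mul_prime hp hq hqp hk'0, if_pos hd]
            push_cast; ring
        · refine ⟨t' * Tq p hq hqp', fun g => ?_, ?_⟩
          · have : ((t' * Tq p hq hqp' : TT p) : Module.End ℤ (LL p)) g =
                (t' : Module.End ℤ (LL p)) ((Tq p hq hqp' : Module.End ℤ (LL p)) g) := rfl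
            rw [this, ht', cz_Tq, if_neg hd, hk']
            simp
          · rw [map_mul, hφ', phi_Tq φ hφ, hk', sigmaP_mul_prime hp hq hqp hk'0, if_neg hd]
            push_cast; ring


omit hφ in
variable (p) in
/-- the pairing `(t, g) ↦ a_1(t g)`. -/
def gam : (TT p) →ₗ[ℤ] (LL p) →ₗ[ℤ] ℤ :=
  (LinearMap.llcomp ℤ (LL p) (LL p) ℤ (cz p 1)) ∘ₗ (heckeLatticeAlgebra p ∅).val.toLinearMap

omit hφ in
theorem gam_apply (t : TT p) (g : LL p) :
    gam p t g = cz p 1 ((t : Module.End ℤ (LL p)) g) := rfl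

theorem gam_flip_injective : Function.Injective (gam p).flip := by
  rw [injective_iff_map_eq_zero]
  intro g hg
  apply eq_zero_of_cz
  intro n hn
  obtain ⟨t, ht, -⟩ := exists_t φ hφ n hn
  rw [← ht g, ← gam_apply, ← LinearMap.flip_apply, hg]; rfl

theorem gam_injective : Function.Injective (gam p) := by
  rw [injective_iff_map_eq_zero]
  intro t ht
  apply Subtype.ext
  apply LinearMap.ext
  intro g
  apply eq_zero_of_cz
  intro n hn
  obtain ⟨s, hs, -⟩ := exists_t φ hφ n hn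
  rw [← hs]
  have h1 : (s : Module.End ℤ (LL p)) ((t : Module.End ℤ (LL p)) g) =
      ((s * t : TT p) : Module.End ℤ (LL p)) g := rfl
  have h2 : ((t * s : TT p) : Module.End ℤ (LL p)) g =
      (t : Module.End ℤ (LL p)) ((s : Module.End ℤ (LL p)) g) := rfl
  rw [h1, mul_comm, h2, ← gam_apply, ht]; rfl

theorem exists_rep (ψ : (TT p) →ₗ[ℤ] ℤ) :
    ∃ (D : ℕ) (g : LL p), D ≠ 0 ∧ ∀ t : TT p, (D : ℤ) * ψ t = cz p 1 ((t : Module.End ℤ (LL p)) g) := by
  have := intLattice.moduleFinite p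
  have := intLattice.moduleFree p
  have r1 : Module.finrank ℤ ((TT p) →ₗ[ℤ] ℤ) = Module.finrank ℤ (TT p) := by
    rw [Module.finrank_linearMap, Module.finrank_self, mul_one]
  have r2 : Module.finrank ℤ ((LL p) →ₗ[ℤ] ℤ) = Module.finrank ℤ (LL p) := by
    rw [Module.finrank_linearMap, Module.finrank_self, mul_one]
  have l1 := LinearMap.finrank_le_finrank_of_injective (gam_flip_injective φ hφ)
  have l2 := LinearMap.finrank_le_finrank_of_injective (gam_injective φ hφ)
  have hr : Module.finrank ℤ (LinearMap.range (gam p).flip) = Module.finrank ℤ ((TT p) →ₗ[ℤ] ℤ) := by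
    rw [LinearMap.finrank_range_of_inj (gam_flip_injective φ hφ)]
    omega
  have := Submodule.finiteQuotientOfFreeOfRankEq _ hr
  set Q := ((TT p) →ₗ[ℤ] ℤ) ⧸ LinearMap.range (gam p).flip with hQ
  have hD : Nat.card Q ≠ 0 := Nat.card_pos.ne'
  have hmem : (Nat.card Q) • ψ ∈ LinearMap.range (gam p).flip := by
    rw [← Submodule.Quotient.mk_eq_zero, Submodule.Quotient.mk_smul]
    exact card_nsmul_eq_zero'
  obtain ⟨g, hg⟩ := hmem
  refine ⟨Nat.card Q, g, hD, fun t => ?_⟩
  have := congrArg (fun f : (TT p) →ₗ[ℤ] ℤ => f t) hg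
  simp only [LinearMap.flip_apply, gam_apply, LinearMap.smul_apply, nsmul_eq_mul] at this
  rw [this]

omit hφ in
theorem exists_lift : ∃ ψ : (TT p) →ₗ[ℤ] ℤ, ∀ t, ((ψ t : ℤ) : ZMod M) = φ t := by
  let b := Module.Free.chooseBasis ℤ (TT p)
  choose l hl using ZMod.intCast_surjective (n := M)
  refine ⟨b.constr ℤ (fun i => l (φ (b i))), fun t => ?_⟩
  have : (Int.castAddHom (ZMod M)).toIntLinearMap ∘ₗ (b.constr ℤ (fun i => l (φ (b i)))) =
      φ.toAddMonoidHom.toIntLinearMap := by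
    apply b.ext
    intro i
    simp [hl]
  exact congrArg (fun f : (TT p) →ₗ[ℤ] ZMod M => f t) this

end Hecke

end Dual

open Fermat.Agent.S16.Dual in
/-- DUAL: `a_1`-duality.  (`eisI p` of the plan is written out.) -/
theorem exists_form_of_hom (p : ℕ) [Fact p.Prime] (M : ℕ)
    (φ : ↥(heckeLatticeAlgebra p ∅) →+* ZMod M)
    (hφ : ∀ x ∈ Ideal.map ((latticeRestrictHom p ∅).toRingHom.comp (heckeEvalForms p 2))
      (eisensteinIdeal p), φ x = 0) :
    ∃ (f : CuspForm (Gamma0 p) 2) (a : ℕ → ℤ), (∀ k, (qExpansion 1 f).coeff k = a k) ∧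
      ∀ k, 1 ≤ k → ((a k : ℤ) : ZMod M) = ((sigmaP p k : ℤ) : ZMod M) := by
  obtain ⟨ψ, hψ⟩ := exists_lift φ
  obtain ⟨D, g, hD, hg⟩ := exists_rep φ hφ ψ
  choose t ht1 ht2 using exists_t φ hφ
  refine ⟨((D : ℂ)⁻¹) • (g : CuspForm (Gamma0 p) 2),
    fun k => if h : 1 ≤ k then ψ (t k h) else 0, fun k => ?_, fun k hk => ?_⟩
  · have e : qc p k (((D : ℂ)⁻¹) • (g : CuspForm (Gamma0 p) 2)) =
        (D : ℂ)⁻¹ * qc p k (g : CuspForm (Gamma0 p) 2) := by
      rw [map_smul]; rfl
    rw [← qc_apply, e]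
    beta_reduce
    have hDC : (D : ℂ) ≠ 0 := Nat.cast_ne_zero.mpr hD
    by_cases h : 1 ≤ k
    · rw [dif_pos h, ← cz_spec, ← ht1 k h g, ← hg]
      push_cast
      field_simp
    · have : k = 0 := by omega
      subst this
      rw [dif_neg h, qc_zero]; simp
  · simp only [dif_pos hk]
    rw [hψ, ht2]

end Fermat.Agent.S16
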