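import Fermat.Agent.S16.LDefs

set_option autoImplicit false

/-!
# S16, block D, package LLAM: the Shimura character `Γ₀(p) → (ℤ/p)ˣ → ℤ/n`
-/

namespace Fermat.Agent.S16

open CongruenceSubgroup ModularCurve ModularCurve.Period UpperHalfPlane CuspForm
open Matrix.SpecialLinearGroup
open scoped MatrixGroups ModularForm
open P2MW.S_ModularForm_heckeT_slash_eq_self_of_mem_Gamma0.ModularForm.HeckeSlashInvariance

namespace LLam

/-- A finite cyclic group of order `m` has a surjection onto `ℤ/(m / gcd(m,12))` killing the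
elements of order dividing `12`. -/
theorem exists_mu (G : Type*) [CommGroup G] [IsCyclic G] [Finite G] :
    ∃ mu : Additive G →+ ZMod (Nat.card G / Nat.gcd (Nat.card G) 12),
      Function.Surjective mu ∧ ∀ x : G, x ^ 12 = 1 → mu (Additive.ofMul x) = 0 := by
  classical
  set m := Nat.card G with hm
  have hm0 : 0 < m := Nat.card_pos
  set e := Nat.gcd m 12 with he
  have he0 : 0 < e := Nat.gcd_pos_of_pos_left _ hm0
  set n := m / e with hn
  have hem : e ∣ m := Nat.gcd_dvd_left _ _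
  have hnm : n * e = m := Nat.div_mul_cancel hem
  have hndvd : n ∣ m := ⟨e, hnm.symm⟩
  have hcardA : Nat.card (Additive G) = m := rfl
  let E : ZMod m ≃+ Additive G := zmodAddCyclicAddEquiv (G := Additive G) inferInstance
  refine ⟨(ZMod.castHom hndvd (ZMod n)).toAddMonoidHom.comp E.symm.toAddMonoidHom, ?_, ?_⟩
  · intro y
    obtain ⟨z, hz⟩ := ZMod.castHom_surjective hndvd y
    exact ⟨E z, by simpa using hz⟩
  · intro x hx
    have h12 : (12 : ℕ) • (E.symm (Additive.ofMul x)) = 0 := by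
      rw [← map_nsmul, ← ofMul_pow, hx]
      simp
    set y := E.symm (Additive.ofMul x) with hy
    have : NeZero m := ⟨hm0.ne'⟩
    have hyv : ((y.val : ℕ) : ZMod m) = y := ZMod.natCast_zmod_val y
    have h1 : ((12 * y.val : ℕ) : ZMod m) = 0 := by
      push_cast
      rw [hyv]
      simpa [nsmul_eq_mul] using h12
    rw [ZMod.natCast_eq_zero_iff] at h1
    -- `n * e ∣ 12 * k`
    obtain ⟨f, hf⟩ : e ∣ 12 := Nat.gcd_dvd_right _ _
    have hcop : Nat.Coprime n f := by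
      have := Nat.coprime_div_gcd_div_gcd (m := m) (n := 12) he0
      rw [← he, ← hn] at this
      have h12e : 12 / e = f := by
        rw [hf]; exact Nat.mul_div_cancel_left _ he0
      rwa [h12e] at this
    have h2 : n ∣ f * y.val := by
      have : e * n ∣ e * (f * y.val) := by
        rw [mul_comm e n, hnm, ← mul_assoc, ← hf]; exact h1
      exact (Nat.mul_dvd_mul_iff_left he0).mp this
    have h3 : n ∣ y.val := hcop.dvd_of_dvd_mul_left h2
    show (ZMod.castHom hndvd (ZMod n)) y = 0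
    rw [← hyv, map_natCast, ZMod.natCast_eq_zero_iff]
    exact h3

/-- The lower right entry as a character `Γ₀(p) → (ℤ/p)ˣ`. -/
noncomputable def dU (p : ℕ) : Gamma0 p →* (ZMod p)ˣ := (Gamma0Map p).toHomUnits

theorem coe_dU (p : ℕ) (γ : Gamma0 p) :
    ((dU p γ : (ZMod p)ˣ) : ZMod p) = (((γ : SL(2, ℤ)) 1 1 : ℤ) : ZMod p) := rfl

theorem c_eq_zero (p : ℕ) (γ : Gamma0 p) : (((γ : SL(2, ℤ)) 1 0 : ℤ) : ZMod p) = 0 :=
  Gamma0_mem.mp γ.2

theorem det_eq' (g : SL(2, ℤ)) : g 0 0 * g 1 1 - g 0 1 * g 1 0 = 1 := by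
  have := g.det_coe
  rwa [Matrix.det_fin_two] at this

theorem dU_surjective (p : ℕ) [Fact p.Prime] : Function.Surjective (dU p) := by
  intro u
  have hp : p.Prime := Fact.out
  have hcop : IsCoprime ((u : ZMod p).val : ℤ) (p : ℤ) := by
    rw [Nat.isCoprime_iff_coprime]
    exact ZMod.val_coe_unit_coprime u
  obtain ⟨a, b, hab⟩ := hcop
  let g : SL(2, ℤ) := ⟨!![a, -b; (p : ℤ), ((u : ZMod p).val : ℤ)], by
    rw [Matrix.det_fin_two_of]; linear_combination hab⟩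
  have hg : g ∈ Gamma0 p := by
    rw [Gamma0_mem]
    simp [g]
  refine ⟨⟨g, hg⟩, ?_⟩
  ext
  rw [coe_dU]
  simp [g]

theorem dU_sq_of_parabolic (p : ℕ) [Fact p.Prime] (γ : Gamma0 p)
    (h : ((γ : SL(2, ℤ)) : Matrix (Fin 2) (Fin 2) ℤ).trace ^ 2 = 4) : dU p γ ^ 2 = 1 := by
  have hdet := congrArg (Int.cast : ℤ → ZMod p) (det_eq' (γ : SL(2, ℤ)))
  have htr := congrArg (Int.cast : ℤ → ZMod p) h
  rw [Matrix.trace_fin_two] at htr
  push_cast at hdet htr
  rw [c_eq_zero p γ] at hdet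
  set a : ZMod p := (((γ : SL(2, ℤ)) 0 0 : ℤ) : ZMod p) with ha
  set d : ZMod p := (((γ : SL(2, ℤ)) 1 1 : ℤ) : ZMod p) with hd
  have h0 : (a - d) ^ 2 = 0 := by linear_combination htr - 4 * hdet
  have had : a = d := sub_eq_zero.mp (pow_eq_zero_iff (two_ne_zero)|>.mp h0)
  ext
  rw [Units.val_pow_eq_pow_val, coe_dU, Units.val_one, ← hd]
  rw [had] at hdet
  linear_combination hdet

/-- the lower right entry of `heckeRep q x`, as an integer. -/
def dRep (q : ℕ) (x : OnePoint (ZMod q)) : ℕ := x.elim 1 (fun _ => q)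

theorem heckeRep_one_zero (q : ℕ) (hq : q ≠ 0) (x : OnePoint (ZMod q)) :
    (heckeRep q x : Matrix (Fin 2) (Fin 2) ℝ) 1 0 = 0 := by
  induction x using OnePoint.rec with
  | infty => simp [heckeRep, hq]
  | coe j => simp [heckeRep, hq]

theorem heckeRep_one_one (q : ℕ) (hq : q ≠ 0) (x : OnePoint (ZMod q)) :
    (heckeRep q x : Matrix (Fin 2) (Fin 2) ℝ) 1 1 = (dRep q x : ℝ) := by
  induction x using OnePoint.rec with
  | infty => simp [heckeRep, dRep, hq]
  | coe j => simp [heckeRep, dRep, hq]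

theorem exists_heckeRep_zero_one (q : ℕ) (hq : q ≠ 0) (x : OnePoint (ZMod q)) :
    ∃ b : ℕ, (heckeRep q x : Matrix (Fin 2) (Fin 2) ℝ) 0 1 = (b : ℝ) := by
  induction x using OnePoint.rec with
  | infty => exact ⟨0, by simp [heckeRep, hq]⟩
  | coe j => exact ⟨j.val, by simp [heckeRep, hq]⟩

theorem isUnit_dRep (p q : ℕ) [Fact p.Prime] [Fact q.Prime] (hqp : q ≠ p)
    (x : OnePoint (ZMod q)) : IsUnit ((dRep q x : ℕ) : ZMod p) := by
  induction x using OnePoint.rec with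
  | infty => simp [dRep]
  | coe j =>
    have : Nat.Coprime q p := (Nat.coprime_primes Fact.out Fact.out).mpr hqp
    simpa [dRep] using (ZMod.isUnit_iff_coprime q p).mpr this

/-- the key relation for `T_q`. -/
theorem dU_rel (p q : ℕ) [Fact p.Prime] [Fact q.Prime] (γ γ' : Gamma0 p)
    (x y : OnePoint (ZMod q))
    (h : heckeRep q x * mapGL ℝ (γ : SL(2, ℤ)) = mapGL ℝ (γ' : SL(2, ℤ)) * heckeRep q y) :
    ((dRep q x : ℕ) : ZMod p) * (dU p γ : ZMod p) = (dU p γ' : ZMod p) * ((dRep q y : ℕ) : ZMod p) := by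
  have hq : q ≠ 0 := (Fact.out : q.Prime).ne_zero
  obtain ⟨b, hb⟩ := exists_heckeRep_zero_one q hq y
  have h11 := congrArg (fun M : GL (Fin 2) ℝ => (M : Matrix (Fin 2) (Fin 2) ℝ) 1 1) h
  simp only [Matrix.GeneralLinearGroup.coe_mul, Matrix.mul_apply, Fin.sum_univ_two,
    heckeRep_one_zero q hq, heckeRep_one_one q hq, hb, zero_mul, zero_add] at h11
  have h11' : ((dRep q x : ℕ) : ℤ) * (γ : SL(2, ℤ)) 1 1 =
      (γ' : SL(2, ℤ)) 1 0 * (b : ℤ) + (γ' : SL(2, ℤ)) 1 1 * ((dRep q y : ℕ) : ℤ) := by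
    have : (((dRep q x : ℕ) : ℤ) * (γ : SL(2, ℤ)) 1 1 : ℝ) =
      (((γ' : SL(2, ℤ)) 1 0 * (b : ℤ) + (γ' : SL(2, ℤ)) 1 1 * ((dRep q y : ℕ) : ℤ) : ℤ) : ℝ) := by
      push_cast
      simpa using h11
    exact_mod_cast this
  have h2 := congrArg (Int.cast : ℤ → ZMod p) h11'
  push_cast at h2
  rw [c_eq_zero p γ', zero_mul, zero_add] at h2
  rw [coe_dU, coe_dU]
  exact h2

/-- the key relation for `U_p`. -/
theorem dU_rel_U (p : ℕ) [Fact p.Prime] (γ γ' : Gamma0 p) (j j' : ℕ)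
    (h : ModularForm.heckeMatrix p j * mapGL ℝ (γ : SL(2, ℤ)) =
      mapGL ℝ (γ' : SL(2, ℤ)) * ModularForm.heckeMatrix p j') :
    dU p γ' = dU p γ := by
  have hp : p ≠ 0 := (Fact.out : p.Prime).ne_zero
  have h10 := congrArg (fun M : GL (Fin 2) ℝ => (M : Matrix (Fin 2) (Fin 2) ℝ) 1 0) h
  have h11 := congrArg (fun M : GL (Fin 2) ℝ => (M : Matrix (Fin 2) (Fin 2) ℝ) 1 1) h
  simp only [Matrix.GeneralLinearGroup.coe_mul, Matrix.mul_apply, Fin.sum_univ_two,
    ModularForm.val_heckeMatrix hp] at h10 h11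
  have h10' : (p : ℤ) * (γ : SL(2, ℤ)) 1 0 = (γ' : SL(2, ℤ)) 1 0 := by
    have : (((p : ℤ) * (γ : SL(2, ℤ)) 1 0 : ℤ) : ℝ) = (((γ' : SL(2, ℤ)) 1 0 : ℤ) : ℝ) := by
      push_cast
      simpa using h10
    exact_mod_cast this
  have h11' : (p : ℤ) * (γ : SL(2, ℤ)) 1 1 =
      (γ' : SL(2, ℤ)) 1 0 * (j' : ℤ) + (γ' : SL(2, ℤ)) 1 1 * (p : ℤ) := by
    have : (((p : ℤ) * (γ : SL(2, ℤ)) 1 1 : ℤ) : ℝ) =
      (((γ' : SL(2, ℤ)) 1 0 * (j' : ℤ) + (γ' : SL(2, ℤ)) 1 1 * (p : ℤ) : ℤ) : ℝ) := by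
      push_cast
      simpa using h11
    exact_mod_cast this
  have hp' : (p : ℤ) ≠ 0 := by exact_mod_cast hp
  have h3 : (γ : SL(2, ℤ)) 1 1 = (γ : SL(2, ℤ)) 1 0 * (j' : ℤ) + (γ' : SL(2, ℤ)) 1 1 := by
    apply mul_left_cancel₀ hp'
    rw [h11', ← h10']
    ring
  have h4 := congrArg (Int.cast : ℤ → ZMod p) h3
  push_cast at h4
  rw [c_eq_zero p γ, zero_mul, zero_add] at h4
  ext
  rw [coe_dU, coe_dU]
  exact h4.symm

end LLam

/-- **LLAM**. -/
theorem exists_lam (p : ℕ) [Fact p.Prime] :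
    ∃ lam : Additive (Gamma0 p) →+ ZMod (eisensteinNumerator p),
      IsPE (Gamma0 p) lam ∧ Function.Surjective lam ∧
      (∀ (q : ℕ) [Fact q.Prime], q ≠ p → ∀ (γ : Gamma0 p) (σ : Equiv.Perm (OnePoint (ZMod q)))
        (γ' : OnePoint (ZMod q) → Gamma0 p),
        (∀ x, heckeRep q x * mapGL ℝ (γ : SL(2, ℤ)) = mapGL ℝ (γ' x : SL(2, ℤ)) * heckeRep q (σ x)) →
        ∑ x, lam (Additive.ofMul (γ' x)) = (1 + q : ℕ) • lam (Additive.ofMul γ)) ∧
      (∀ (γ : Gamma0 p) (σ : Equiv.Perm (ZMod p)) (γ' : ZMod p → Gamma0 p),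
        (∀ x, ModularForm.heckeMatrix p x.val * mapGL ℝ (γ : SL(2, ℤ)) =
          mapGL ℝ (γ' x : SL(2, ℤ)) * ModularForm.heckeMatrix p (σ x).val) →
        ∑ x, lam (Additive.ofMul (γ' x)) = lam (Additive.ofMul γ)) := by
  classical
  have hp : p.Prime := Fact.out
  have hcard : Nat.card (ZMod p)ˣ = p - 1 := by
    rw [Nat.card_eq_fintype_card, ZMod.card_units p]
  obtain ⟨mu0, hmu0s, hmu0k⟩ := LLam.exists_mu (ZMod p)ˣ
  have hn : Nat.card (ZMod p)ˣ / Nat.gcd (Nat.card (ZMod p)ˣ) 12 = eisensteinNumerator p := by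
    rw [hcard]; rfl
  obtain ⟨mu, hmus, hmuk⟩ : ∃ mu : Additive (ZMod p)ˣ →+ ZMod (eisensteinNumerator p),
      Function.Surjective mu ∧ ∀ x : (ZMod p)ˣ, x ^ 12 = 1 → mu (Additive.ofMul x) = 0 := by
    rw [← hn]; exact ⟨mu0, hmu0s, hmu0k⟩
  let lam : Additive (Gamma0 p) →+ ZMod (eisensteinNumerator p) :=
    mu.comp (MonoidHom.toAdditive (LLam.dU p))
  have hlam : ∀ γ : Gamma0 p, lam (Additive.ofMul γ) = mu (Additive.ofMul (LLam.dU p γ)) :=
    fun _ => rfl
  refine ⟨lam, ⟨?_, ?_⟩, ?_, ?_, ?_⟩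
  · intro γ hγ
    rw [hlam]
    apply hmuk
    have := LLam.dU_sq_of_parabolic p γ hγ
    rw [show (12 : ℕ) = 2 * 6 from rfl, pow_mul, this, one_pow]
  · intro γ hγ
    rw [hlam]
    apply hmuk
    rw [← map_pow, hγ, map_one]
  · intro y
    obtain ⟨u, hu⟩ := hmus y
    obtain ⟨γ, hγ⟩ := LLam.dU_surjective p (Additive.toMul u)
    exact ⟨Additive.ofMul γ, by rw [hlam, hγ]; exact hu⟩
  · intro q _ hqp γ σ γ' h
    let δ : OnePoint (ZMod q) → (ZMod p)ˣ := fun x => (LLam.isUnit_dRep p q hqp x).unit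
    have hδ : ∀ x, δ x * LLam.dU p γ = LLam.dU p (γ' x) * δ (σ x) := by
      intro x
      ext
      simpa [δ] using LLam.dU_rel p q γ (γ' x) x (σ x) (h x)
    have h1 : ∀ x, mu (Additive.ofMul (δ x)) + lam (Additive.ofMul γ) =
        lam (Additive.ofMul (γ' x)) + mu (Additive.ofMul (δ (σ x))) := by
      intro x
      rw [hlam, hlam, ← mu.map_add, ← mu.map_add, ← ofMul_mul, ← ofMul_mul, hδ x]
    have h2 := Finset.sum_congr (rfl : (Finset.univ : Finset (OnePoint (ZMod q))) = Finset.univ)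
      (fun x _ => h1 x)
    rw [Finset.sum_add_distrib, Finset.sum_add_distrib,
      Equiv.sum_comp σ (fun x => mu (Additive.ofMul (δ x))), Finset.sum_const,
      Finset.card_univ] at h2
    have hc : Fintype.card (OnePoint (ZMod q)) = 1 + q := by
      have : Fintype.card (Option (ZMod q)) = Fintype.card (ZMod q) + 1 := Fintype.card_option
      rw [ZMod.card] at this
      rw [add_comm]
      exact this
    rw [hc] at h2
    have h3 := add_left_cancel (h2.trans (add_comm _ _))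
    exact h3.symm
  · intro γ σ γ' h
    have h1 : ∀ x, lam (Additive.ofMul (γ' x)) = lam (Additive.ofMul γ) := by
      intro x
      rw [hlam, hlam, LLam.dU_rel_U p γ (γ' x) _ _ (h x)]
    rw [Finset.sum_congr rfl (fun x _ => h1 x), Finset.sum_const, Finset.card_univ, ZMod.card,
      nsmul_eq_mul]
    have hdvd : eisensteinNumerator p ∣ p - 1 := Nat.div_dvd_of_dvd (Nat.gcd_dvd_left _ _)
    have hp1 : ((p : ℕ) : ZMod (eisensteinNumerator p)) = 1 := by
      have h0 : ((p - 1 : ℕ) : ZMod (eisensteinNumerator p)) = 0 :=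
        (ZMod.natCast_eq_zero_iff _ _).mpr hdvd
      rw [Nat.cast_sub hp.one_lt.le, Nat.cast_one] at h0
      exact sub_eq_zero.mp h0
    rw [hp1, one_mul]

end Fermat.Agent.S16
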