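import Fermat.Agent.S16.LowerCore
import Fermat.Agent.S16.LCount
import Fermat.Agent.S16.LLift
import Fermat.Agent.S16.LLam
import Fermat.Agent.S16.LReal

set_option autoImplicit false

/-!
# S16, block D: the lower bound `a ∈ I ∩ ℤ → n ∣ a`
-/

namespace Fermat.Agent.S16

open CongruenceSubgroup ModularCurve ModularCurve.Period UpperHalfPlane CuspForm

/-- If the integer `a` lies in the image of the Eisenstein ideal in the Hecke algebra of weight 2
and level `p`, then the Eisenstein numerator `n = (p-1)/gcd(p-1,12)` divides `a`. -/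
theorem lower (p : ℕ) [Fact p.Prime] (a : ℤ)
    (ha : (a : heckeAlgebra p 2 ∅) ∈ Ideal.map (heckeEvalForms p 2) (eisensteinIdeal p)) :
    (eisensteinNumerator p : ℤ) ∣ a := by
  obtain ⟨lam, hPE, hsurj, hT, hU⟩ := exists_lam p
  obtain ⟨ψ₀, hpar, hred⟩ := exists_lift p (fun ℓ _ => card_isPE_le p ℓ) _ lam hPE
  obtain ⟨ψ, hψ⟩ := exists_re_Per p ψ₀ hpar
  exact lower_of p lam hT hU ψ ψ₀ hψ hred hsurj a ha

end Fermat.Agent.S16
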