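import Fermat.Agent.S16.Tri

/-!
# S16, package LEMMA-A: a level one form of weight `2 ℓ^a` (`ℓ ≥ 5`) which is constant mod `ℓ`
vanishes mod `ℓ`.

Proof: `F⁶ = ∑ x_i Δ^i E₄^{3(m-i)}`, `m = ℓ^a`.  Modulo `ℓ`, `F⁶ = c⁶` and
`E₄^{3m} = 1 + O(q^m)`, so `x_0 = c⁶`, `x_i = 0` for `0 < i < m`.  As the weight is `≡ 2 mod 4` and
prime to `3`, `F(i) = F(ρ) = 0`; this gives `x_m = 0` and `∑ x_i 1728^{m-i} = 0`.
-/

set_option autoImplicit false

namespace Fermat.Agent.S16

open UpperHalfPlane ModularForm Filter CongruenceSubgroup Fermat.Agent.S21 Fermat.Agent.S23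
open scoped MatrixGroups Manifold Topology
open Fermat.Agent.S16.Tri Fermat.Agent.S24

namespace LemmaA

lemma rho_cube : (rho : ℂ) ^ 3 = 1 := by
  linear_combination ((rho : ℂ) - 1) * rho_sq

lemma rho_ne_one : (rho : ℂ) ≠ 1 := by
  intro h
  have := rho_sq
  rw [h] at this
  norm_num at this

lemma rho_sq_ne_one : (rho : ℂ) ^ 2 ≠ 1 := by
  intro h
  have h1 := rho_sq
  have h2 : (rho : ℂ) = -2 := by linear_combination h1 - h
  rw [h2] at h
  norm_num at h

lemma rho_pow_ne_one {m : ℕ} (hm : ¬ 3 ∣ m) : (rho : ℂ) ^ m ≠ 1 := by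
  have h1 : (rho : ℂ) ^ m = (rho : ℂ) ^ (m % 3) := by
    conv_lhs => rw [← Nat.div_add_mod m 3, pow_add, pow_mul, rho_cube, one_pow, one_mul]
  rw [h1]
  have h2 : m % 3 = 1 ∨ m % 3 = 2 := by omega
  rcases h2 with h | h <;> rw [h]
  · simpa using rho_ne_one
  · exact rho_sq_ne_one

/-- a level one form of weight `2 m`, `3 ∤ m`, vanishes at `ρ` -/
lemma apply_rho_eq_zero {m : ℕ} (hm : ¬ 3 ∣ m) {f : ℍ → ℂ} (hf : IsMF ⊤ (2 * (m : ℤ)) f) :
    f rho = 0 := by
  have h := IsMF.apply_smul hf Umat rho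
  rw [Umat_smul_rho, denom_Umat] at h
  have e : ((rho : ℂ) + 1) ^ (2 * (m : ℤ)) = (rho : ℂ) ^ m := by
    rw [zpow_mul, zpow_natCast]
    congr 1
    have : ((rho : ℂ) + 1) ^ (2 : ℤ) = ((rho : ℂ) + 1) ^ 2 := by norm_cast
    rw [this]
    linear_combination rho_sq
  rw [e] at h
  have : ((rho : ℂ) ^ m - 1) * f rho = 0 := by linear_combination -h
  exact (mul_eq_zero.mp this).resolve_left (sub_ne_zero.mpr (rho_pow_ne_one hm))

/-- a level one form of weight `2 m`, `m` odd, vanishes at `i` -/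
lemma apply_I_eq_zero {m : ℕ} (hm : Odd m) {f : ℍ → ℂ} (hf : IsMF ⊤ (2 * (m : ℤ)) f) :
    f UpperHalfPlane.I = 0 := by
  have h := IsMF.apply_smul hf ModularGroup.S UpperHalfPlane.I
  rw [S_smul_I, ModularGroup.denom_S] at h
  have e : ((UpperHalfPlane.I : ℍ) : ℂ) ^ (2 * (m : ℤ)) = -1 := by
    rw [zpow_mul, zpow_natCast]
    have : ((UpperHalfPlane.I : ℍ) : ℂ) ^ (2 : ℤ) = Complex.I ^ 2 := by norm_cast
    rw [this, Complex.I_sq, hm.neg_one_pow]
  rw [e] at h
  have : (2 : ℂ) * f UpperHalfPlane.I = 0 := by linear_combination h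
  exact (mul_eq_zero.mp this).resolve_left two_ne_zero

lemma E4_I_cube : E₄ UpperHalfPlane.I ^ 3 = 1728 * discriminant UpperHalfPlane.I := by
  have := discriminant_eq_E₄_cube_sub_E₆_sq UpperHalfPlane.I
  rw [E6_I] at this
  rw [this]
  ring

end LemmaA

open LemmaA

/-- **LEMMA A** (in the shape of helper29's (L2)). -/
theorem levelOne_const_mod (ℓ : ℕ) [Fact ℓ.Prime] (hℓ : 5 ≤ ℓ)
    {S : Type*} [CommRing S] (ι : S →+* ℂ) (hι : Function.Injective ι)
    {κ : Type*} [Field κ] [CharP κ ℓ] (φ : S →+* κ)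
    {k : ℤ} (a : ℕ) (hk : k = 2 * (ℓ : ℤ) ^ a) (F : ModularForm 𝒮ℒ k) (g : PowerSeries S)
    (hg : g.map ι = qExpansion 1 F) (hn : ∀ n, n ≠ 0 → φ (g.coeff n) = 0) :
    φ (g.coeff 0) = 0 := by
  have hℓp : ℓ.Prime := Fact.out
  set m : ℕ := ℓ ^ a with hm
  have hm0 : 0 < m := pow_pos hℓp.pos a
  have hm3 : ¬ 3 ∣ m := by
    intro h
    have := (Nat.prime_dvd_prime_iff_eq Nat.prime_three hℓp).mp (Nat.prime_three.dvd_of_dvd_pow h)
    omega
  have hm2 : Odd m := by
    rw [← Nat.not_even_iff_odd, even_iff_two_dvd]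
    intro h
    have := (Nat.prime_dvd_prime_iff_eq Nat.prime_two hℓp).mp (Nat.prime_two.dvd_of_dvd_pow h)
    omega
  have hf : IsMF ⊤ (2 * (m : ℤ)) (⇑F) := (isMF_top_coe F).congr_wt (by rw [hk, hm]; push_cast; ring)
  have hfn : (⇑F : ℍ → ℂ) ∈ niceAlg := isMF_top_mem_niceAlg hf
  have hf6 : IsMF ⊤ (12 * (m : ℤ)) ((⇑F : ℍ → ℂ) ^ 6) :=
    (PartA2.IsMF.pow hf 6).congr_wt (by push_cast; ring)
  obtain ⟨x, hFx, hgx⟩ := exists_tri_ring ι hι m hf6 (g ^ 6)
    (by rw [map_pow, hg, qExpansion_pow_nice hfn])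
  -- evaluation at `ρ`
  have hxm : x m = 0 := by
    have h1 := congrFun hFx rho
    simp only [Pi.pow_apply, Finset.sum_apply, Pi.smul_apply, smul_eq_mul, triFun, Pi.mul_apply]
      at h1
    rw [apply_rho_eq_zero hm3 hf, E4_rho, Finset.sum_eq_single m] at h1
    · simp only [Nat.sub_self, mul_zero, pow_zero, mul_one] at h1
      have h2 : ι (x m) = 0 := by
        have h3 : ι (x m) * discriminant rho ^ m = 0 := by
          rw [← h1]; norm_num
        exact (mul_eq_zero.mp h3).resolve_right (pow_ne_zero _ (discriminant_ne_zero _))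
      exact hι (by rw [h2, map_zero])
    · intro i hi him
      have : 3 * (m - i) ≠ 0 := by
        have := Finset.mem_range.mp hi
        omega
      rw [zero_pow this]
      ring
    · intro h
      exact absurd (Finset.mem_range.mpr (Nat.lt_succ_self m)) h
  -- evaluation at `i`
  have hsum : ∑ i ∈ Finset.range (m + 1), x i * 1728 ^ (m - i) = 0 := by
    have h1 := congrFun hFx UpperHalfPlane.I
    simp only [Pi.pow_apply, Finset.sum_apply, Pi.smul_apply, smul_eq_mul, triFun, Pi.mul_apply]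
      at h1
    rw [apply_I_eq_zero hm2 hf] at h1
    have h2 : ∑ i ∈ Finset.range (m + 1), ι (x i) *
        (discriminant UpperHalfPlane.I ^ i * E₄ UpperHalfPlane.I ^ (3 * (m - i))) =
        discriminant UpperHalfPlane.I ^ m * ι (∑ i ∈ Finset.range (m + 1), x i * 1728 ^ (m - i)) := by
      rw [map_sum, Finset.mul_sum]
      refine Finset.sum_congr rfl fun i hi => ?_
      have him : i ≤ m := Nat.lt_succ_iff.mp (Finset.mem_range.mp hi)
      rw [pow_mul, E4_I_cube, mul_pow, map_mul, map_pow, map_ofNat]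
      have : discriminant UpperHalfPlane.I ^ m =
          discriminant UpperHalfPlane.I ^ i * discriminant UpperHalfPlane.I ^ (m - i) := by
        rw [← pow_add]; congr 1; omega
      rw [this]
      ring
    rw [h2] at h1
    have h3 : ι (∑ i ∈ Finset.range (m + 1), x i * 1728 ^ (m - i)) = 0 := by
      have h4 : discriminant UpperHalfPlane.I ^ m *
          ι (∑ i ∈ Finset.range (m + 1), x i * 1728 ^ (m - i)) = 0 := by
        rw [← h1]; norm_num
      exact (mul_eq_zero.mp h4).resolve_left (pow_ne_zero _ (discriminant_ne_zero _))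
    exact hι (by rw [h3, map_zero])
  -- reduction
  set c : κ := φ (g.coeff 0) with hc
  have hgc : g.map φ = PowerSeries.C c := by
    ext n
    rw [PowerSeries.coeff_map, PowerSeries.coeff_C]
    split_ifs with h
    · rw [h]
    · exact hn n h
  set u : PowerSeries κ := cst κ ModularCurve.dedekindEtaUnit with hu
  set E : PowerSeries κ := cst κ E4q with hE
  have hu1 : PowerSeries.constantCoeff u = 1 :=
    constantCoeff_cst_one ModularCurve.constantCoeff_dedekindEtaUnit
  have hE1 : PowerSeries.constantCoeff E = 1 := constantCoeff_cst_one constantCoeff_E4q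
  have h1 : PowerSeries.C (c ^ 6) = ∑ i ∈ Finset.range (m + 1), PowerSeries.C (φ (x i)) *
      ((PowerSeries.X * u) ^ i * E ^ (3 * (m - i))) := by
    rw [map_pow, ← hgc, ← map_pow, hgx, map_sum]
    refine Finset.sum_congr rfl fun i _ => ?_
    rw [map_mul, PowerSeries.map_C, map_mul, map_pow, map_pow, map_cst', map_cst', cst_Dq]
  obtain ⟨h, hh⟩ : ∃ h : PowerSeries κ, E ^ 3 = 1 + PowerSeries.X * h := by
    have : PowerSeries.X ∣ E ^ 3 - 1 := by
      rw [PowerSeries.X_dvd_iff, map_sub, map_pow, hE1]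
      simp
    obtain ⟨h, hh⟩ := this
    exact ⟨h, by rw [← hh]; ring⟩
  have hchar : CharP (PowerSeries κ) ℓ :=
    charP_of_injective_ringHom (PowerSeries.C_injective (R := κ)) ℓ
  have hE3m : E ^ (3 * m) = 1 + PowerSeries.X ^ m * h ^ m := by
    rw [pow_mul, hh, hm, add_pow_char_pow, one_pow, mul_pow]
  set y : ℕ → κ := fun i => if i = 0 then φ (x 0) - c ^ 6 else φ (x i) with hy
  have h2 : ∑ i ∈ Finset.range (m + 1), PowerSeries.C (y i) *
      ((PowerSeries.X * u) ^ i * E ^ (3 * (m - i))) = - (PowerSeries.C (c ^ 6) * (PowerSeries.X ^ m * h ^ m)) := by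
    have h3 : ∑ i ∈ Finset.range (m + 1), PowerSeries.C (y i) *
        ((PowerSeries.X * u) ^ i * E ^ (3 * (m - i))) =
        ∑ i ∈ Finset.range (m + 1), PowerSeries.C (φ (x i)) *
          ((PowerSeries.X * u) ^ i * E ^ (3 * (m - i))) - PowerSeries.C (c ^ 6) * E ^ (3 * m) := by
      rw [Finset.sum_range_succ', Finset.sum_range_succ' (fun i => PowerSeries.C (φ (x i)) *
          ((PowerSeries.X * u) ^ i * E ^ (3 * (m - i))))]
      simp only [hy, Nat.succ_ne_zero, if_false, if_true, map_sub, pow_zero, Nat.sub_zero, one_mul]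
      ring
    rw [h3, ← h1, hE3m]
    ring
  have h3 := tri_zero hu1 hE1 m (fun i => 3 * (m - i)) y m (Nat.le_succ m) (by
    intro n hnm
    rw [h2, map_neg, ← mul_assoc, mul_comm (PowerSeries.C (c ^ 6)), mul_assoc,
      PowerSeries.coeff_X_pow_mul', if_neg (not_le.mpr hnm), neg_zero])
  have hx0 : φ (x 0) = c ^ 6 := by
    have := h3 0 hm0
    simp only [hy, if_true] at this
    exact sub_eq_zero.mp this
  have hxi : ∀ i, 0 < i → i < m → φ (x i) = 0 := by
    intro i hi him
    have := h3 i him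
    simpa only [hy, if_neg hi.ne'] using this
  have h4 := congrArg φ hsum
  rw [map_sum, map_zero, Finset.sum_eq_single 0] at h4
  · rw [map_mul, hx0, map_pow, map_ofNat, Nat.sub_zero] at h4
    have h1728 : (1728 : κ) ≠ 0 := by
      have h5 : ((1728 : ℕ) : κ) ≠ 0 := by
        rw [Ne, CharP.cast_eq_zero_iff κ ℓ]
        intro hd
        have h6 : ℓ ∣ 2 ^ 6 * 3 ^ 3 := by norm_num; exact hd
        rcases (Nat.Prime.dvd_mul hℓp).mp h6 with h7 | h7
        · have := Nat.le_of_dvd (by norm_num) (hℓp.dvd_of_dvd_pow h7); omega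
        · have := Nat.le_of_dvd (by norm_num) (hℓp.dvd_of_dvd_pow h7); omega
      exact_mod_cast h5
    have h5 := (mul_eq_zero.mp h4).resolve_right (pow_ne_zero _ h1728)
    exact pow_eq_zero_iff (by norm_num) |>.mp h5
  · intro i hi hi0
    rw [map_mul]
    rcases Nat.lt_or_ge i m with him | him
    · rw [hxi i (Nat.pos_of_ne_zero hi0) him, zero_mul]
    · have : i = m := by
        have := Finset.mem_range.mp hi
        omega
      rw [this, hxm, map_zero, zero_mul]
  · intro h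
    exact absurd (Finset.mem_range.mpr (Nat.succ_pos m)) h

end Fermat.Agent.S16
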