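import Fermat.Agent.S16.Formal
import Fermat.Agent.S16.LemmaA

/-!
# S16, package L1BASE: level one forms in the `IsL1` / `Cong` language
-/

set_option autoImplicit false

noncomputable section

namespace Fermat.Agent.S16

open UpperHalfPlane ModularForm CongruenceSubgroup
open scoped MatrixGroups
open Fermat.Agent.S16.Tri Fermat.Agent.S23

theorem isL1_E4 : IsL1 4 E₄ e4 := ⟨S21.isMF_E4, rfl⟩
theorem isL1_E6 : IsL1 6 E₆ e6 := ⟨S21.isMF_E6, rfl⟩
theorem isL1_D : IsL1 12 ModularForm.discriminant dl := ⟨S21.isCF_Delta.isMF, rfl⟩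

theorem e4_eq : e4 = 1 + PowerSeries.C 240 * sigmaS ℂ 3 := by
  ext n
  rw [e4, EisensteinSeries.E_qExpansion_coeff _ ⟨2, rfl⟩, map_add, PowerSeries.coeff_C_mul,
    sigmaS, PowerSeries.coeff_mk, PowerSeries.coeff_one]
  split_ifs with hn
  · simp [hn]
  · norm_num [show bernoulli 4 = -1 / 30 by decide +kernel]

theorem e6_eq : e6 = 1 - PowerSeries.C 504 * sigmaS ℂ 5 := by
  ext n
  rw [e6, EisensteinSeries.E_qExpansion_coeff _ ⟨3, rfl⟩, map_sub, PowerSeries.coeff_C_mul,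
    sigmaS, PowerSeries.coeff_mk, PowerSeries.coeff_one]
  split_ifs with hn
  · simp [hn]
  · norm_num [show bernoulli 6 = 1 / 42 by decide +kernel]

theorem dl_eq_map : dl = PowerSeries.map (Int.castRingHom ℂ) Dq := qExpansion_discriminant_eq

theorem dl_mem (A : Subring ℂ) : dl ∈ coeffRing A := by
  rw [dl_eq_map]
  exact map_intCast_mem_coeffRing _

theorem coeff_dl_zero : PowerSeries.coeff 0 dl = 0 := by
  rw [dl_eq_map, PowerSeries.coeff_map, Dq, PowerSeries.coeff_zero_X_mul, map_zero]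

theorem coeff_dl_one : PowerSeries.coeff 1 dl = 1 := by
  rw [dl_eq_map, PowerSeries.coeff_map, Dq, mul_comm, show (1 : ℕ) = 0 + 1 from rfl,
    PowerSeries.coeff_succ_mul_X, PowerSeries.coeff_zero_eq_constantCoeff_apply,
    ModularCurve.constantCoeff_dedekindEtaUnit, map_one]

theorem IsL1.nice {k : ℤ} {F : ℍ → ℂ} {a : PowerSeries ℂ} (hF : IsL1 k F a) : F ∈ niceAlg :=
  isMF_top_mem_niceAlg hF.isMF

theorem IsL1.add {k : ℤ} {F G : ℍ → ℂ} {a b : PowerSeries ℂ} (hF : IsL1 k F a) (hG : IsL1 k G b) :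
    IsL1 k (F + G) (a + b) :=
  ⟨hF.isMF.add hG.isMF, by rw [qExpansion_add_nice hF.nice hG.nice, hF.qexp, hG.qexp]⟩

theorem IsL1.sub {k : ℤ} {F G : ℍ → ℂ} {a b : PowerSeries ℂ} (hF : IsL1 k F a) (hG : IsL1 k G b) :
    IsL1 k (F - G) (a - b) :=
  ⟨hF.isMF.sub hG.isMF, by rw [qExpansion_sub_nice hF.nice hG.nice, hF.qexp, hG.qexp]⟩

theorem IsL1.smul {k : ℤ} {F : ℍ → ℂ} {a : PowerSeries ℂ} (c : ℂ) (hF : IsL1 k F a) :
    IsL1 k (c • F) (PowerSeries.C c * a) :=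
  ⟨hF.isMF.smul c, by rw [qExpansion_smul_nice hF.nice, hF.qexp]⟩

theorem IsL1.mul {k l : ℤ} {F G : ℍ → ℂ} {a b : PowerSeries ℂ} (hF : IsL1 k F a)
    (hG : IsL1 l G b) : IsL1 (k + l) (F * G) (a * b) :=
  ⟨hF.isMF.mul hG.isMF, by rw [qExpansion_mul_nice hF.nice hG.nice, hF.qexp, hG.qexp]⟩

theorem IsL1.pow {k : ℤ} {F : ℍ → ℂ} {a : PowerSeries ℂ} (hF : IsL1 k F a) (n : ℕ) :
    IsL1 (n * k) (F ^ n) (a ^ n) :=
  ⟨S21.PartA2.IsMF.pow hF.isMF n, by rw [qExpansion_pow_nice hF.nice, hF.qexp]⟩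

theorem IsL1.congr_wt {k l : ℤ} {F : ℍ → ℂ} {a : PowerSeries ℂ} (h : k = l) (hF : IsL1 k F a) :
    IsL1 l F a := h ▸ hF

theorem IsL1.eq_zero_of_wt_two {F : ℍ → ℂ} {a : PowerSeries ℂ} (hF : IsL1 2 F a) : a = 0 := by
  rw [← hF.qexp, S21.isMF_top_two_eq_zero hF.isMF]
  exact qExpansion_zero 1

/-- integral Sturm bound in level one modulo `M A` (adapter of `Tri.sturm_general`). -/
theorem IsL1.sturm (A : Subring ℂ) {M : ℂ} (hM : M ∈ A) {k : ℤ} (a b m : ℕ)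
    (hk : k + 4 * a + 6 * b = 12 * m) {F : ℍ → ℂ} {s : PowerSeries ℂ}
    (hF : IsL1 k F s) (hs : s ∈ coeffRing A)
    (h : ∀ i ≤ m, ∃ x ∈ A, PowerSeries.coeff i s = M * x) : Cong A M s 0 := by
  set g : PowerSeries A := PowerSeries.mk fun n => ⟨PowerSeries.coeff n s, hs n⟩ with hg
  set I : Ideal A := Ideal.span {(⟨M, hM⟩ : A)} with hI
  have hmem : ∀ y : A, Ideal.Quotient.mk I y = 0 ↔ ∃ x ∈ A, (y : ℂ) = M * x := by
    intro y
    rw [Ideal.Quotient.eq_zero_iff_mem, hI, Ideal.mem_span_singleton']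
    constructor
    · rintro ⟨x, hx⟩
      refine ⟨x, x.2, ?_⟩
      rw [← hx]
      simp [mul_comm]
    · rintro ⟨x, hx, hy⟩
      refine ⟨⟨x, hx⟩, Subtype.ext ?_⟩
      rw [hy]
      simp [mul_comm]
  have h1 := sturm_general A.subtype Subtype.val_injective (Ideal.Quotient.mk I) a b m hk hF.isMF g
    (by
      rw [hF.qexp]
      ext n
      simp [hg])
    (by
      intro n hn
      rw [hmem, hg, PowerSeries.coeff_mk]
      exact h n hn)
  rw [cong_iff_coeff]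
  intro n
  have h2 := (hmem _).mp (h1 n)
  rw [hg, PowerSeries.coeff_mk] at h2
  obtain ⟨x, hx, hx'⟩ := h2
  exact ⟨x, hx, by rw [map_zero, sub_zero]; exact hx'⟩

/-- `M_4 = ℂ E₄`. -/
theorem IsL1.wt_four {F : ℍ → ℂ} {s : PowerSeries ℂ} (hF : IsL1 4 F s) :
    s = PowerSeries.C (PowerSeries.coeff 0 s) * e4 := by
  set c := PowerSeries.coeff 0 s with hc
  have hG := hF.sub (isL1_E4.smul c)
  have h0 : PowerSeries.coeff 0 (s - PowerSeries.C c * e4) = 0 := by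
    rw [map_sub, PowerSeries.coeff_C_mul, e4,
      EisensteinSeries.E_qExpansion_coeff_zero _ ⟨2, rfl⟩, mul_one, hc, sub_self]
  have hlim : Filter.Tendsto (F - c • (⇑E₄ : ℍ → ℂ)) atImInfty (nhds 0) := by
    have := S21.PartA2.tendsto_levelOne hG.isMF.toLevelOne
    rwa [S21.IsMF.coe_toLevelOne, hG.qexp, h0] at this
  obtain ⟨b, hb, hFb⟩ := S21.PartA2.exists_eq_discriminant_mul hG.isMF hlim
  have hb0 : b = 0 := by
    have := rank_zero_iff_forall_zero.mp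
      (levelOne_neg_weight_rank_zero (k := 4 - 12) (by norm_num)) hb.toLevelOne
    have h2 := congrArg (fun G : ModularForm 𝒮ℒ (4 - 12) => (G : ℍ → ℂ)) this
    simpa using h2
  have h3 : s - PowerSeries.C c * e4 = 0 := by
    rw [← hG.qexp, hFb, hb0, mul_zero]
    exact qExpansion_zero 1
  exact sub_eq_zero.mp h3

/-- `1728 Δ = E₄³ - E₆²` for `q`-expansions. -/
theorem dl_eq : PowerSeries.C 1728 * dl = e4 ^ 3 - e6 ^ 2 := by
  have h1 : (1728 : ℂ) • (ModularForm.discriminant : ℍ → ℂ) =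
      (⇑E₄ : ℍ → ℂ) ^ 3 - (⇑E₆ : ℍ → ℂ) ^ 2 := by
    ext z
    simp only [Pi.smul_apply, smul_eq_mul, Pi.sub_apply, Pi.pow_apply]
    rw [discriminant_eq_E₄_cube_sub_E₆_sq z]
    ring
  have h2 := (isL1_D.smul 1728).qexp
  rw [h1] at h2
  rw [← h2, qExpansion_sub_nice (pow_mem E4_mem_niceAlg 3) (pow_mem E6_mem_niceAlg 2),
    qExpansion_pow_nice E4_mem_niceAlg, qExpansion_pow_nice E6_mem_niceAlg]
  rfl

/-- LEMMA A (helper19 #256), in the `Cong` language. -/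
theorem lemmaA (ℓ : ℕ) [Fact ℓ.Prime] (hℓ : 5 ≤ ℓ) (t : ℕ) {F : ℍ → ℂ} {a : PowerSeries ℂ}
    (hF : IsL1 (2 * (ℓ : ℤ) ^ t) F a) (ha : Cong (Zloc ℓ) ℓ a 1) : False := by
  obtain ⟨φ, -, hφ⟩ := exists_redZ ℓ
  have hℓmem : (ℓ : ℂ) ∈ Zloc ℓ := natCast_mem _ _
  have haA : a ∈ coeffRing (Zloc ℓ) := ha.mem hℓmem (coeffRing (Zloc ℓ)).one_mem
  set g : PowerSeries (Zloc ℓ) := PowerSeries.mk fun n => ⟨PowerSeries.coeff n a, haA n⟩ with hg
  have hcong := cong_iff_coeff.mp ha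
  have h0 := levelOne_const_mod ℓ hℓ (Zloc ℓ).subtype Subtype.val_injective φ t rfl
    hF.isMF.toLevelOne g
    (by
      rw [S21.IsMF.coe_toLevelOne, hF.qexp]
      ext n
      simp [hg])
    (by
      intro n hn
      rw [hφ, hg, PowerSeries.coeff_mk]
      obtain ⟨x, hx, hx'⟩ := hcong n
      rw [PowerSeries.coeff_one, if_neg hn, sub_zero] at hx'
      exact ⟨x, hx, hx'⟩)
  rw [hφ, hg, PowerSeries.coeff_mk] at h0
  obtain ⟨y, hy, hy'⟩ := h0
  obtain ⟨x, hx, hx'⟩ := hcong 0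
  rw [PowerSeries.coeff_one, if_pos rfl] at hx'
  have hy'' : PowerSeries.coeff 0 a = (ℓ : ℂ) * y := hy'
  apply inv_not_mem_Zloc ℓ
  have hℓ0 : (ℓ : ℂ) ≠ 0 := by
    have : ℓ ≠ 0 := by omega
    exact_mod_cast this
  have : ((ℓ : ℂ))⁻¹ = y - x := by
    have h1 : (ℓ : ℂ) * (y - x) = 1 := by rw [mul_sub, ← hy'', ← hx']; ring
    field_simp
    linear_combination -h1
  rw [this]
  exact sub_mem hy hx

end Fermat.Agent.S16
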