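import Fermat.Agent.S16.Norm
import Fermat.Agent.S16.L1Base

/-!
# S16, package NO: the NORM-ORDER lemma (helper4 #292)

If `F ≡ φ` at `∞` and `F^♮ ≡ u V_p φ` at `0` modulo `ℓ`, `φ(0) = 0`, then the norm of `F` is
`≡ u^p φ^(p+1)`, of `q`-order `≥ p + 1`, which is beyond the Sturm bound: so it vanishes mod `ℓ`.
-/

set_option autoImplicit false

noncomputable section

namespace Fermat.Agent.S16

open UpperHalfPlane ModularForm CongruenceSubgroup
open scoped MatrixGroups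

theorem Cong.rescale {A : Subring ℂ} {M : ℂ} {s t : PowerSeries ℂ} {z : ℂ} (hz : z ∈ A)
    (h : Cong A M s t) : Cong A M (PowerSeries.rescale z s) (PowerSeries.rescale z t) := by
  rw [cong_iff_coeff] at h ⊢
  intro n
  obtain ⟨a, ha, h'⟩ := h n
  refine ⟨z ^ n * a, A.mul_mem (pow_mem hz n) ha, ?_⟩
  rw [PowerSeries.coeff_rescale, PowerSeries.coeff_rescale, ← mul_sub, h']
  ring

theorem Cong.prod {A : Subring ℂ} {M : ℂ} {α : Type*} (I : Finset α) (s t : α → PowerSeries ℂ)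
    (h : ∀ i ∈ I, Cong A M (s i) (t i)) (hs : ∀ i ∈ I, s i ∈ coeffRing A)
    (ht : ∀ i ∈ I, t i ∈ coeffRing A) : Cong A M (∏ i ∈ I, s i) (∏ i ∈ I, t i) := by
  classical
  induction I using Finset.induction_on with
  | empty => simpa using Cong.refl A M 1
  | insert a I ha ih =>
    rw [Finset.prod_insert ha, Finset.prod_insert ha]
    exact (h a (Finset.mem_insert_self a I)).mul
      (ih (fun i hi => h i (Finset.mem_insert_of_mem hi))
        (fun i hi => hs i (Finset.mem_insert_of_mem hi))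
        (fun i hi => ht i (Finset.mem_insert_of_mem hi)))
      (hs a (Finset.mem_insert_self a I))
      (Subring.prod_mem _ fun i hi => ht i (Finset.mem_insert_of_mem hi))

theorem rescale_C_mul (z c : ℂ) (s : PowerSeries ℂ) :
    PowerSeries.rescale z (PowerSeries.C c * s) = PowerSeries.C c * PowerSeries.rescale z s := by
  ext n
  rw [PowerSeries.coeff_rescale, PowerSeries.coeff_C_mul, PowerSeries.coeff_C_mul,
    PowerSeries.coeff_rescale]
  ring

variable (p : ℕ) [Fact p.Prime]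

/-- NO (`NormOrder.lean`): NORM-ORDER lemma of helper4 #292 (from `IsPair.norm` + `IsL1.sturm`):
`N(F) ≡ u^p φ^(p+1)` has `q`-order `p + 1 > m`. -/
theorem norm_order (O : Subring ℂ) (hζ : zetaP p ∈ O) {ℓ : ℂ} (hℓ : ℓ ∈ O) {k : ℤ} (a b m : ℕ)
    (hk : k * (p + 1) + 4 * a + 6 * b = 12 * m) (hm : m ≤ p)
    {F : ℍ → ℂ} {C D φ : PowerSeries ℂ} (hF : IsPair p k F C D) (hφ : φ ∈ coeffRing O)
    (hφ0 : PowerSeries.coeff 0 φ = 0) {u : ℂ} (hu : u ∈ O)
    (hC : Cong O ℓ C φ) (hD : Cong O ℓ D (PowerSeries.C u * Vp p φ)) :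
    ∃ x ∈ O, u ^ p * PowerSeries.coeff 1 φ ^ (p + 1) = ℓ * x := by
  have hp0 : p ≠ 0 := (Fact.out : p.Prime).ne_zero
  obtain ⟨n, hn1, hn2⟩ := hF.norm
  have hVφ : Vp p φ ∈ coeffRing O := Vp_mem_coeffRing p hφ
  have huV : PowerSeries.C u * Vp p φ ∈ coeffRing O := mul_mem (C_mem_coeffRing hu) hVφ
  have hDm : D ∈ coeffRing O := hD.mem hℓ huV
  have hCm : C ∈ coeffRing O := hC.mem hℓ hφ
  set ψ : PowerSeries ℂ := PowerSeries.C (u ^ p) * φ ^ (p + 1) with hψ
  have hψm : ψ ∈ coeffRing O := mul_mem (C_mem_coeffRing (pow_mem hu p)) (pow_mem hφ _)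
  -- the product over the cosets
  have h1 : Cong O ℓ (∏ b ∈ Finset.range p, PowerSeries.rescale (zetaP p ^ b) D)
      (∏ _b ∈ Finset.range p, PowerSeries.C u * Vp p φ) := by
    refine Cong.prod _ _ _ (fun b _ => ?_)
      (fun b _ => rescale_mem_coeffRing (pow_mem hζ b) hDm) (fun b _ => huV)
    have h2 := hD.rescale (pow_mem hζ b)
    rwa [rescale_C_mul, rescale_Vp (zetaP p ^ b)
      (by rw [← pow_mul, mul_comm, pow_mul, zetaP_pow p hp0, one_pow])] at h2
  have h2 : Cong O ℓ (Vp p n) (Vp p ψ) := by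
    have h3 := (hC.Vp p).mul h1 (Vp_mem_coeffRing p hCm) (Subring.prod_mem _ fun _ _ => huV)
    rw [← hn2, Finset.prod_const, Finset.card_range] at h3
    have h4 : Vp p ψ = Vp p φ * (PowerSeries.C u * Vp p φ) ^ p := by
      rw [hψ, Vp_mul hp0, Vp_C hp0, Vp_pow hp0, map_pow]
      ring
    rwa [h4]
  have h3 : Cong O ℓ n ψ := by
    have := h2.Up p
    rwa [Up_Vp hp0, Up_Vp hp0] at this
  have hnm : n ∈ coeffRing O := h3.mem hℓ hψm
  -- the shape of `ψ`
  obtain ⟨φ', hφ'⟩ : PowerSeries.X ∣ φ := by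
    rw [PowerSeries.X_dvd_iff, ← PowerSeries.coeff_zero_eq_constantCoeff_apply, hφ0]
  have hφ1 : PowerSeries.coeff 1 φ = PowerSeries.constantCoeff φ' := by
    rw [hφ', mul_comm, show (1 : ℕ) = 0 + 1 from rfl, PowerSeries.coeff_succ_mul_X,
      PowerSeries.coeff_zero_eq_constantCoeff_apply]
  have hψX : ψ = PowerSeries.X ^ (p + 1) * (PowerSeries.C (u ^ p) * φ' ^ (p + 1)) := by
    rw [hψ, hφ', mul_pow]
    ring
  have hψlow : ∀ i ≤ p, PowerSeries.coeff i ψ = 0 := by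
    intro i hi
    rw [hψX, PowerSeries.coeff_X_pow_mul', if_neg (by omega)]
  have hψtop : PowerSeries.coeff (p + 1) ψ = u ^ p * PowerSeries.coeff 1 φ ^ (p + 1) := by
    rw [hψX, PowerSeries.coeff_X_pow_mul', if_pos le_rfl, Nat.sub_self, PowerSeries.coeff_C_mul,
      PowerSeries.coeff_zero_eq_constantCoeff_apply, map_pow, hφ1]
  -- Sturm
  have h4 : Cong O ℓ n 0 := by
    refine hn1.sturm O hℓ a b m hk hnm fun i hi => ?_
    obtain ⟨x, hx, hx'⟩ := cong_iff_coeff.mp h3 i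
    rw [hψlow i (hi.trans hm), sub_zero] at hx'
    exact ⟨x, hx, hx'⟩
  obtain ⟨x, hx, hx'⟩ := cong_iff_coeff.mp (h3.symm.trans h4) (p + 1)
  rw [map_zero, sub_zero, hψtop] at hx'
  exact ⟨x, hx, hx'⟩

end Fermat.Agent.S16
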