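import Fermat.Agent.S16.Defs
import Fermat.Agent.S16.Trace

/-!
# S16, package ANBASE: the calculus of pairs `(q-expansion at ∞, q-expansion at 0)`

Thin wrappers around `Fermat.Agent.S16.Trace`, in the shapes of the S16 plan.
-/

set_option autoImplicit false

namespace Fermat.Agent.S16

open UpperHalfPlane ModularForm CongruenceSubgroup Fermat.Agent.S21 Fermat.Agent.S23
  Fermat.Agent.S23.Prim
open scoped MatrixGroups Manifold Topology

section bridge

variable (p : ℕ) [NeZero p] (k : ℤ) (F : ℍ → ℂ)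

lemma heckeDiagMatrix_eq_Dm : heckeDiagMatrix p = Dm p := by
  rw [heckeDiagMatrix, dif_neg (NeZero.ne p), Dm]

lemma natF_eq_sharp : natF p k F = sharp p k F := by
  funext τ
  rw [natF, sharp, heckeDiagMatrix_eq_Dm]

lemma traceF_eq_tr : traceF p k F = tr p k F := by
  rw [traceF, tr, trU, sum_zmod_val (fun i : ℕ => cj k F (i : ℤ))]
  congr 1
  refine Finset.sum_congr rfl fun b _ => ?_
  rw [cj, zpow_natCast]

end bridge

lemma C_mul_eq_smul (c : ℂ) (A : PowerSeries ℂ) : PowerSeries.C c * A = c • A := by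
  ext n
  simp

section Pair

variable {p : ℕ} [Fact p.Prime] {k l : ℤ} {F G : ℍ → ℂ} {A B C D : PowerSeries ℂ}

theorem isMF_natF (h : S21.IsMF (Gamma0 p) k F) : S21.IsMF (Gamma0 p) k (natF p k F) := by
  rw [natF_eq_sharp]
  exact isMF_sharp h

lemma IsPair.nice (h : IsPair p k F A B) : F ∈ niceAlg := mem_niceAlg_of_isMF h.isMF

lemma IsPair.nice0 (h : IsPair p k F A B) : sharp p k F ∈ niceAlg :=
  mem_niceAlg_of_isMF (isMF_sharp h.isMF)

lemma IsPair.qexp0' (h : IsPair p k F A B) : qExpansion 1 (sharp p k F) = B := by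
  rw [← natF_eq_sharp]
  exact h.qexp0

theorem IsPair.add (h : IsPair p k F A B) (h' : IsPair p k G C D) :
    IsPair p k (F + G) (A + C) (B + D) where
  isMF := h.isMF.add h'.isMF
  qexp := by
    rw [qExpansion_add (analyticAt_of_mem_niceAlg h.nice) (analyticAt_of_mem_niceAlg h'.nice),
      h.qexp, h'.qexp]
  qexp0 := by
    rw [natF_eq_sharp, sharp_add,
      qExpansion_add (analyticAt_of_mem_niceAlg h.nice0) (analyticAt_of_mem_niceAlg h'.nice0),
      h.qexp0', h'.qexp0']

theorem IsPair.sub (h : IsPair p k F A B) (h' : IsPair p k G C D) :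
    IsPair p k (F - G) (A - C) (B - D) where
  isMF := h.isMF.sub h'.isMF
  qexp := by
    rw [qExpansion_sub (analyticAt_of_mem_niceAlg h.nice) (analyticAt_of_mem_niceAlg h'.nice),
      h.qexp, h'.qexp]
  qexp0 := by
    rw [natF_eq_sharp, sharp_sub,
      qExpansion_sub (analyticAt_of_mem_niceAlg h.nice0) (analyticAt_of_mem_niceAlg h'.nice0),
      h.qexp0', h'.qexp0']

theorem IsPair.smul (c : ℂ) (h : IsPair p k F A B) :
    IsPair p k (c • F) (PowerSeries.C c * A) (PowerSeries.C c * B) where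
  isMF := h.isMF.smul c
  qexp := by
    rw [qExpansion_smul' h.nice, h.qexp, C_mul_eq_smul]
  qexp0 := by
    rw [natF_eq_sharp, sharp_smul, qExpansion_smul' h.nice0, h.qexp0', C_mul_eq_smul]

theorem IsPair.mul (h : IsPair p k F A B) (h' : IsPair p l G C D) :
    IsPair p (k + l) (F * G) (A * C) (B * D) where
  isMF := h.isMF.mul h'.isMF
  qexp := by
    rw [qExpansion_mul (analyticAt_of_mem_niceAlg h.nice) (analyticAt_of_mem_niceAlg h'.nice),
      h.qexp, h'.qexp]
  qexp0 := by
    rw [natF_eq_sharp, sharp_mul,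
      qExpansion_mul (analyticAt_of_mem_niceAlg h.nice0) (analyticAt_of_mem_niceAlg h'.nice0),
      h.qexp0', h'.qexp0']

theorem isPair_one : IsPair p 0 (1 : ℍ → ℂ) 1 1 where
  isMF := by
    have := isMF_top_coe (1 : ModularForm 𝒮ℒ 0)
    exact IsMF.of_top (by simpa using this)
  qexp := qExpansion_one 1
  qexp0 := by
    have : natF p 0 (1 : ℍ → ℂ) = 1 := by
      rw [natF_eq_sharp]
      funext τ
      rw [sharp_apply]
      simp
    rw [this, qExpansion_one]

theorem IsPair.pow (h : IsPair p k F A B) (n : ℕ) :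
    IsPair p (n * k) (F ^ n) (A ^ n) (B ^ n) := by
  induction n with
  | zero => simpa using (isPair_one (p := p))
  | succ n ih =>
    have := ih.mul h
    have e : (n : ℤ) * k + k = ((n + 1 : ℕ) : ℤ) * k := by push_cast; ring
    rw [e] at this
    simpa [pow_succ] using this

theorem IsL1.isPair (h : IsL1 k F A) : IsPair p k F A (Vp p A) where
  isMF := h.isMF.of_top
  qexp := h.qexp
  qexp0 := by
    rw [natF_eq_sharp, sharp_of_levelOne h.isMF]
    ext n
    rw [qExpansion_comp_Dm_coeff (mem_niceAlg_of_isMF_top h.isMF), coeff_Vp, h.qexp]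

set_option linter.unusedVariables false in
theorem IsPair.swap (hk : Even k) (h : IsPair p k F A B) :
    IsPair p k (natF p k F) B (PowerSeries.C ((p : ℂ) ^ (-k)) * A) where
  isMF := isMF_natF h.isMF
  qexp := h.qexp0
  qexp0 := by
    rw [natF_eq_sharp, natF_eq_sharp, sharp_sharp h.isMF, qExpansion_smul' h.nice, h.qexp,
      C_mul_eq_smul]

theorem IsPair.trace (h : IsPair p k F A B) :
    IsL1 k (traceF p k F) (A + PowerSeries.C (p : ℂ) * Up p B) where
  isMF := by
    rw [traceF_eq_tr]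
    exact isMF_tr h.isMF
  qexp := by
    rw [traceF_eq_tr]
    ext n
    rw [qExpansion_tr_coeff h.isMF, h.qexp, h.qexp0', map_add, PowerSeries.coeff_C_mul, coeff_Up,
      mul_comm n p]

theorem IsPair.wt_two (h : IsPair p 2 F A B) : B = -PowerSeries.C ((p : ℂ)⁻¹) * Up p A := by
  ext n
  rw [← h.qexp0', sharp_two_coeff h.isMF, h.qexp, neg_mul, map_neg, PowerSeries.coeff_C_mul,
    coeff_Up, mul_comm n p]

theorem isPair_cusp (f : CuspForm (Gamma0 p) 2) : ∃ B, IsPair p 2 f (qExpansion 1 f) B :=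
  ⟨_, ⟨(isCF_coe f).isMF, rfl, rfl⟩⟩

end Pair

end Fermat.Agent.S16
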