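import Fermat.Agent.S16.Formal
import Fermat.Agent.S16.L1Base
import Fermat.Agent.S16.Pair
import Fermat.Agent.S16.NormOrder

/-!
# S16, CASE2: `ℓ = 2`, `p ≡ 7 mod 8`, `H ≡ 1 mod 8` is impossible
-/

set_option autoImplicit false

noncomputable section

namespace Fermat.Agent.S16

open UpperHalfPlane ModularForm CongruenceSubgroup
open scoped MatrixGroups ArithmeticFunction.sigma

namespace Case2

/-- `12 ∣ 5 d³ + 7 d⁵`. -/
lemma twelve_dvd (d : ℕ) : 12 ∣ 5 * d ^ 3 + 7 * d ^ 5 := by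
  have h : (5 * d ^ 3 + 7 * d ^ 5) % 12 = (5 * (d % 12) ^ 3 + 7 * (d % 12) ^ 5) % 12 := by
    simp [Nat.add_mod, Nat.mul_mod, Nat.pow_mod]
  have hd : d % 12 < 12 := Nat.mod_lt _ (by norm_num)
  apply Nat.dvd_of_mod_eq_zero
  rw [h]
  interval_cases (d % 12) <;> norm_num

lemma twelve_dvd_sigma (n : ℕ) : 12 ∣ 5 * σ 3 n + 7 * σ 5 n := by
  rw [ArithmeticFunction.sigma_apply, ArithmeticFunction.sigma_apply, Finset.mul_sum,
    Finset.mul_sum, ← Finset.sum_add_distrib]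
  exact Finset.dvd_sum fun d _ => twelve_dvd d

/-- `t = (5 σ₃ + 7 σ₅)/12`. -/
def tS : PowerSeries ℂ := PowerSeries.mk fun n => (((5 * σ 3 n + 7 * σ 5 n) / 12 : ℕ) : ℂ)

lemma tS_mem (A : Subring ℂ) : tS ∈ coeffRing A := by
  intro n
  simp only [tS, PowerSeries.coeff_mk]
  exact natCast_mem A _

lemma tS_eq : 12 * tS = 5 * sigmaS ℂ 3 + 7 * sigmaS ℂ 5 := by
  ext n
  have h12 : (12 : PowerSeries ℂ) = PowerSeries.C 12 := (map_ofNat _ 12).symm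
  have h5 : (5 : PowerSeries ℂ) = PowerSeries.C 5 := (map_ofNat _ 5).symm
  have h7 : (7 : PowerSeries ℂ) = PowerSeries.C 7 := (map_ofNat _ 7).symm
  rw [h12, h5, h7, map_add, PowerSeries.coeff_C_mul, PowerSeries.coeff_C_mul,
    PowerSeries.coeff_C_mul]
  simp only [tS, sigmaS, PowerSeries.coeff_mk]
  obtain ⟨c, hc⟩ := twelve_dvd_sigma n
  rw [hc, Nat.mul_div_cancel_left _ (by norm_num)]
  have := congrArg (Nat.cast : ℕ → ℂ) hc
  push_cast at this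
  rw [this]

/-- the formal core: `F = b X - 3 a² ≡ dd mod 2`. -/
lemma core (Z : Subring ℂ) {X y x3 x5 x4 x6 dd t : PowerSeries ℂ}
    (hX : X = 1 + 8 * y) (h4 : x4 = 1 + 240 * x3) (h6 : x6 = 1 - 504 * x5)
    (hd : 1728 * dd = x4 ^ 3 - x6 ^ 2) (ht : 12 * t = 5 * x3 + 7 * x5)
    (hy : y ∈ coeffRing Z) (h3 : x3 ∈ coeffRing Z) (htm : t ∈ coeffRing Z)
    (hdm : dd ∈ coeffRing Z) {a b : PowerSeries ℂ}
    (ha : 16 * a = X ^ 2 - x4) (hb : 64 * b = X ^ 3 - 3 * (X * x4) + 2 * x6) :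
    Cong Z 2 (b * X - 3 * a ^ 2) dd := by
  have h16 : (16 : PowerSeries ℂ) ≠ 0 := by
    rw [← map_ofNat (PowerSeries.C (R := ℂ)) 16]
    exact (map_ne_zero_iff _ PowerSeries.C_injective).mpr (by norm_num)
  have h64 : (64 : PowerSeries ℂ) ≠ 0 := by
    rw [← map_ofNat (PowerSeries.C (R := ℂ)) 64]
    exact (map_ne_zero_iff _ PowerSeries.C_injective).mpr (by norm_num)
  have ha' : a = y + 4 * y ^ 2 - 15 * x3 := by
    apply mul_left_cancel₀ h16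
    rw [ha, hX, h4]; ring
  have hb' : b = 3 * y ^ 2 + 8 * y ^ 3 - 90 * (y * x3) - 27 * t := by
    apply mul_left_cancel₀ h64
    rw [hb, hX, h4, h6]
    linear_combination (144 : PowerSeries ℂ) * ht
  have ham : a ∈ coeffRing Z := by
    rw [ha']
    exact sub_mem (add_mem hy (mul_mem (ofNat_mem _ 4) (pow_mem hy 2))) (mul_mem (ofNat_mem _ 15) h3)
  have hbm : b ∈ coeffRing Z := by
    rw [hb']
    exact sub_mem (sub_mem (add_mem (mul_mem (ofNat_mem _ 3) (pow_mem hy 2))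
      (mul_mem (ofNat_mem _ 8) (pow_mem hy 3))) (mul_mem (ofNat_mem _ 90) (mul_mem hy h3)))
      (mul_mem (ofNat_mem _ 27) htm)
  have hXm : X ∈ coeffRing Z := by
    rw [hX]; exact add_mem (one_mem _) (mul_mem (ofNat_mem _ 8) hy)
  have h27 : 27 * dd = -X ^ 2 * (b * X - 3 * a ^ 2) - 64 * a ^ 3 - 16 * b ^ 2 + 24 * (X * a * b) := by
    apply mul_left_cancel₀ h64
    have e4' : x4 = X ^ 2 - 16 * a := by rw [ha]; ring
    have e6' : 2 * x6 = 64 * b - X ^ 3 + 3 * (X * x4) := by rw [hb]; ring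
    have h2 : (2 : PowerSeries ℂ) ≠ 0 := by
      rw [← map_ofNat (PowerSeries.C (R := ℂ)) 2]
      exact (map_ne_zero_iff _ PowerSeries.C_injective).mpr (by norm_num)
    have e6'' : x6 = 32 * b + X ^ 3 - 24 * (X * a) := by
      apply mul_left_cancel₀ h2
      rw [e6', e4']; ring
    have : 64 * (27 * dd) = 1728 * dd := by ring
    rw [this, hd, e6'', e4']; ring
  refine ⟨(b * X - 3 * a ^ 2) * (1 + 8 * y + 32 * y ^ 2) + 13 * dd + 32 * a ^ 3 + 8 * b ^ 2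
    - 12 * (X * a * b), ?_, ?_⟩
  · refine sub_mem (add_mem (add_mem (add_mem (mul_mem (sub_mem (mul_mem hbm hXm)
      (mul_mem (ofNat_mem _ 3) (pow_mem ham 2))) (add_mem (add_mem (one_mem _)
      (mul_mem (ofNat_mem _ 8) hy)) (mul_mem (ofNat_mem _ 32) (pow_mem hy 2))))
      (mul_mem (ofNat_mem _ 13) hdm)) (mul_mem (ofNat_mem _ 32) (pow_mem ham 3)))
      (mul_mem (ofNat_mem _ 8) (pow_mem hbm 2))) (mul_mem (ofNat_mem _ 12) (mul_mem (mul_mem hXm ham) hbm))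
  · rw [map_ofNat]
    have hX2 : X ^ 2 = 1 + 16 * y + 64 * y ^ 2 := by rw [hX]; ring
    linear_combination (-1 : PowerSeries ℂ) * h27 + (b * X - 3 * a ^ 2) * hX2

lemma IsPair.cast {p : ℕ} {k l : ℤ} {F : ℍ → ℂ} {A B : PowerSeries ℂ} (h : k = l)
    (hF : IsPair p k F A B) : IsPair p l F A B := h ▸ hF

lemma ofNat_mul_C_inv (n : ℕ) [n.AtLeastTwo] (s : PowerSeries ℂ) :
    (OfNat.ofNat n : PowerSeries ℂ) * (PowerSeries.C (1 / (OfNat.ofNat n : ℂ)) * s) = s := by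
  rw [← map_ofNat (PowerSeries.C (R := ℂ)) n, ← mul_assoc, ← map_mul,
    mul_one_div_cancel (OfNat.ofNat_ne_zero n), map_one, one_mul]

lemma Vp_ofNat_mul {p : ℕ} (hp : p ≠ 0) (n : ℕ) [n.AtLeastTwo] (s : PowerSeries ℂ) :
    Vp p ((OfNat.ofNat n : PowerSeries ℂ) * s) = (OfNat.ofNat n : PowerSeries ℂ) * Vp p s := by
  rw [← map_ofNat (PowerSeries.C (R := ℂ)) n, Vp_mul hp, Vp_C hp]

lemma Up_ofNat_mul (p : ℕ) (n : ℕ) [n.AtLeastTwo] (s : PowerSeries ℂ) :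
    Up p ((OfNat.ofNat n : PowerSeries ℂ) * s) = (OfNat.ofNat n : PowerSeries ℂ) * Up p s := by
  rw [← map_ofNat (PowerSeries.C (R := ℂ)) n, Up_C_mul]

end Case2

open Case2 in
theorem case2 (p : ℕ) [Fact p.Prime] {H : ℍ → ℂ} {A B : PowerSeries ℂ}
    (hp : p % 8 = 7) (hH : IsPair p 2 H A B) (hA : Cong (Zloc 2) 8 A 1) : False := by
  have hp0 : p ≠ 0 := (Fact.out : p.Prime).ne_zero
  have hpC : (p : ℂ) ≠ 0 := Nat.cast_ne_zero.mpr hp0
  obtain ⟨y, hy, hAy⟩ := hA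
  have hX : A = 1 + 8 * y := by
    rw [map_ofNat] at hAy
    linear_combination hAy
  obtain ⟨j, hj⟩ : ∃ j, p + 1 = 8 * j := ⟨(p + 1) / 8, by omega⟩
  have hjC : (p : ℂ) + 1 = 8 * j := by exact_mod_cast hj
  -- the other cusp
  set c : ℂ := -(j : ℂ) * (p : ℂ)⁻¹ with hcdef
  have hc : c ∈ Zloc 2 :=
    mul_mem (neg_mem (natCast_mem _ j)) (inv_natCast_mem_Zloc 2 (by omega))
  have hpc : -(p : ℂ)⁻¹ = 1 + 8 * c := by
    rw [hcdef]
    field_simp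
    linear_combination (-1 : ℂ) * hjC
  set y' : PowerSeries ℂ := PowerSeries.C c + (1 + 8 * PowerSeries.C c) * Up p y with hy'def
  have hy' : y' ∈ coeffRing (Zloc 2) :=
    add_mem (C_mem_coeffRing hc) (mul_mem (add_mem (one_mem _)
      (mul_mem (ofNat_mem _ 8) (C_mem_coeffRing hc))) (Up_mem_coeffRing p hy))
  have hX' : B = 1 + 8 * y' := by
    rw [hH.wt_two, hX, Up_add, Up_one hp0, Up_ofNat_mul, ← map_neg, hpc, map_add, map_one, map_mul,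
      map_ofNat, hy'def]
    ring
  -- the forms
  have hE4 : IsPair p 4 E₄ e4 (Vp p e4) := isL1_E4.isPair
  have hE6 : IsPair p 6 E₆ e6 (Vp p e6) := isL1_E6.isPair
  have hH2 : IsPair p 4 (H ^ 2) (A ^ 2) (B ^ 2) := IsPair.cast (by norm_num) (hH.pow 2)
  have hH3 : IsPair p 6 (H ^ 3) (A ^ 3) (B ^ 3) := IsPair.cast (by norm_num) (hH.pow 3)
  have hHE : IsPair p 6 (H * E₄) (A * e4) (B * Vp p e4) := IsPair.cast (by norm_num) (hH.mul hE4)
  have ha := (hH2.sub hE4).smul (1 / 16)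
  have hb := ((hH3.sub (hHE.smul 3)).add (hE6.smul 2)).smul (1 / 64)
  have hF := (IsPair.cast (l := 8) (by norm_num) (hb.mul hH)).sub
    ((IsPair.cast (l := 8) (by norm_num) (ha.pow 2)).smul 3)
  simp only [map_ofNat] at hF
  -- congruences
  have e4' : e4 = 1 + 240 * sigmaS ℂ 3 := by rw [e4_eq, map_ofNat]
  have e6' : e6 = 1 - 504 * sigmaS ℂ 5 := by rw [e6_eq, map_ofNat]
  have dl' : 1728 * dl = e4 ^ 3 - e6 ^ 2 := by rw [← dl_eq, map_ofNat]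
  have hC := core (Zloc 2) hX e4' e6' dl' tS_eq hy (sigmaS_mem_coeffRing 3) (tS_mem _) (dl_mem _)
    (ofNat_mul_C_inv 16 _) (ofNat_mul_C_inv 64 _)
  have hD := core (Zloc 2) (x3 := Vp p (sigmaS ℂ 3)) (x5 := Vp p (sigmaS ℂ 5)) (x4 := Vp p e4)
    (x6 := Vp p e6) (dd := Vp p dl) (t := Vp p tS) hX'
    (by rw [e4', Vp_add, Vp_one hp0, Vp_ofNat_mul hp0])
    (by rw [e6', Vp_sub, Vp_one hp0, Vp_ofNat_mul hp0])
    (by rw [← Vp_ofNat_mul hp0, dl', Vp_sub, Vp_pow hp0, Vp_pow hp0])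
    (by rw [← Vp_ofNat_mul hp0, tS_eq, Vp_add, Vp_ofNat_mul hp0, Vp_ofNat_mul hp0])
    hy' (Vp_mem_coeffRing p (sigmaS_mem_coeffRing 3)) (Vp_mem_coeffRing p (tS_mem _))
    (Vp_mem_coeffRing p (dl_mem _))
    (ofNat_mul_C_inv 16 _) (ofNat_mul_C_inv 64 _)
  obtain ⟨a, m, h1, h2⟩ : ∃ a m : ℕ, 64 * j + 4 * a = 12 * m ∧ m ≤ p :=
    ⟨(3 - j % 3) % 3, (16 * j + (3 - j % 3) % 3) / 3, by omega, by omega⟩
  obtain ⟨x, hx, hx'⟩ := norm_order p (Oloc 2) (zetaP_mem_Oloc 2 p hp0) (ℓ := 2)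
    (ofNat_mem _ 2) (k := 8) a 0 m
    (by
      have : ((p : ℤ) + 1) = 8 * j := by exact_mod_cast hj
      rw [this]
      have h1' : (64 : ℤ) * j + 4 * a = 12 * m := by exact_mod_cast h1
      push_cast
      linarith) h2 hF (dl_mem _) coeff_dl_zero (u := 1) (one_mem _)
    (hC.mono (Zloc_le_Oloc 2))
    (by rw [map_one, one_mul]; exact hD.mono (Zloc_le_Oloc 2))
  rw [coeff_dl_one, one_pow, one_pow, one_mul] at hx'
  apply inv_not_mem_Oloc 2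
  have : ((2 : ℕ) : ℂ)⁻¹ = x := by
    push_cast
    rw [inv_eq_one_div, hx']
    field_simp
  rwa [this]

end Fermat.Agent.S16
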