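import Fermat.Agent.S16.Formal
import Fermat.Agent.S16.L1Base
import Fermat.Agent.S16.Pair
import Fermat.Agent.S16.NormOrder

/-!
# S16, CASE3: `ℓ = 3`, `p ≡ 2 mod 3`, `H ≡ 1 mod 9` is impossible
-/

set_option autoImplicit false

noncomputable section

namespace Fermat.Agent.S16

open UpperHalfPlane ModularForm CongruenceSubgroup
open scoped MatrixGroups ArithmeticFunction.sigma

namespace Case3

lemma IsPair.cast {p : ℕ} {k l : ℤ} {F : ℍ → ℂ} {A B : PowerSeries ℂ} (h : k = l)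
    (hF : IsPair p k F A B) : IsPair p l F A B := h ▸ hF

lemma ofNat_ne_zero' (n : ℕ) [n.AtLeastTwo] : (OfNat.ofNat n : PowerSeries ℂ) ≠ 0 := by
  rw [← map_ofNat (PowerSeries.C (R := ℂ)) n]
  exact (map_ne_zero_iff _ PowerSeries.C_injective).mpr (OfNat.ofNat_ne_zero n)

lemma ofNat_mul_C_inv (n : ℕ) [n.AtLeastTwo] (s : PowerSeries ℂ) :
    (OfNat.ofNat n : PowerSeries ℂ) * (PowerSeries.C (1 / (OfNat.ofNat n : ℂ)) * s) = s := by
  rw [← map_ofNat (PowerSeries.C (R := ℂ)) n, ← mul_assoc, ← map_mul,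
    mul_one_div_cancel (OfNat.ofNat_ne_zero n), map_one, one_mul]

lemma Vp_ofNat_mul {p : ℕ} (hp : p ≠ 0) (n : ℕ) [n.AtLeastTwo] (s : PowerSeries ℂ) :
    Vp p ((OfNat.ofNat n : PowerSeries ℂ) * s) = (OfNat.ofNat n : PowerSeries ℂ) * Vp p s := by
  rw [← map_ofNat (PowerSeries.C (R := ℂ)) n, Vp_mul hp, Vp_C hp]

lemma Up_ofNat_mul (p : ℕ) (n : ℕ) [n.AtLeastTwo] (s : PowerSeries ℂ) :
    Up p ((OfNat.ofNat n : PowerSeries ℂ) * s) = (OfNat.ofNat n : PowerSeries ℂ) * Up p s := by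
  rw [← map_ofNat (PowerSeries.C (R := ℂ)) n, Up_C_mul]

lemma coeff_ofNat_mul (n : ℕ) [n.AtLeastTwo] (i : ℕ) (s : PowerSeries ℂ) :
    PowerSeries.coeff i ((OfNat.ofNat n : PowerSeries ℂ) * s)
      = (OfNat.ofNat n : ℂ) * PowerSeries.coeff i s := by
  rw [← map_ofNat (PowerSeries.C (R := ℂ)) n, PowerSeries.coeff_C_mul]

lemma coeff_sigmaS_zero (k : ℕ) : PowerSeries.coeff 0 (sigmaS ℂ k) = 0 := by
  simp [sigmaS]

lemma coeff_sigmaS_one (k : ℕ) : PowerSeries.coeff 1 (sigmaS ℂ k) = 1 := by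
  simp [sigmaS]

lemma e4' : e4 = 1 + 240 * sigmaS ℂ 3 := by rw [e4_eq, map_ofNat]
lemma e6' : e6 = 1 - 504 * sigmaS ℂ 5 := by rw [e6_eq, map_ofNat]

lemma e4_mem (A : Subring ℂ) : e4 ∈ coeffRing A := by
  rw [e4']
  exact add_mem (one_mem _) (mul_mem (ofNat_mem _ 240) (sigmaS_mem_coeffRing 3))

/-- `U_p U_p A = A` in weight 2. -/
lemma Up_Up {p : ℕ} [Fact p.Prime] {H : ℍ → ℂ} {A B : PowerSeries ℂ} (hH : IsPair p 2 H A B) :
    Up p (Up p A) = A := by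
  have hpC : (p : ℂ) ≠ 0 := Nat.cast_ne_zero.mpr (Fact.out : p.Prime).ne_zero
  have h1 := (hH.swap even_two).wt_two
  rw [hH.wt_two, ← map_neg, Up_C_mul, ← mul_assoc, ← map_mul] at h1
  have h2 : (p : ℂ) ^ (-2 : ℤ) = -(p : ℂ)⁻¹ * -(p : ℂ)⁻¹ := by
    rw [zpow_neg, zpow_ofNat]; field_simp
  rw [h2] at h1
  have h3 : PowerSeries.C (-(p : ℂ)⁻¹ * -(p : ℂ)⁻¹) ≠ 0 :=
    (map_ne_zero_iff _ PowerSeries.C_injective).mpr (by simp [hpC])
  exact (mul_left_cancel₀ h3 h1).symm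

/-- first half: `9 ∣ p + 1`. -/
lemma nine_dvd {p : ℕ} [Fact p.Prime] {H : ℍ → ℂ} {A B : PowerSeries ℂ}
    (hp : p % 3 = 2) (hH : IsPair p 2 H A B) (hA : Cong (Zloc 3) 9 A 1) : 9 ∣ p + 1 := by
  have hp0 : p ≠ 0 := (Fact.out : p.Prime).ne_zero
  have hpC : (p : ℂ) ≠ 0 := Nat.cast_ne_zero.mpr hp0
  obtain ⟨h, hh, hAh⟩ := hA
  have hX : A = 1 + 9 * h := by
    rw [map_ofNat] at hAh
    linear_combination hAh
  obtain ⟨j, hj⟩ : ∃ j, p + 1 = 3 * j := ⟨(p + 1) / 3, by omega⟩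
  set h' := Up p h with hh'def
  have hh' : h' ∈ coeffRing (Zloc 3) := Up_mem_coeffRing p hh
  have hUA : Up p A = 1 + 9 * h' := by rw [hX, Up_add, Up_one hp0, Up_ofNat_mul]
  have hUh' : Up p h' = h := by
    have := Up_Up hH
    rw [hUA, Up_add, Up_one hp0, Up_ofNat_mul, hX] at this
    exact mul_left_cancel₀ (ofNat_ne_zero' 9) (add_left_cancel this)
  set w := Up p (h' ^ 2) with hwdef
  have hw : w ∈ coeffRing (Zloc 3) := Up_mem_coeffRing p (pow_mem hh' 2)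
  have hT := (IsPair.cast (l := 4) (by norm_num) (hH.pow 2)).trace
  have hs := hT.wt_four
  set s := A ^ 2 + PowerSeries.C (p : ℂ) * Up p (B ^ 2) with hsdef
  set P : PowerSeries ℂ := PowerSeries.C (p : ℂ) with hPdef
  have hB2 : P * P * B ^ 2 = (1 + 9 * h') ^ 2 := by
    rw [hH.wt_two, hUA, hPdef]
    have : PowerSeries.C (p : ℂ) * PowerSeries.C ((p : ℂ)⁻¹) = 1 := by
      rw [← map_mul, mul_inv_cancel₀ hpC, map_one]
    linear_combination ((1 + 9 * h') ^ 2 * (PowerSeries.C (p : ℂ) * PowerSeries.C ((p : ℂ)⁻¹) + 1)) * this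
  have hUB : P * P * Up p (B ^ 2) = 1 + 18 * h + 81 * w := by
    have h1 : P * P * Up p (B ^ 2) = Up p (P * P * B ^ 2) := by
      rw [hPdef, ← map_mul, Up_C_mul]
    rw [h1, hB2]
    have h2 : (1 + 9 * h') ^ 2 = 1 + 18 * h' + 81 * h' ^ 2 := by ring
    rw [h2, Up_add, Up_add, Up_one hp0, Up_ofNat_mul, Up_ofNat_mul, hUh']
  have hP1 : P + 1 = 3 * PowerSeries.C (j : ℂ) := by
    rw [hPdef, ← map_one (PowerSeries.C (R := ℂ)), ← map_add, ← map_ofNat (PowerSeries.C (R := ℂ)) 3,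
      ← map_mul]
    congr 1
    have : ((p + 1 : ℕ) : ℂ) = ((3 * j : ℕ) : ℂ) := by rw [hj]
    push_cast at this
    exact this
  set G : PowerSeries ℂ := 2 * (PowerSeries.C (j : ℂ) * h) + 3 * (P * h ^ 2 + w) with hGdef
  have hG : G ∈ coeffRing (Zloc 3) :=
    add_mem (mul_mem (ofNat_mem _ 2) (mul_mem (C_mem_coeffRing (natCast_mem _ j)) hh))
      (mul_mem (ofNat_mem _ 3) (add_mem (mul_mem (C_mem_coeffRing (natCast_mem _ p)) (pow_mem hh 2)) hw))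
  have hPs : P * s = (P + 1) + 27 * G := by
    rw [hsdef, mul_add, ← mul_assoc, hUB, hX, hGdef]
    linear_combination (18 * h) * hP1
  rw [hs] at hPs
  set s0 := PowerSeries.coeff 0 s with hs0
  have c0 := congrArg (PowerSeries.coeff 0) hPs
  have c1 := congrArg (PowerSeries.coeff 1) hPs
  rw [hPdef, PowerSeries.coeff_C_mul, PowerSeries.coeff_C_mul, map_add, map_add,
    coeff_ofNat_mul] at c0 c1
  rw [e4', map_add, coeff_ofNat_mul] at c0 c1
  rw [coeff_sigmaS_zero] at c0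
  rw [coeff_sigmaS_one] at c1
  simp only [PowerSeries.coeff_one, PowerSeries.coeff_C, one_ne_zero, if_false, if_true] at c0 c1
  have key : ((240 * ((p : ℤ) + 1) : ℤ) : ℂ)
      = ((3 : ℕ) : ℂ) ^ 3 * (PowerSeries.coeff 1 G - 240 * PowerSeries.coeff 0 G) := by
    push_cast
    linear_combination (-240 : ℂ) * c0 + c1
  have hdvd := dvd_of_mem_Zloc 3 3 _ _ (sub_mem (hG 1) (mul_mem (ofNat_mem _ 240) (hG 0))) key
  have : (9 : ℤ) ∣ (p : ℤ) + 1 := by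
    norm_num at hdvd
    omega
  exact_mod_cast this

/-- `φ = (E₄ - E₆)/3 = 80 σ₃ + 168 σ₅`. -/
def phi : PowerSeries ℂ := 80 * sigmaS ℂ 3 + 168 * sigmaS ℂ 5

lemma phi_mem (A : Subring ℂ) : phi ∈ coeffRing A :=
  add_mem (mul_mem (ofNat_mem _ 80) (sigmaS_mem_coeffRing 3))
    (mul_mem (ofNat_mem _ 168) (sigmaS_mem_coeffRing 5))

lemma three_phi : 3 * phi = e4 - e6 := by
  rw [phi, e4', e6']; ring

lemma coeff_zero_phi : PowerSeries.coeff 0 phi = 0 := by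
  rw [phi, map_add, coeff_ofNat_mul, coeff_ofNat_mul, coeff_sigmaS_zero, coeff_sigmaS_zero]
  ring

lemma coeff_one_phi : PowerSeries.coeff 1 phi = 248 := by
  rw [phi, map_add, coeff_ofNat_mul, coeff_ofNat_mul, coeff_sigmaS_one, coeff_sigmaS_one]
  norm_num

/-- formal core: `(X x4 - x6)/3 ≡ (x4 - x6)/3 mod 3` if `X ≡ 1 mod 9`. -/
lemma core (Z : Subring ℂ) {X y x4 x6 f : PowerSeries ℂ} (hX : X = 1 + 9 * y)
    (hy : y ∈ coeffRing Z) (h4 : x4 ∈ coeffRing Z) (hf : 3 * f = x4 - x6) :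
    Cong Z 3 (PowerSeries.C (1 / 3) * (X * x4 - x6)) f := by
  refine ⟨y * x4, mul_mem hy h4, ?_⟩
  apply mul_left_cancel₀ (ofNat_ne_zero' 3)
  rw [mul_sub, ofNat_mul_C_inv 3, hf, hX, map_ofNat]
  ring

end Case3

open Case3 in
theorem case3 (p : ℕ) [Fact p.Prime] {H : ℍ → ℂ} {A B : PowerSeries ℂ}
    (hp : p % 3 = 2) (hH : IsPair p 2 H A B) (hA : Cong (Zloc 3) 9 A 1) : False := by
  have hpp : p.Prime := Fact.out
  have hp0 : p ≠ 0 := hpp.ne_zero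
  have hpC : (p : ℂ) ≠ 0 := Nat.cast_ne_zero.mpr hp0
  obtain ⟨j, hj⟩ := nine_dvd hp hH hA
  have hjC : (p : ℂ) + 1 = 9 * j := by exact_mod_cast hj
  obtain ⟨y, hy, hAy⟩ := hA
  have hX : A = 1 + 9 * y := by
    rw [map_ofNat] at hAy
    linear_combination hAy
  set c : ℂ := -(j : ℂ) * (p : ℂ)⁻¹ with hcdef
  have hc : c ∈ Zloc 3 :=
    mul_mem (neg_mem (natCast_mem _ j)) (inv_natCast_mem_Zloc 3 (by omega))
  have hpc : -(p : ℂ)⁻¹ = 1 + 9 * c := by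
    rw [hcdef]
    field_simp
    linear_combination (-1 : ℂ) * hjC
  set y' : PowerSeries ℂ := PowerSeries.C c + (1 + 9 * PowerSeries.C c) * Up p y with hy'def
  have hy' : y' ∈ coeffRing (Zloc 3) :=
    add_mem (C_mem_coeffRing hc) (mul_mem (add_mem (one_mem _)
      (mul_mem (ofNat_mem _ 9) (C_mem_coeffRing hc))) (Up_mem_coeffRing p hy))
  have hX' : B = 1 + 9 * y' := by
    rw [hH.wt_two, hX, Up_add, Up_one hp0, Up_ofNat_mul, ← map_neg, hpc, map_add, map_one, map_mul,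
      map_ofNat, hy'def]
    ring
  have hE4 : IsPair p 4 E₄ e4 (Vp p e4) := isL1_E4.isPair
  have hE6 : IsPair p 6 E₆ e6 (Vp p e6) := isL1_E6.isPair
  have hHE : IsPair p 6 (H * E₄) (A * e4) (B * Vp p e4) := IsPair.cast (by norm_num) (hH.mul hE4)
  have hF := (hHE.sub hE6).smul (1 / 3)
  have hC := core (Zloc 3) hX hy (e4_mem _) three_phi
  have hD := core (Zloc 3) (x4 := Vp p e4) (x6 := Vp p e6) (f := Vp p phi) hX' hy'
    (Vp_mem_coeffRing p (e4_mem _)) (by rw [← Vp_ofNat_mul hp0, three_phi, Vp_sub])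
  have hodd : p % 2 = 1 := by
    rcases hpp.eq_two_or_odd with h | h
    · omega
    · exact h
  obtain ⟨x, hx, hx'⟩ := norm_order p (Oloc 3) (zetaP_mem_Oloc 3 p hp0) (ℓ := 3)
    (ofNat_mem _ 3) (k := 6) 0 0 ((p + 1) / 2)
    (by
      have h2 : ((((p + 1) / 2 : ℕ) : ℤ)) * 2 = (p : ℤ) + 1 := by
        have : (p + 1) / 2 * 2 = p + 1 := by omega
        exact_mod_cast this
      push_cast at h2 ⊢
      linarith) (by omega) hF (phi_mem _) coeff_zero_phi (u := 1) (one_mem _)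
    (hC.mono (Zloc_le_Oloc 3))
    (by rw [map_one, one_mul]; exact hD.mono (Zloc_le_Oloc 3))
  rw [coeff_one_phi, one_pow, one_mul] at hx'
  have hcop : IsCoprime (((248 ^ (p + 1) : ℕ) : ℤ)) ((3 : ℕ) : ℤ) :=
    Nat.isCoprime_iff_coprime.mpr (Nat.Coprime.pow_left _ (by norm_num))
  obtain ⟨α, β, hαβ⟩ := hcop
  apply inv_not_mem_Oloc 3
  have hαβ' : (α : ℂ) * 248 ^ (p + 1) + β * 3 = 1 := by exact_mod_cast hαβ
  have : ((3 : ℕ) : ℂ)⁻¹ = α * x + β := by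
    push_cast
    rw [hx'] at hαβ'
    field_simp
    linear_combination (-1 : ℂ) * hαβ'
  rw [this]
  exact add_mem (mul_mem (intCast_mem _ α) hx) (intCast_mem _ β)

end Fermat.Agent.S16
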