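import Fermat.Agent.S16.Formal
import Fermat.Agent.S16.L1Base
import Fermat.Agent.S16.Pair

/-!
# S16, package CASEA: the primes `ℓ ≥ 5`

If `H ∈ M_2(Γ₀(p))` has `q`-expansion `≡ 1 mod ℓ`, `ℓ ≥ 5`, then the trace of `H ^ (ℓ ^ a)` to level
one, suitably rescaled, is a level one form of weight `2 ℓ ^ a` which is `≡ 1 mod ℓ`: this
contradicts `lemmaA`.
-/

set_option autoImplicit false

noncomputable section

namespace Fermat.Agent.S16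

open UpperHalfPlane ModularForm CongruenceSubgroup
open scoped MatrixGroups

namespace CaseA

/-- `p` is not a Teichmüller representative. -/
theorem exists_exp {p ℓ : ℕ} (hp : p.Prime) (hℓ : ℓ.Prime) (hne : ℓ ≠ p) :
    ∃ a : ℕ, ¬ ℓ ^ (a + 1) ∣ p ^ (ℓ ^ a - 1) - 1 := by
  by_contra hcon
  push Not at hcon
  set a := p ^ (ℓ - 1) with ha
  have hcop : Nat.Coprime p (ℓ ^ (a + 1)) :=
    Nat.Coprime.pow_right _ ((Nat.coprime_primes hp hℓ).mpr hne.symm)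
  set u := ZMod.unitOfCoprime p hcop with hu
  have hone : ∀ k : ℕ, ℓ ^ (a + 1) ∣ p ^ k - 1 ↔ u ^ k = 1 := by
    intro k
    have h1 : 1 ≤ p ^ k := Nat.one_le_pow _ _ hp.pos
    rw [← ZMod.natCast_eq_zero_iff, Nat.cast_sub h1, sub_eq_zero, Units.ext_iff]
    simp [hu]
  have h1 : u ^ (ℓ ^ a - 1) = 1 := (hone _).mp (hcon a)
  have h2 : u ^ (ℓ ^ a * (ℓ - 1)) = 1 := by
    rw [← Nat.totient_prime_pow_succ hℓ a]
    exact ZMod.pow_totient u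
  have h3 := pow_gcd_eq_one.mpr ⟨h1, h2⟩
  have hc : Nat.Coprime (ℓ ^ a - 1) (ℓ ^ a) := by
    have h : ℓ ^ a = (ℓ ^ a - 1) + 1 := (Nat.sub_add_cancel (Nat.one_le_pow _ _ hℓ.pos)).symm
    rw [h]
    simp
  have hg : Nat.gcd (ℓ ^ a - 1) (ℓ ^ a * (ℓ - 1)) ∣ ℓ - 1 := by
    refine Nat.Coprime.dvd_of_dvd_mul_left ?_ (Nat.gcd_dvd_right _ _)
    exact Nat.Coprime.coprime_dvd_left (Nat.gcd_dvd_left _ _) hc
  have h4 : u ^ (ℓ - 1) = 1 := by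
    obtain ⟨c, hc⟩ := hg
    rw [hc, pow_mul, h3, one_pow]
  have h5 := (hone _).mpr h4
  have h6 : 0 < p ^ (ℓ - 1) - 1 := by
    have : 1 < p ^ (ℓ - 1) := Nat.one_lt_pow (by have := hℓ.two_le; omega) hp.one_lt
    omega
  have h7 := Nat.le_of_dvd h6 h5
  have h8 : a + 1 < ℓ ^ (a + 1) := Nat.lt_pow_self hℓ.one_lt
  omega

variable {p : ℕ} [Fact p.Prime] {H : ℍ → ℂ} {A B : PowerSeries ℂ}

/-- the trace of `H ^ m`, `m` odd. -/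
theorem isL1_trace (hH : IsPair p 2 H A B) {m : ℕ} (hm : Odd m) :
    IsL1 ((m : ℤ) * 2) (traceF p ((m : ℤ) * 2) (H ^ m))
      (A ^ m - PowerSeries.C ((p : ℂ) * ((p : ℂ)⁻¹) ^ m) * Up p (Up p A ^ m)) := by
  have h := (hH.pow m).trace
  have hB : B ^ m = -(PowerSeries.C (((p : ℂ)⁻¹) ^ m) * Up p A ^ m) := by
    rw [hH.wt_two, mul_pow, hm.neg_pow, map_pow, neg_mul]
  rw [hB, Up_neg, Up_C_mul, mul_neg, ← sub_eq_add_neg, ← mul_assoc, ← map_mul] at h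
  exact h

end CaseA

open CaseA in
/-- CASEA: `ℓ ≥ 5` (both `ℓ ≠ p` and `ℓ = p`): traces of `H^(ℓ^t)` + `lemmaA`. -/
theorem caseA (p : ℕ) [Fact p.Prime] {H : ℍ → ℂ} {A B : PowerSeries ℂ}
    (ℓ : ℕ) [Fact ℓ.Prime] (hℓ : 5 ≤ ℓ) (hH : IsPair p 2 H A B)
    (hA : Cong (Zloc ℓ) ℓ A 1) : False := by
  have hℓp : ℓ.Prime := Fact.out
  have hpp : p.Prime := Fact.out
  have hodd : Odd ℓ := hℓp.odd_of_ne_two (by omega)
  have hp0 : (p : ℂ) ≠ 0 := Nat.cast_ne_zero.mpr hpp.ne_zero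
  have hℓ0 : (ℓ : ℂ) ≠ 0 := Nat.cast_ne_zero.mpr hℓp.ne_zero
  have hℓZ : (ℓ : ℂ) ∈ Zloc ℓ := natCast_mem _ _
  have hU : Cong (Zloc ℓ) ℓ (Up p A) 1 := by
    have := hA.Up p
    rwa [Up_one hpp.ne_zero] at this
  by_cases hne : ℓ = p
  · -- `ℓ = p`
    subst hne
    have h1 := (isL1_trace hH hodd).smul (-(ℓ : ℂ) ^ (ℓ - 1))
    have hk : (ℓ : ℤ) * 2 = 2 * (ℓ : ℤ) ^ 1 := by ring
    rw [hk] at h1
    refine lemmaA ℓ hℓ 1 h1 ?_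
    have hAm : A ∈ coeffRing (Zloc ℓ) := hA.mem hℓZ (one_mem _)
    have h2 : Cong (Zloc ℓ) ℓ (Up ℓ (Up ℓ A ^ ℓ)) 1 := by
      have := (hU.pow hℓZ (one_mem _) ℓ).Up ℓ
      rwa [one_pow, Up_one hℓp.ne_zero] at this
    have h3 : PowerSeries.C (-(ℓ : ℂ) ^ (ℓ - 1)) *
        (A ^ ℓ - PowerSeries.C ((ℓ : ℂ) * ((ℓ : ℂ)⁻¹) ^ ℓ) * Up ℓ (Up ℓ A ^ ℓ)) =
        Up ℓ (Up ℓ A ^ ℓ) + PowerSeries.C (ℓ : ℂ) * (-(PowerSeries.C ((ℓ : ℂ) ^ (ℓ - 2)) * A ^ ℓ)) := by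
      have e1 : (ℓ : ℂ) ^ (ℓ - 1) * ((ℓ : ℂ) * ((ℓ : ℂ)⁻¹) ^ ℓ) = 1 := by
        rw [← mul_assoc, ← pow_succ, Nat.sub_add_cancel (by omega), ← mul_pow,
          mul_inv_cancel₀ hℓ0, one_pow]
      have e2 : (ℓ : ℂ) ^ (ℓ - 1) = (ℓ : ℂ) * (ℓ : ℂ) ^ (ℓ - 2) := by
        rw [← pow_succ', show ℓ - 2 + 1 = ℓ - 1 by omega]
      rw [mul_sub, ← mul_assoc, ← map_mul, neg_mul, e1, map_neg, map_neg, map_one, e2, map_mul]
      ring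
    rw [h3]
    obtain ⟨v, hv, hv'⟩ := h2
    refine ⟨v + -(PowerSeries.C ((ℓ : ℂ) ^ (ℓ - 2)) * A ^ ℓ), ?_, ?_⟩
    · refine add_mem hv (neg_mem (mul_mem (C_mem_coeffRing (pow_mem hℓZ _)) (pow_mem hAm _)))
    · rw [mul_add, ← hv']
      ring
  · -- `ℓ ≠ p`
    obtain ⟨a, ha⟩ := exists_exp hpp hℓp hne
    set m := ℓ ^ a with hm
    have hD0 : p ^ (m - 1) - 1 ≠ 0 := by
      intro h0
      rw [h0] at ha
      exact ha (dvd_zero _)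
    obtain ⟨t, u', hu', hD⟩ := Nat.exists_eq_pow_mul_and_not_dvd hD0 ℓ hℓp.ne_one
    have hta : t ≤ a := by
      by_contra hlt
      push Not at hlt
      apply ha
      rw [hD]
      exact Dvd.dvd.mul_right (pow_dvd_pow _ hlt) _
    have hm1 : 1 ≤ m := Nat.one_le_pow _ _ hℓp.pos
    have hu0 : (u' : ℂ) ≠ 0 := by
      rw [Nat.cast_ne_zero]
      rintro rfl
      exact hu' (dvd_zero _)
    have hDC : (p : ℂ) ^ (m - 1) - 1 = (ℓ : ℂ) ^ t * u' := by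
      have h1 : 1 ≤ p ^ (m - 1) := Nat.one_le_pow _ _ hpp.pos
      have := congrArg (Nat.cast : ℕ → ℂ) hD
      rw [Nat.cast_sub h1] at this
      push_cast at this
      exact this
    have hpinv : ((p : ℂ))⁻¹ ∈ Zloc ℓ :=
      inv_natCast_mem_Zloc ℓ (fun h => hne ((Nat.prime_dvd_prime_iff_eq hℓp hpp).mp h))
    have huinv : ((u' : ℂ))⁻¹ ∈ Zloc ℓ := inv_natCast_mem_Zloc ℓ hu'
    have hpZ : (p : ℂ) ∈ Zloc ℓ := natCast_mem _ _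
    set c₁ : ℂ := (p : ℂ) * ((p : ℂ)⁻¹) ^ m with hc₁
    set c : ℂ := (p : ℂ) ^ (m - 1) * ((u' : ℂ))⁻¹ * ((ℓ : ℂ) ^ t)⁻¹ with hc
    have hc₁Z : c₁ ∈ Zloc ℓ := mul_mem hpZ (pow_mem hpinv _)
    have hcc : c * (1 - c₁) = 1 := by
      have e1 : (p : ℂ) ^ (m - 1) * c₁ = 1 := by
        rw [hc₁, ← mul_assoc, ← pow_succ, Nat.sub_add_cancel hm1, ← mul_pow,
          mul_inv_cancel₀ hp0, one_pow]
      have e2 : c * (1 - c₁) =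
          ((p : ℂ) ^ (m - 1) - (p : ℂ) ^ (m - 1) * c₁) * ((u' : ℂ))⁻¹ * ((ℓ : ℂ) ^ t)⁻¹ := by
        rw [hc]; ring
      rw [e2, e1, hDC]
      field_simp
    have h1 := (isL1_trace hH (hodd.pow (n := a))).smul c
    have hk : ((ℓ ^ a : ℕ) : ℤ) * 2 = 2 * (ℓ : ℤ) ^ a := by push_cast; ring
    rw [hk] at h1
    refine lemmaA ℓ hℓ a h1 ?_
    have g1 : Cong (Zloc ℓ) ((ℓ : ℂ) ^ (a + 1)) (A ^ m) 1 := by
      have := Cong.pow_nat_pow ℓ a hA (one_mem _)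
      rwa [one_pow] at this
    have g2 : Cong (Zloc ℓ) ((ℓ : ℂ) ^ (a + 1)) (Up p (Up p A ^ m)) 1 := by
      have := (Cong.pow_nat_pow ℓ a hU (one_mem _)).Up p
      rwa [one_pow, Up_one hpp.ne_zero] at this
    have g3 := g1.sub (g2.mul_left (C_mem_coeffRing hc₁Z))
    have g4 := g3.C_mul c
    have e3 : PowerSeries.C c * (1 - PowerSeries.C c₁ * 1) = 1 := by
      rw [mul_one, ← map_one (PowerSeries.C (R := ℂ)), ← map_sub, ← map_mul, hcc]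
    have e4 : c * (ℓ : ℂ) ^ (a + 1) =
        (ℓ : ℂ) * ((ℓ : ℂ) ^ (a - t) * (p : ℂ) ^ (m - 1) * ((u' : ℂ))⁻¹) := by
      have : (ℓ : ℂ) ^ (a + 1) = (ℓ : ℂ) ^ t * (ℓ : ℂ) ^ (a - t) * ℓ := by
        rw [← pow_add, Nat.add_sub_cancel' hta, pow_succ]
      rw [hc, this]
      field_simp
    rw [e3, e4] at g4
    exact g4.of_mul (mul_mem (mul_mem (pow_mem hℓZ _) (pow_mem hpZ _)) huinv)

end Fermat.Agent.S16
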