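import Fermat.Agent.S16.Formal
import Fermat.Agent.S16.L1Base
import Fermat.Agent.S16.Pair

/-!
# S16, package SIGN: `H ≡ 1 mod ℓ^s`, `ℓ^s ∣ 504`  ⟹  `ℓ^s ∣ p^3 + 1`
-/

set_option autoImplicit false

noncomputable section

namespace Fermat.Agent.S16

open UpperHalfPlane ModularForm CongruenceSubgroup
open scoped MatrixGroups

namespace Sign

variable {R : Subring ℂ} {M : ℂ}

theorem cong_zero_mul {s t : PowerSeries ℂ} (h : Cong R M s 0) (ht : t ∈ coeffRing R) :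
    Cong R M (s * t) 0 := by
  have := Cong.mul_left ht h
  rwa [mul_zero, mul_comm] at this

theorem e6_cong {ℓ s : ℕ} (hs : ℓ ^ s ∣ 504) (R : Subring ℂ) :
    Cong R ((ℓ : ℂ) ^ s) e6 1 := by
  obtain ⟨c, hc⟩ := hs
  refine ⟨PowerSeries.C (-(c : ℂ)) * sigmaS ℂ 5, ?_, ?_⟩
  · exact (coeffRing R).mul_mem (C_mem_coeffRing (R.neg_mem (natCast_mem R c)))
      (sigmaS_mem_coeffRing 5)
  · rw [e6_eq, ← mul_assoc, ← map_mul]
    have : ((ℓ : ℂ) ^ s * -(c : ℂ)) = -504 := by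
      have := congrArg (Nat.cast : ℕ → ℂ) hc
      push_cast at this
      linear_combination this
    rw [this, map_neg]
    ring

end Sign

variable (p : ℕ) [Fact p.Prime] {H : ℍ → ℂ} {A B : PowerSeries ℂ}

/-- SIGN: `X = H^3 - E6`, trace of the swap of `X Δ E6` (weight 24) + `IsL1.sturm`. -/
theorem sign (hp : 5 ≤ p) (ℓ s : ℕ) [Fact ℓ.Prime] (hℓp : ℓ ≠ p) (hs : ℓ ^ s ∣ 504)
    (hH : IsPair p 2 H A B) (hA : Cong (Zloc ℓ) ((ℓ : ℂ) ^ s) A 1) : ℓ ^ s ∣ p ^ 3 + 1 := by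
  have hpp : p.Prime := Fact.out
  have hℓ : ℓ.Prime := Fact.out
  have hp0 : p ≠ 0 := hpp.ne_zero
  have hpC : (p : ℂ) ≠ 0 := by exact_mod_cast hp0
  set R := Zloc ℓ with hR
  set M : ℂ := (ℓ : ℂ) ^ s with hM
  have hMR : M ∈ R := R.pow_mem (natCast_mem R ℓ) s
  have hndvd : ¬ ℓ ∣ p := fun h => hℓp ((Nat.prime_dvd_prime_iff_eq hℓ hpp).mp h)
  have hpinv : ((p : ℂ))⁻¹ ∈ R := inv_natCast_mem_Zloc ℓ hndvd
  have hpR : (p : ℂ) ∈ R := natCast_mem R p
  have h1R : (1 : PowerSeries ℂ) ∈ coeffRing R := (coeffRing R).one_mem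
  -- integrality
  have hAR : A ∈ coeffRing R := hA.mem hMR h1R
  have hB : B = -PowerSeries.C ((p : ℂ)⁻¹) * Up p A := hH.wt_two
  have he6 : Cong R M e6 1 := Sign.e6_cong hs R
  have he6R : e6 ∈ coeffRing R := he6.mem hMR h1R
  have hdlR : dl ∈ coeffRing R := dl_mem R
  -- congruence for `B`
  have hcR : -PowerSeries.C ((p : ℂ)⁻¹) ∈ coeffRing R :=
    (coeffRing R).neg_mem (C_mem_coeffRing hpinv)
  have hBc : Cong R M B (-PowerSeries.C ((p : ℂ)⁻¹)) := by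
    have h1 : Cong R M (Up p A) 1 := by
      have := hA.Up p
      rwa [Up_one hp0] at this
    have h2 := Cong.mul_left hcR h1
    rwa [mul_one, ← hB] at h2
  have hB3 : Cong R M (B ^ 3) ((-PowerSeries.C ((p : ℂ)⁻¹)) ^ 3) := hBc.pow hMR hcR 3
  have hA3 : Cong R M (A ^ 3) 1 := by
    have := hA.pow hMR h1R 3
    rwa [one_pow] at this
  -- the forms
  have hX : IsPair p 6 (H ^ 3 - E₆) (A ^ 3 - e6) (B ^ 3 - Vp p e6) := by
    have h1 := hH.pow 3
    have h2 : IsPair p 6 E₆ e6 (Vp p e6) := isL1_E6.isPair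
    have h3 : (((3 : ℕ) : ℤ) * 2) = 6 := by norm_num
    rw [h3] at h1
    exact h1.sub h2
  have hZ : IsPair p 18 (ModularForm.discriminant * E₆) (dl * e6) (Vp p (dl * e6)) := by
    have h1 : IsL1 (12 + 6) (ModularForm.discriminant * E₆) (dl * e6) := isL1_D.mul isL1_E6
    have h3 : ((12 : ℤ) + 6) = 18 := by norm_num
    rw [h3] at h1
    exact h1.isPair
  have hY := hX.mul hZ
  have h24 : ((6 : ℤ) + 18) = 24 := by norm_num
  rw [h24] at hY
  have hYs := hY.swap (by decide)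
  have hQ := hYs.trace
  set Z : PowerSeries ℂ := dl * e6 with hZdef
  have hZR : Z ∈ coeffRing R := (coeffRing R).mul_mem hdlR he6R
  have hVZR : Vp p Z ∈ coeffRing R := Vp_mem_coeffRing p hZR
  set c : ℂ := -(1 + ((p : ℂ)⁻¹) ^ 3) with hc
  set Q : PowerSeries ℂ := (B ^ 3 - Vp p e6) * Vp p Z +
    PowerSeries.C (p : ℂ) * Up p (PowerSeries.C ((p : ℂ) ^ (-(24 : ℤ))) * ((A ^ 3 - e6) * Z)) with hQdef
  -- first term
  have hT1 : Cong R M ((B ^ 3 - Vp p e6) * Vp p Z) (PowerSeries.C c * Vp p Z) := by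
    have h1 : Cong R M (Vp p e6) 1 := by
      have := he6.Vp p
      rwa [Vp_one hp0] at this
    have h2 : Cong R M (B ^ 3 - Vp p e6) ((-PowerSeries.C ((p : ℂ)⁻¹)) ^ 3 - 1) := hB3.sub h1
    have h3 : ((-PowerSeries.C ((p : ℂ)⁻¹)) ^ 3 - 1 : PowerSeries ℂ) = PowerSeries.C c := by
      rw [hc]
      simp only [map_neg, map_add, map_one, map_pow]
      ring
    rw [h3] at h2
    have h4 := Cong.mul_left hVZR h2
    rwa [mul_comm, mul_comm (Vp p Z)] at h4
  -- second term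
  have hT2 : Cong R M
      (PowerSeries.C (p : ℂ) * Up p (PowerSeries.C ((p : ℂ) ^ (-(24 : ℤ))) * ((A ^ 3 - e6) * Z))) 0 := by
    have h1 : Cong R M (A ^ 3 - e6) 0 := by
      have := hA3.sub he6
      rwa [sub_self] at this
    have h2 : Cong R M ((A ^ 3 - e6) * Z) 0 := Sign.cong_zero_mul h1 hZR
    have hpz : (p : ℂ) ^ (-(24 : ℤ)) ∈ R := by
      have : (p : ℂ) ^ (-(24 : ℤ)) = ((p : ℂ)⁻¹) ^ 24 := by
        rw [zpow_neg, inv_pow]
        norm_cast
      rw [this]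
      exact R.pow_mem hpinv 24
    have h3 := Cong.mul_left (C_mem_coeffRing hpz) h2
    rw [mul_zero] at h3
    have h4 := h3.Up p
    have h0 : Up p (0 : PowerSeries ℂ) = 0 := by
      ext n; simp
    rw [h0] at h4
    have h5 := Cong.mul_left (C_mem_coeffRing hpR) h4
    rwa [mul_zero] at h5
  have hQc : Cong R M Q (PowerSeries.C c * Vp p Z) := by
    have := hT1.add hT2
    rwa [add_zero] at this
  have hcR' : c ∈ R := R.neg_mem (R.add_mem R.one_mem (R.pow_mem hpinv 3))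
  have hcZR : PowerSeries.C c * Vp p Z ∈ coeffRing R :=
    (coeffRing R).mul_mem (C_mem_coeffRing hcR') hVZR
  have hQR : Q ∈ coeffRing R := hQc.mem hMR hcZR
  -- low coefficients
  have hZ0 : PowerSeries.coeff 0 Z = 0 := by
    rw [hZdef, PowerSeries.coeff_zero_eq_constantCoeff, map_mul,
      ← PowerSeries.coeff_zero_eq_constantCoeff]
    simp [coeff_dl_zero]
  have hlow : ∀ i ≤ 2, PowerSeries.coeff i (PowerSeries.C c * Vp p Z) = 0 := by
    intro i hi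
    rw [PowerSeries.coeff_C_mul, coeff_Vp]
    split_ifs with hdvd
    · rcases Nat.eq_zero_or_pos i with rfl | hipos
      · simp [hZ0]
      · exact absurd (Nat.le_of_dvd hipos hdvd) (by omega)
    · simp
  have hst : Cong R M Q 0 := by
    refine IsL1.sturm R hMR (k := 24) 0 0 2 (by norm_num) hQ hQR ?_
    intro i hi
    obtain ⟨a, ha, hai⟩ := (cong_iff_coeff.mp hQc) i
    rw [hlow i hi, sub_zero] at hai
    exact ⟨a, ha, hai⟩
  -- coefficient `p`
  have hfin : Cong R M (PowerSeries.C c * Vp p Z) 0 := hQc.symm.trans hst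
  obtain ⟨x, hx, hxp⟩ := (cong_iff_coeff.mp hfin) p
  have hZ1 : PowerSeries.coeff 1 Z = 1 := by
    rw [hZdef, PowerSeries.coeff_mul, Finset.Nat.antidiagonal_succ]
    have he60 : PowerSeries.coeff 0 e6 = 1 := by
      rw [e6_eq]
      simp [sigmaS]
    simp [coeff_dl_zero, coeff_dl_one, he60]
  rw [PowerSeries.coeff_C_mul, coeff_Vp, if_pos (dvd_refl p), Nat.div_self hpp.pos, hZ1, mul_one,
    map_zero, sub_zero] at hxp
  -- conclude
  have hint : (((p ^ 3 + 1 : ℕ) : ℤ) : ℂ) = (ℓ : ℂ) ^ s * (-(p : ℂ) ^ 3 * x) := by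
    have h1 : (p : ℂ) ^ 3 * c = -((p : ℂ) ^ 3 + 1) := by
      rw [hc]
      field_simp
    push_cast
    rw [hxp] at h1
    rw [hM] at h1
    linear_combination h1
  have hdv := dvd_of_mem_Zloc ℓ s ((p ^ 3 + 1 : ℕ) : ℤ) _
    (R.mul_mem (R.neg_mem (R.pow_mem hpR 3)) hx) hint
  exact_mod_cast hdv

end Fermat.Agent.S16
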