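import Fermat.Agent.S16.NumCore
import Fermat.Agent.S16.CaseA
import Fermat.Agent.S16.Sign
import Fermat.Agent.S16.Case3
import Fermat.Agent.S16.Case2

/-!
# S16, package NUM: the upper bound in `q`-expansion form
-/

set_option autoImplicit false

namespace Fermat.Agent.S16

open UpperHalfPlane CongruenceSubgroup ModularCurve

theorem no_congruence (p : ℕ) [Fact p.Prime] (f : CuspForm (Gamma0 p) 2) (ℓ r : ℕ) [Fact ℓ.Prime]
    (a : ℕ → ℤ) (ha : ∀ k, (qExpansion 1 f).coeff k = a k)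
    (hc : ∀ k, 1 ≤ k → ((ℓ : ℤ) ^ r) ∣ a k - sigmaP p k) : ℓ ^ r ∣ eisensteinNumerator p :=
  Num.no_congruence_of p (fun ℓ _ => caseA p ℓ) (fun hp ℓ s _ => sign p hp ℓ s) (case3 p) (case2 p)
    f ℓ r a ha hc

end Fermat.Agent.S16
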