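import Fermat.Agent.S16.Pair
import Fermat.Agent.S24.JFunOrd

/-!
# S16, package ANBASE: the Eisenstein series `E' = (p E₂(pτ) - E₂(τ)) / 24` of weight `2` on `Γ₀(p)`
-/

set_option autoImplicit false

namespace Fermat.Agent.S16

open UpperHalfPlane ModularForm CongruenceSubgroup Fermat.Agent.S21 Fermat.Agent.S23
  Fermat.Agent.S23.Prim Filter EisensteinSeries Matrix.SpecialLinearGroup
open scoped MatrixGroups Manifold Topology ArithmeticFunction.sigma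

namespace Eis

lemma E2_mem_niceAlg : E2 ∈ niceAlg :=
  ⟨Fermat.Agent.S24.periodic_E2, E2_mdifferentiable, isBoundedAtImInfty_E2⟩

lemma qExpansion_E2_coeff (m : ℕ) :
    (qExpansion 1 E2).coeff m = if m = 0 then 1 else -24 * (σ 1 m : ℂ) :=
  (Fermat.Agent.S24.qExpansion_coeff_unique' (analyticAt_of_mem_niceAlg E2_mem_niceAlg)
    (c := fun m : ℕ => (if m = 0 then 1 else -24 * σ 1 m : ℂ))
    (fun τ => by
      simpa only [Function.Periodic.qParam, Complex.ofReal_one, div_one] using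
        hasSum_qExpansion_E2 (z := τ)) m).symm

/-- `D2 γ` is bounded at `i∞`. -/
lemma D2_bdd (γ : SL(2, ℤ)) : IsBoundedAtImInfty (D2 γ) := by
  rw [isBoundedAtImInfty_iff]
  refine ⟨2 * Real.pi, 1, fun z hz => ?_⟩
  rw [D2, ModularGroup.denom_apply]
  by_cases hc : γ 1 0 = 0
  · simp [hc, Real.pi_pos.le]
  have hc' : (0 : ℝ) < |((γ 1 0 : ℤ) : ℝ)| := by
    rw [abs_pos]
    exact_mod_cast hc
  have h1 : |((γ 1 0 : ℤ) : ℝ)| * z.im ≤ ‖((γ 1 0 : ℤ) : ℂ) * (z : ℂ) + ((γ 1 1 : ℤ) : ℂ)‖ := by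
    refine le_trans ?_ (Complex.abs_im_le_norm _)
    simp [abs_mul, abs_of_pos z.im_pos]
  have h2 : |((γ 1 0 : ℤ) : ℝ)| ≤ ‖((γ 1 0 : ℤ) : ℂ) * (z : ℂ) + ((γ 1 1 : ℤ) : ℂ)‖ :=
    le_trans (le_mul_of_one_le_right hc'.le hz) h1
  rw [norm_div, div_le_iff₀ (lt_of_lt_of_le hc' h2)]
  have h3 : ‖2 * (Real.pi : ℂ) * Complex.I * ((γ 1 0 : ℤ) : ℂ)‖ = 2 * Real.pi * |((γ 1 0 : ℤ) : ℝ)| := by
    simp [abs_of_pos Real.pi_pos]
  rw [h3]
  exact mul_le_mul_of_nonneg_left h2 (by positivity)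

lemma E2_slash_bdd (γ : SL(2, ℤ)) : IsBoundedAtImInfty (E2 ∣[(2 : ℤ)] γ) := by
  rw [E2_slash_action]
  exact isBoundedAtImInfty_E2.sub ((D2_bdd γ).const_smul_left _)

lemma slash_ut_bdd {f : ℍ → ℂ} (hf : IsBoundedAtImInfty f) {a b d : ℝ} (ha : 0 < a) (hd : 0 < d) :
    IsBoundedAtImInfty (f ∣[(2 : ℤ)] upperTriangularGL a b d (mul_pos ha hd).ne') := by
  have h1 : IsBoundedAtImInfty (fun τ : ℍ => f (upperTriangularGL a b d (mul_pos ha hd).ne' • τ)) :=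
    hf.comp_tendsto (tendsto_ut_smul ha hd)
  have e : (f ∣[(2 : ℤ)] upperTriangularGL a b d (mul_pos ha hd).ne') =
      ((((a * d : ℝ) : ℂ) ^ ((2 : ℤ) - 1) * (d : ℂ) ^ (-(2 : ℤ))) •
        fun τ : ℍ => f (upperTriangularGL a b d (mul_pos ha hd).ne' • τ)) := by
    funext τ
    rw [slash_ut_apply _ _ (mul_pos ha hd), Pi.smul_apply, smul_eq_mul]
    ring
  rw [e]
  exact h1.const_smul_left _

variable (p : ℕ) [NeZero p]

/-- `p E₂(pτ) - E₂(τ)` -/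
noncomputable def E0 : ℍ → ℂ := E2 ∣[(2 : ℤ)] Dm p - E2

lemma E0_apply (τ : ℍ) : E0 p τ = (p : ℂ) * E2 (Dm p • τ) - E2 τ := by
  rw [E0, Pi.sub_apply, Fermat.Agent.S24.DegMF.slash_Dm_apply']
  norm_num
  ring

lemma E0_eq : E0 p = (p : ℂ) • (fun τ => E2 (Dm p • τ)) - E2 := by
  funext τ
  rw [E0_apply]
  rfl

lemma D2_slash_Dm {γ γ' : SL(2, ℤ)} (h : Dm p * mapGL ℝ γ = mapGL ℝ γ' * Dm p) :
    D2 γ' ∣[(2 : ℤ)] Dm p = D2 γ := by
  have h10 : ((γ 1 0 : ℤ) : ℝ) = (γ' 1 0 : ℤ) * p := by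
    have := congrArg (fun M : GL (Fin 2) ℝ => M 1 0) h
    simpa [Dm, Matrix.mul_apply, Fin.sum_univ_two] using this
  have h11 : ((γ 1 1 : ℤ) : ℝ) = (γ' 1 1 : ℤ) := by
    have := congrArg (fun M : GL (Fin 2) ℝ => M 1 1) h
    simpa [Dm, Matrix.mul_apply, Fin.sum_univ_two] using this
  have h10' : ((γ 1 0 : ℤ) : ℂ) = (γ' 1 0 : ℤ) * p := by exact_mod_cast h10
  have h11' : ((γ 1 1 : ℤ) : ℂ) = (γ' 1 1 : ℤ) := by exact_mod_cast h11
  funext τ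
  rw [Fermat.Agent.S24.DegMF.slash_Dm_apply', D2, D2, ModularGroup.denom_apply,
    ModularGroup.denom_apply, coe_Dm_smul, h10', h11']
  norm_num
  ring

lemma E0_inv (γ : SL(2, ℤ)) (hγ : γ ∈ Gamma0 p) : E0 p ∣[(2 : ℤ)] γ = E0 p := by
  obtain ⟨γ', hγ'⟩ := Dm_mul_of_mem_Gamma0 p γ hγ
  have h1 : (E2 ∣[(2 : ℤ)] Dm p) ∣[(2 : ℤ)] γ =
      E2 ∣[(2 : ℤ)] Dm p - (1 / (2 * riemannZeta 2)) • D2 γ := by
    rw [SL_slash, ← SlashAction.slash_mul]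
    show E2 ∣[(2 : ℤ)] (Dm p * mapGL ℝ γ) = _
    rw [hγ', SlashAction.slash_mul]
    show (E2 ∣[(2 : ℤ)] γ') ∣[(2 : ℤ)] Dm p = _
    rw [E2_slash_action, sub_eq_add_neg, SlashAction.add_slash, SlashAction.neg_slash,
      ModularForm.smul_slash, D2_slash_Dm p hγ', Dm, σ_ut _ (N_mul_one_pos p), ← sub_eq_add_neg]
    rfl
  rw [E0, sub_eq_add_neg, SlashAction.add_slash, SlashAction.neg_slash, h1, E2_slash_action]
  abel

lemma E0_bdd (g : SL(2, ℤ)) : IsBoundedAtImInfty (E0 p ∣[(2 : ℤ)] g) := by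
  obtain ⟨δ, a, b, d, ha, hd, -, -, h⟩ := exists_decomp p g
  have h1 : (E2 ∣[(2 : ℤ)] Dm p) ∣[(2 : ℤ)] g =
      (E2 ∣[(2 : ℤ)] δ) ∣[(2 : ℤ)] upperTriangularGL a b d (mul_pos ha hd).ne' := by
    rw [SL_slash, ← SlashAction.slash_mul]
    show E2 ∣[(2 : ℤ)] (Dm p * mapGL ℝ g) = _
    rw [h, SlashAction.slash_mul]
    rfl
  rw [E0, sub_eq_add_neg, SlashAction.add_slash, SlashAction.neg_slash, h1, ← sub_eq_add_neg]
  exact (slash_ut_bdd (E2_slash_bdd δ) ha hd).sub (E2_slash_bdd g)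

lemma E0_mem_niceAlg : E0 p ∈ niceAlg := by
  rw [E0_eq]
  exact sub_mem (Subalgebra.smul_mem _ (comp_Dm_mem_niceAlg E2_mem_niceAlg) _) E2_mem_niceAlg

theorem isMF_E0 : IsMF (Gamma0 p) 2 (E0 p) :=
  ⟨(E0_mem_niceAlg p).2.1, E0_inv p, E0_bdd p⟩

theorem qExpansion_E0_coeff (n : ℕ) :
    (qExpansion 1 (E0 p)).coeff n = if n = 0 then (p : ℂ) - 1 else 24 * (sigmaP p n : ℂ) := by
  have hp0 : p ≠ 0 := NeZero.ne p
  rw [E0_eq, qExpansion_sub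
    (analyticAt_of_mem_niceAlg (Subalgebra.smul_mem _ (comp_Dm_mem_niceAlg E2_mem_niceAlg) _))
    (analyticAt_of_mem_niceAlg E2_mem_niceAlg),
    qExpansion_smul' (comp_Dm_mem_niceAlg E2_mem_niceAlg), map_sub, PowerSeries.coeff_smul,
    qExpansion_comp_Dm_coeff E2_mem_niceAlg, qExpansion_E2_coeff, qExpansion_E2_coeff, sigmaP]
  by_cases hn : n = 0
  · subst hn
    simp
  · rw [if_neg hn, if_neg hn]
    by_cases hpn : p ∣ n
    · have : n / p ≠ 0 := by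
        obtain ⟨m, rfl⟩ := hpn
        rw [Nat.mul_div_cancel_left _ (Nat.pos_of_ne_zero hp0)]
        rintro rfl
        exact hn (mul_zero _)
      rw [if_pos hpn, if_pos hpn, if_neg this]
      push_cast
      rw [smul_eq_mul]
      ring
    · rw [if_neg hpn, if_neg hpn]
      push_cast
      rw [smul_eq_mul]
      ring

end Eis

theorem exists_eis (p : ℕ) [Fact p.Prime] :
    ∃ E B, IsPair p 2 E (PowerSeries.C (((p : ℂ) - 1) / 24) + deltaS p) B := by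
  refine ⟨(1 / 24 : ℂ) • Eis.E0 p, _, ⟨(Eis.isMF_E0 p).smul _, ?_, rfl⟩⟩
  ext n
  rw [qExpansion_smul' (Eis.E0_mem_niceAlg p), PowerSeries.coeff_smul, Eis.qExpansion_E0_coeff,
    map_add, PowerSeries.coeff_C, deltaS, PowerSeries.coeff_mk, smul_eq_mul]
  by_cases hn : n = 0
  · subst hn
    simp [sigmaP]
    ring
  · rw [if_neg hn, if_neg hn]
    ring

end Fermat.Agent.S16
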