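import Mathlib
import Fermat.Prelude.Def_ModularCurve_X0

/-!
# S16, formal lemma F3

In `(ZMod 3)⟦q⟧`, the series `S = ∑ σ₁(n) qⁿ` is not a rational function of
`D = q ∏ (1 - qⁿ)²⁴`.
-/

set_option autoImplicit false

namespace Fermat.Agent.S16.F3

open PowerSeries

/-- `θ = q d/dq` on `(ZMod 3)⟦q⟧`. -/
noncomputable def th (f : PowerSeries (ZMod 3)) : PowerSeries (ZMod 3) :=
  X * d⁄dX (ZMod 3) f

lemma coeff_th (f : PowerSeries (ZMod 3)) (n : ℕ) : coeff n (th f) = (n : ZMod 3) * coeff n f := by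
  unfold th
  cases n with
  | zero => simp
  | succ m =>
    rw [coeff_succ_X_mul, coeff_derivative]
    push_cast
    ring

lemma th_mul (f g : PowerSeries (ZMod 3)) : th (f * g) = th f * g + f * th g := by
  unfold th
  rw [Derivation.leibniz]
  simp only [smul_eq_mul]
  ring

lemma th_cube (f : PowerSeries (ZMod 3)) : th (f ^ 3) = 0 := by
  unfold th
  rw [Derivation.leibniz_pow]
  have h3 : (3 : ℕ) • (f ^ (3 - 1) • (d⁄dX (ZMod 3)) f) = 0 := by
    rw [← Nat.cast_smul_eq_nsmul (ZMod 3)]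
    have : ((3 : ℕ) : ZMod 3) = 0 := by decide
    rw [this, zero_smul]
  rw [h3, mul_zero]

lemma th_aeval (D : PowerSeries (ZMod 3)) (P : Polynomial (ZMod 3)) :
    th (Polynomial.aeval D P) = Polynomial.aeval D (Polynomial.derivative P) * th D := by
  unfold th
  rw [Derivation.map_aeval]
  simp only [smul_eq_mul]
  ring

/-- the reduction of `Δ` mod 3 -/
noncomputable def D3 : PowerSeries (ZMod 3) :=
  (PowerSeries.X * ModularCurve.dedekindEtaUnit).map (Int.castRingHom (ZMod 3))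

lemma D3_eq : D3 = X * ((ModularCurve.etaProd.map (Int.castRingHom (ZMod 3))) ^ 8) ^ 3 := by
  unfold D3
  rw [map_mul, map_X, ModularCurve.dedekindEtaUnit, map_pow, ← pow_mul]

lemma th_X : th X = X := by
  ext n
  rw [coeff_th, coeff_X]
  split_ifs with h
  · subst h; simp
  · simp

lemma th_D3 : th D3 = D3 := by
  rw [D3_eq, th_mul, th_cube, th_X, mul_zero, add_zero]

lemma constantCoeff_D3 : constantCoeff D3 = 0 := by
  rw [D3_eq]; simp

lemma D3_ne_zero : D3 ≠ 0 := by
  intro h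
  have h1 : coeff 1 D3 = 1 := by
    unfold D3
    rw [coeff_map, show (1 : ℕ) = 0 + 1 from rfl, coeff_succ_X_mul, coeff_zero_eq_constantCoeff_apply,
      ModularCurve.constantCoeff_dedekindEtaUnit]
    simp
  rw [h] at h1
  simp at h1

lemma pow_eq_zero_iff_of_pos' {f : PowerSeries (ZMod 3)} {n : ℕ} (h : f ^ n = 0) : f = 0 :=
  eq_zero_of_pow_eq_zero h

lemma aeval_D3_ne_zero {P : Polynomial (ZMod 3)} (hP : P ≠ 0) : Polynomial.aeval D3 P ≠ 0 := by
  intro h
  obtain ⟨Q, hQ, hdvd⟩ := Polynomial.exists_eq_pow_rootMultiplicity_mul_and_not_dvd P hP 0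
  rw [hQ, map_mul, map_pow] at h
  simp only [map_zero, sub_zero, Polynomial.aeval_X] at h
  rcases mul_eq_zero.mp h with h | h
  · exact D3_ne_zero (pow_eq_zero_iff_of_pos' h)
  · apply hdvd
    have h0 : constantCoeff (Polynomial.aeval D3 Q) = Q.eval 0 := by
      rw [Polynomial.aeval_def, Polynomial.hom_eval₂, constantCoeff_D3]
      have : (constantCoeff (R := ZMod 3)).comp (algebraMap (ZMod 3) (PowerSeries (ZMod 3)))
          = RingHom.id _ := by
        ext x
        simp
      rw [this, Polynomial.eval₂_id]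
    rw [h, map_zero] at h0
    rw [map_zero, sub_zero]
    exact Polynomial.X_dvd_iff.mpr (by rw [Polynomial.coeff_zero_eq_eval_zero]; exact h0.symm)

lemma aeval_D3_injective : Function.Injective (Polynomial.aeval D3 : Polynomial (ZMod 3) → _) := by
  intro P Q h
  by_contra hne
  exact aeval_D3_ne_zero (sub_ne_zero.mpr hne) (by rw [map_sub, h, sub_self])

/-! ### the arithmetic identity `n σ₁(n) ≡ σ₁(n) - σ₁(n/3)` mod 3 -/

/-- `σ₁(n)` mod 3 -/
def sg (n : ℕ) : ZMod 3 := ∑ d ∈ n.divisors, (d : ZMod 3)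

lemma sg_eq_filter (n : ℕ) : sg n = ∑ d ∈ n.divisors.filter (fun d => ¬ 3 ∣ d), (d : ZMod 3) := by
  unfold sg
  rw [Finset.sum_filter]
  refine Finset.sum_congr rfl fun d _ => ?_
  split_ifs with h
  · exact (ZMod.natCast_eq_zero_iff d 3).mpr h
  · rfl

lemma sg_three_mul (m : ℕ) : sg (3 * m) = sg m := by
  rcases Nat.eq_zero_or_pos m with rfl | hm
  · simp
  rw [sg_eq_filter, sg_eq_filter]
  congr 1
  ext d
  simp only [Finset.mem_filter, Nat.mem_divisors]
  constructor
  · rintro ⟨⟨h1, _⟩, h2⟩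
    refine ⟨⟨?_, hm.ne'⟩, h2⟩
    have hc : Nat.Coprime d 3 := ((Nat.Prime.coprime_iff_not_dvd Nat.prime_three).mpr h2).symm
    exact hc.dvd_of_dvd_mul_left h1
  · rintro ⟨⟨h1, _⟩, h2⟩
    exact ⟨⟨Dvd.dvd.mul_left h1 3, by positivity⟩, h2⟩

lemma add_eq_zero_of_mul_eq_two : ∀ x y : ZMod 3, x * y = 2 → x + y = 0 := by decide

lemma sg_of_mod_two {n : ℕ} (hn : (n : ZMod 3) = 2) : sg n = 0 := by
  have h1 : sg n = ∑ d ∈ n.divisors, ((n / d : ℕ) : ZMod 3) :=
    (Nat.sum_div_divisors n (fun d => (d : ZMod 3))).symm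
  have h2 : sg n + sg n = 0 := by
    nth_rewrite 2 [h1]
    unfold sg
    rw [← Finset.sum_add_distrib]
    refine Finset.sum_eq_zero fun d hd => ?_
    apply add_eq_zero_of_mul_eq_two
    rw [← Nat.cast_mul, Nat.mul_div_cancel' (Nat.dvd_of_mem_divisors hd), hn]
  have : ∀ x : ZMod 3, x + x = 0 → x = 0 := by decide
  exact this _ h2

lemma sg_identity (n : ℕ) :
    (n : ZMod 3) * sg n = sg n - (if 3 ∣ n then sg (n / 3) else 0) := by
  split_ifs with h
  · obtain ⟨m, rfl⟩ := h
    rw [Nat.mul_div_cancel_left _ (by norm_num), sg_three_mul, sub_self]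
    have : ((3 * m : ℕ) : ZMod 3) = 0 := (ZMod.natCast_eq_zero_iff _ 3).mpr ⟨m, rfl⟩
    rw [this, zero_mul]
  · have h0 : (n : ZMod 3) ≠ 0 := fun h' => h ((ZMod.natCast_eq_zero_iff _ 3).mp h')
    have : ∀ x : ZMod 3, x ≠ 0 → x = 1 ∨ x = 2 := by decide
    rcases this _ h0 with h1 | h2
    · rw [h1, one_mul, sub_zero]
    · rw [sg_of_mod_two h2, mul_zero, sub_zero]

lemma coeff_cube (f : PowerSeries (ZMod 3)) (n : ℕ) :
    coeff n (f ^ 3) = if 3 ∣ n then coeff (n / 3) f else 0 := by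
  have h := MvPowerSeries.map_frobenius_expand (σ := Unit) (R := ZMod 3) 3 (by norm_num) (f := f)
  have h' : f ^ 3 = (PowerSeries.expand 3 (by norm_num) f).map (frobenius (ZMod 3) 3) := h.symm
  rw [h', coeff_map, coeff_expand, ZMod.frobenius_zmod, RingHom.id_apply]

/-- `θ S = S - S³`. -/
lemma th_S {S : PowerSeries (ZMod 3)} (hS : ∀ n, coeff n S = sg n) : th S = S - S ^ 3 := by
  ext n
  rw [coeff_th, map_sub, coeff_cube, hS, sg_identity]
  split_ifs with h
  · rw [hS]
  · rfl

end Fermat.Agent.S16.F3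

namespace Fermat.Agent.S16.F3

open Polynomial

/-! ### the main statement -/

lemma key_identity {S : PowerSeries (ZMod 3)} (hS : ∀ n, PowerSeries.coeff n S = sg n)
    {a b : Polynomial (ZMod 3)} (h : S * aeval D3 b = aeval D3 a) :
    a ^ 3 = b * (a * b + X * a * derivative b - X * derivative a * b) := by
  apply aeval_D3_injective
  have h1 := congrArg th h
  rw [th_mul, th_S hS, th_aeval, th_aeval, th_D3] at h1
  simp only [map_mul, map_pow, map_add, map_sub, aeval_X]
  set A := aeval D3 a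
  set B := aeval D3 b
  set A' := aeval D3 (derivative a)
  set B' := aeval D3 (derivative b)
  have h2 : ((S - S ^ 3) * B + S * (B' * D3)) * B ^ 2 = A' * D3 * B ^ 2 := by rw [h1]
  have h3 : ((S - S ^ 3) * B + S * (B' * D3)) * B ^ 2
      = (S * B) * B ^ 2 - (S * B) ^ 3 + (S * B) * B' * D3 * B := by ring
  rw [h3, h] at h2
  linear_combination (-1 : PowerSeries (ZMod 3)) * h2

theorem main_sg {S : PowerSeries (ZMod 3)} (hS : ∀ n, PowerSeries.coeff n S = sg n)
    (a b : Polynomial (ZMod 3)) (hb : b ≠ 0) : S * aeval D3 b ≠ aeval D3 a := by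
  intro h
  -- reduce to coprime `a`, `b`
  obtain ⟨a', b', ha, hb', hu⟩ := extract_gcd a b
  set g := gcd a b with hg
  have hg0 : g ≠ 0 := by
    intro h0
    rw [h0, zero_mul] at hb'
    exact hb hb'
  have hb0 : b' ≠ 0 := by
    intro h0
    rw [h0, mul_zero] at hb'
    exact hb hb'
  have h' : S * aeval D3 b' = aeval D3 a' := by
    rw [ha, hb', map_mul, map_mul] at h
    have hgD := aeval_D3_ne_zero hg0
    apply mul_left_cancel₀ hgD
    rw [← h]; ring
  have hkey := key_identity hS h'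
  have hrel : IsRelPrime a' b' := (gcd_isUnit_iff_isRelPrime).mp hu
  have hunit : IsUnit b' := (hrel.pow_left (m := 3)) ⟨_, hkey⟩ dvd_rfl
  obtain ⟨c, hc, rfl⟩ := Polynomial.isUnit_iff.mp hunit
  have hc0 : c ≠ 0 := hc.ne_zero
  -- now `a'` is constant by degrees
  have hdeg : a'.natDegree = 0 := by
    by_contra hd
    have h1 : (a' ^ 3).natDegree = 3 * a'.natDegree := natDegree_pow _ _
    rw [hkey] at h1
    have h2 : (C c * (a' * C c + X * a' * derivative (C c) - X * derivative a' * C c)).natDegree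
        ≤ a'.natDegree := by
      rw [derivative_C, mul_zero, add_zero]
      refine (natDegree_C_mul_le _ _).trans ?_
      refine (natDegree_sub_le _ _).trans (max_le ?_ ?_)
      · exact natDegree_mul_C_le _ _
      · refine (natDegree_mul_C_le _ _).trans ?_
        refine natDegree_mul_le.trans ?_
        rw [natDegree_X]
        have := natDegree_derivative_lt hd
        omega
    omega
  obtain ⟨e, rfl⟩ : ∃ e, a' = C e := ⟨_, eq_C_of_natDegree_eq_zero hdeg⟩
  have h1 := congrArg (PowerSeries.coeff 1) h'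
  rw [aeval_C, aeval_C] at h1
  simp only [PowerSeries.algebraMap_apply, Algebra.algebraMap_self, RingHom.id_apply] at h1
  rw [mul_comm, PowerSeries.coeff_C_mul, hS, PowerSeries.coeff_C] at h1
  simp [sg] at h1
  exact hc0 h1

/-- **F3**: in `(ZMod 3)⟦q⟧` the series `S = ∑ σ₁(n) qⁿ` is not a rational function of
`D3 = Δ mod 3` (`D3 = cst (ZMod 3) Dq` holds by `rfl`). -/
theorem main {S : PowerSeries (ZMod 3)}
    (hS : ∀ n, PowerSeries.coeff n S = ((ArithmeticFunction.sigma 1 n : ℕ) : ZMod 3))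
    (a b : Polynomial (ZMod 3)) (hb : b ≠ 0) : S * aeval D3 b ≠ aeval D3 a :=
  main_sg (fun n => by rw [hS, ArithmeticFunction.sigma_one_apply, Nat.cast_sum]; rfl) a b hb

end Fermat.Agent.S16.F3
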