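import Fermat.Agent.S16.Defs

/-!
# S16, package FORMAL: API for `Up Vp coeffRing Cong Zloc Oloc`
-/

set_option autoImplicit false
set_option linter.unusedSectionVars false

noncomputable section

namespace Fermat.Agent.S16

open UpperHalfPlane ModularForm CongruenceSubgroup
open scoped MatrixGroups

section Formal

variable {R : Type*} [CommRing R]

theorem Up_add (p : ℕ) (s t : PowerSeries R) : Up p (s + t) = Up p s + Up p t := by
  ext n; simp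
theorem Up_sub (p : ℕ) (s t : PowerSeries R) : Up p (s - t) = Up p s - Up p t := by
  ext n; simp
theorem Up_neg (p : ℕ) (s : PowerSeries R) : Up p (-s) = -Up p s := by
  ext n; simp
theorem Up_C {p : ℕ} (hp : p ≠ 0) (c : R) : Up p (PowerSeries.C c) = PowerSeries.C c := by
  ext n
  simp [PowerSeries.coeff_C, hp]
theorem Up_one {p : ℕ} (hp : p ≠ 0) : Up p (1 : PowerSeries R) = 1 := by
  have := Up_C hp (1 : R)
  simpa using this
theorem Up_C_mul (p : ℕ) (c : R) (s : PowerSeries R) :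
    Up p (PowerSeries.C c * s) = PowerSeries.C c * Up p s := by
  ext n; simp
theorem Vp_add (p : ℕ) (s t : PowerSeries R) : Vp p (s + t) = Vp p s + Vp p t := by
  ext n
  simp only [coeff_Vp, map_add]
  split_ifs <;> simp
theorem Vp_neg (p : ℕ) (s : PowerSeries R) : Vp p (-s) = -Vp p s := by
  ext n
  simp only [coeff_Vp, map_neg]
  split_ifs <;> simp
theorem Vp_sub (p : ℕ) (s t : PowerSeries R) : Vp p (s - t) = Vp p s - Vp p t := by
  rw [sub_eq_add_neg, Vp_add, Vp_neg, sub_eq_add_neg]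

theorem Vp_eq_expand {p : ℕ} (hp : p ≠ 0) (s : PowerSeries R) :
    Vp p s = PowerSeries.expand p hp s := by
  ext n
  rw [coeff_Vp, PowerSeries.coeff_expand]

theorem Vp_C {p : ℕ} (hp : p ≠ 0) (c : R) : Vp p (PowerSeries.C c) = PowerSeries.C c := by
  rw [Vp_eq_expand hp, PowerSeries.expand_C]
theorem Vp_one {p : ℕ} (hp : p ≠ 0) : Vp p (1 : PowerSeries R) = 1 := by
  rw [Vp_eq_expand hp, map_one]
theorem Vp_mul {p : ℕ} (hp : p ≠ 0) (s t : PowerSeries R) : Vp p (s * t) = Vp p s * Vp p t := by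
  rw [Vp_eq_expand hp, Vp_eq_expand hp, Vp_eq_expand hp, map_mul]
theorem Vp_pow {p : ℕ} (hp : p ≠ 0) (s : PowerSeries R) (n : ℕ) : Vp p (s ^ n) = Vp p s ^ n := by
  rw [Vp_eq_expand hp, Vp_eq_expand hp, map_pow]
theorem Up_Vp {p : ℕ} (hp : p ≠ 0) (s : PowerSeries R) : Up p (Vp p s) = s := by
  ext n
  rw [coeff_Up, coeff_Vp, if_pos (Dvd.intro_left n rfl), Nat.mul_div_cancel _ (Nat.pos_of_ne_zero hp)]
theorem Vp_injective {p : ℕ} (hp : p ≠ 0) : Function.Injective (Vp p : PowerSeries R → _) :=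
  Function.LeftInverse.injective (g := Up p) (Up_Vp hp)
theorem Up_Vp_mul {p : ℕ} (hp : p ≠ 0) (s t : PowerSeries R) :
    Up p (Vp p s * t) = s * Up p t := by
  ext n
  rw [coeff_Up, PowerSeries.coeff_mul, PowerSeries.coeff_mul]
  symm
  apply Finset.sum_of_injOn (fun x : ℕ × ℕ => (x.1 * p, x.2 * p))
  · intro x _ y _ h
    simp only [Prod.mk.injEq] at h
    exact Prod.ext (Nat.eq_of_mul_eq_mul_right (Nat.pos_of_ne_zero hp) h.1)
      (Nat.eq_of_mul_eq_mul_right (Nat.pos_of_ne_zero hp) h.2)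
  · intro x hx
    simp only [Finset.mem_coe, Finset.HasAntidiagonal.mem_antidiagonal] at hx ⊢
    rw [← hx, add_mul]
  · intro x hx hx'
    rw [coeff_Vp]
    split_ifs with h
    · exfalso
      apply hx'
      obtain ⟨a, ha⟩ := h
      rw [Finset.HasAntidiagonal.mem_antidiagonal] at hx
      have h2 : p ∣ x.2 := by
        have : p ∣ x.1 + x.2 := hx ▸ Dvd.intro_left n rfl
        exact (Nat.dvd_add_right ⟨a, ha⟩).mp this
      obtain ⟨b, hb⟩ := h2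
      refine ⟨(a, b), ?_, ?_⟩
      · simp only [Finset.mem_coe, Finset.HasAntidiagonal.mem_antidiagonal]
        apply Nat.eq_of_mul_eq_mul_right (Nat.pos_of_ne_zero hp)
        rw [← hx, ha, hb]; ring
      · apply Prod.ext
        · simp [ha, mul_comm]
        · simp [hb, mul_comm]
    · rw [zero_mul]
  · intro x _
    rw [coeff_Vp, if_pos (Dvd.intro_left _ rfl), Nat.mul_div_cancel _ (Nat.pos_of_ne_zero hp),
      coeff_Up]
theorem map_Up {S : Type*} [CommRing S] (φ : R →+* S) (p : ℕ) (s : PowerSeries R) :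
    PowerSeries.map φ (Up p s) = Up p (PowerSeries.map φ s) := by
  ext n; simp
theorem map_Vp {S : Type*} [CommRing S] (φ : R →+* S) (p : ℕ) (s : PowerSeries R) :
    PowerSeries.map φ (Vp p s) = Vp p (PowerSeries.map φ s) := by
  ext n
  simp only [PowerSeries.coeff_map, coeff_Vp]
  split_ifs <;> simp
theorem rescale_Vp {p : ℕ} (z : R) (hz : z ^ p = 1) (s : PowerSeries R) :
    PowerSeries.rescale z (Vp p s) = Vp p s := by
  ext n
  rw [PowerSeries.coeff_rescale, coeff_Vp]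
  split_ifs with h
  · obtain ⟨m, rfl⟩ := h
    rw [pow_mul, hz, one_pow, one_mul]
  · rw [mul_zero]

end Formal

section CongAPI

variable {A : Subring ℂ} {M : ℂ} {s t u v : PowerSeries ℂ}

theorem C_mem_coeffRing {c : ℂ} (hc : c ∈ A) : PowerSeries.C c ∈ coeffRing A := by
  intro n
  rw [PowerSeries.coeff_C]
  split_ifs
  · exact hc
  · exact A.zero_mem
theorem Up_mem_coeffRing (p : ℕ) (hs : s ∈ coeffRing A) : Up p s ∈ coeffRing A := by
  intro n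
  rw [coeff_Up]
  exact hs _
theorem Vp_mem_coeffRing (p : ℕ) (hs : s ∈ coeffRing A) : Vp p s ∈ coeffRing A := by
  intro n
  rw [coeff_Vp]
  split_ifs
  · exact hs _
  · exact A.zero_mem
theorem mem_coeffRing_of_Vp {p : ℕ} (hp : p ≠ 0) (hs : Vp p s ∈ coeffRing A) :
    s ∈ coeffRing A := by
  rw [← Up_Vp hp s]
  exact Up_mem_coeffRing p hs
theorem rescale_mem_coeffRing {z : ℂ} (hz : z ∈ A) (hs : s ∈ coeffRing A) :
    PowerSeries.rescale z s ∈ coeffRing A := by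
  intro n
  rw [PowerSeries.coeff_rescale]
  exact A.mul_mem (A.pow_mem hz _) (hs _)
theorem coeffRing_mono {A' : Subring ℂ} (h : A ≤ A') : coeffRing A ≤ coeffRing A' :=
  fun _ hs n => h (hs n)
theorem map_intCast_mem_coeffRing (a : PowerSeries ℤ) :
    PowerSeries.map (Int.castRingHom ℂ) a ∈ coeffRing A := by
  intro n
  rw [PowerSeries.coeff_map]
  exact intCast_mem A _
theorem sigmaS_mem_coeffRing (k : ℕ) : sigmaS ℂ k ∈ coeffRing A := by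
  intro n
  rw [sigmaS, PowerSeries.coeff_mk]
  exact natCast_mem A _

theorem cong_iff_coeff : Cong A M s t ↔
    ∀ n, ∃ a ∈ A, PowerSeries.coeff n s - PowerSeries.coeff n t = M * a := by
  constructor
  · rintro ⟨u, hu, h⟩ n
    refine ⟨PowerSeries.coeff n u, hu n, ?_⟩
    rw [← map_sub, h, PowerSeries.coeff_C_mul]
  · intro h
    choose a ha h using h
    refine ⟨PowerSeries.mk a, fun n => by rw [PowerSeries.coeff_mk]; exact ha n, ?_⟩
    ext n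
    rw [map_sub, h, PowerSeries.coeff_C_mul, PowerSeries.coeff_mk]
theorem Cong.refl (A : Subring ℂ) (M : ℂ) (s : PowerSeries ℂ) : Cong A M s s :=
  ⟨0, (coeffRing A).zero_mem, by simp⟩
theorem Cong.symm (h : Cong A M s t) : Cong A M t s := by
  obtain ⟨u, hu, h⟩ := h
  exact ⟨-u, (coeffRing A).neg_mem hu, by rw [mul_neg, ← h]; ring⟩
theorem Cong.trans (h : Cong A M s t) (h' : Cong A M t u) : Cong A M s u := by
  obtain ⟨a, ha, h⟩ := h
  obtain ⟨b, hb, h'⟩ := h'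
  exact ⟨a + b, (coeffRing A).add_mem ha hb, by rw [mul_add, ← h, ← h']; ring⟩
theorem Cong.add (h : Cong A M s t) (h' : Cong A M u v) : Cong A M (s + u) (t + v) := by
  obtain ⟨a, ha, h⟩ := h
  obtain ⟨b, hb, h'⟩ := h'
  exact ⟨a + b, (coeffRing A).add_mem ha hb, by rw [mul_add, ← h, ← h']; ring⟩
theorem Cong.sub (h : Cong A M s t) (h' : Cong A M u v) : Cong A M (s - u) (t - v) := by
  obtain ⟨a, ha, h⟩ := h
  obtain ⟨b, hb, h'⟩ := h'
  exact ⟨a - b, (coeffRing A).sub_mem ha hb, by rw [mul_sub, ← h, ← h']; ring⟩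
theorem Cong.neg (h : Cong A M s t) : Cong A M (-s) (-t) := by
  obtain ⟨a, ha, h⟩ := h
  exact ⟨-a, (coeffRing A).neg_mem ha, by rw [mul_neg, ← h]; ring⟩
theorem Cong.mem (hM : M ∈ A) (h : Cong A M s t) (ht : t ∈ coeffRing A) : s ∈ coeffRing A := by
  obtain ⟨a, ha, h⟩ := h
  have : s = t + PowerSeries.C M * a := by rw [← h]; ring
  rw [this]
  exact (coeffRing A).add_mem ht ((coeffRing A).mul_mem (C_mem_coeffRing hM) ha)
theorem Cong.mul (h : Cong A M s t) (h' : Cong A M u v) (hs : s ∈ coeffRing A)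
    (hv : v ∈ coeffRing A) : Cong A M (s * u) (t * v) := by
  obtain ⟨a, ha, h⟩ := h
  obtain ⟨b, hb, h'⟩ := h'
  refine ⟨s * b + a * v, (coeffRing A).add_mem ((coeffRing A).mul_mem hs hb)
    ((coeffRing A).mul_mem ha hv), ?_⟩
  have : s * u - t * v = s * (u - v) + (s - t) * v := by ring
  rw [this, h, h']; ring
theorem Cong.mul_left (hu : u ∈ coeffRing A) (h : Cong A M s t) : Cong A M (u * s) (u * t) := by
  obtain ⟨a, ha, h⟩ := h
  exact ⟨u * a, (coeffRing A).mul_mem hu ha, by rw [← mul_sub, h]; ring⟩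
theorem Cong.pow (hM : M ∈ A) (h : Cong A M s t) (ht : t ∈ coeffRing A) (n : ℕ) :
    Cong A M (s ^ n) (t ^ n) := by
  induction n with
  | zero => simpa using Cong.refl A M 1
  | succ n ih =>
    rw [pow_succ, pow_succ]
    exact ih.mul h ((coeffRing A).pow_mem (h.mem hM ht) n) ht
theorem Cong.Up (p : ℕ) (h : Cong A M s t) : Cong A M (Up p s) (Up p t) := by
  obtain ⟨a, ha, h⟩ := h
  exact ⟨S16.Up p a, Up_mem_coeffRing p ha, by rw [← Up_sub, h, Up_C_mul]⟩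
theorem Cong.Vp (p : ℕ) (h : Cong A M s t) : Cong A M (Vp p s) (Vp p t) := by
  rw [cong_iff_coeff] at h ⊢
  intro n
  rw [coeff_Vp, coeff_Vp]
  split_ifs
  · exact h _
  · exact ⟨0, A.zero_mem, by simp⟩
theorem Cong.of_mul {N : ℂ} (hN : N ∈ A) (h : Cong A (M * N) s t) : Cong A M s t := by
  obtain ⟨a, ha, h⟩ := h
  exact ⟨PowerSeries.C N * a, (coeffRing A).mul_mem (C_mem_coeffRing hN) ha, by
    rw [h, map_mul, mul_assoc]⟩
theorem Cong.C_mul (c : ℂ) (h : Cong A M s t) :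
    Cong A (c * M) (PowerSeries.C c * s) (PowerSeries.C c * t) := by
  obtain ⟨a, ha, h⟩ := h
  exact ⟨a, ha, by rw [← mul_sub, h, map_mul, mul_assoc]⟩
theorem Cong.mono {A' : Subring ℂ} (hA : A ≤ A') (h : Cong A M s t) : Cong A' M s t := by
  obtain ⟨a, ha, h⟩ := h
  exact ⟨a, coeffRing_mono hA ha, h⟩

/-- `Cong` as divisibility in the ring `A[[q]]`. -/
theorem cong_natCast_iff_dvd (m : ℕ) (hs : s ∈ coeffRing A) (ht : t ∈ coeffRing A) :
    Cong A (m : ℂ) s t ↔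
      ((m : ℕ) : ↥(coeffRing A)) ∣ (⟨s, hs⟩ : ↥(coeffRing A)) - ⟨t, ht⟩ := by
  constructor
  · rintro ⟨u, hu, h⟩
    refine ⟨⟨u, hu⟩, Subtype.ext ?_⟩
    simpa using h
  · rintro ⟨⟨u, hu⟩, h⟩
    refine ⟨u, hu, ?_⟩
    have := congrArg Subtype.val h
    simpa using this

theorem dvd_pow_sub_pow_of_dvd {R : Type*} [CommRing R] {x y : R} (ℓ a : ℕ) (ha : 1 ≤ a)
    (h : ((ℓ : R) ^ a) ∣ x - y) : ((ℓ : R) ^ (a + 1)) ∣ x ^ ℓ - y ^ ℓ := by
  rw [← geom_sum₂_mul, pow_succ']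
  refine mul_dvd_mul ?_ h
  have h1 : (ℓ : R) ∣ x - y := (dvd_pow_self _ (by omega)).trans h
  let f : R →+* R ⧸ Ideal.span {(ℓ : R)} := Ideal.Quotient.mk (Ideal.span {(ℓ : R)})
  have hf : ∀ r : R, (ℓ : R) ∣ r ↔ f r = 0 := fun r ↦ by
    rw [Ideal.Quotient.eq_zero_iff_mem, Ideal.mem_span_singleton]
  rw [hf, map_sub, sub_eq_zero] at h1
  rw [hf, RingHom.map_geom_sum₂, h1, geom_sum₂_self, mul_eq_zero_of_left]
  rw [← map_natCast f, Ideal.Quotient.eq_zero_iff_mem, Ideal.mem_span_singleton]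

/-- `s ≡ t mod ℓ^a`, `a ≥ 1`  ⟹  `s^ℓ ≡ t^ℓ mod ℓ^(a+1)`. -/
theorem Cong.pow_nat (ℓ a : ℕ) (ha : 1 ≤ a) (h : Cong A ((ℓ : ℂ) ^ a) s t) (ht : t ∈ coeffRing A) :
    Cong A ((ℓ : ℂ) ^ (a + 1)) (s ^ ℓ) (t ^ ℓ) := by
  have hs : s ∈ coeffRing A := h.mem (A.pow_mem (natCast_mem A ℓ) a) ht
  have e1 : ((ℓ : ℂ) ^ a) = ((ℓ ^ a : ℕ) : ℂ) := by push_cast; rfl
  have e2 : ((ℓ : ℂ) ^ (a + 1)) = ((ℓ ^ (a + 1) : ℕ) : ℂ) := by push_cast; rfl
  rw [e1, cong_natCast_iff_dvd _ hs ht] at h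
  rw [e2, cong_natCast_iff_dvd _ ((coeffRing A).pow_mem hs ℓ) ((coeffRing A).pow_mem ht ℓ)]
  have := dvd_pow_sub_pow_of_dvd (x := (⟨s, hs⟩ : ↥(coeffRing A))) (y := ⟨t, ht⟩) ℓ a ha
    (by simpa using h)
  simpa using this
theorem Cong.pow_nat_pow (ℓ a : ℕ) (h : Cong A (ℓ : ℂ) s t) (ht : t ∈ coeffRing A) :
    Cong A ((ℓ : ℂ) ^ (a + 1)) (s ^ ℓ ^ a) (t ^ ℓ ^ a) := by
  induction a with
  | zero => simpa using h
  | succ a ih =>
    rw [pow_succ ℓ a, pow_mul, pow_mul]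
    exact ih.pow_nat ℓ (a + 1) (by omega) ((coeffRing A).pow_mem ht _)

end CongAPI

section Loc

variable (ℓ : ℕ) [Fact ℓ.Prime]

theorem mem_Zloc_iff {ℓ : ℕ} {x : ℂ} :
    x ∈ Zloc ℓ ↔ ∃ r : ℚ, r.den.Coprime ℓ ∧ (r : ℂ) = x := by
  rw [Zloc, Subring.mem_map]
  constructor
  · rintro ⟨r, hr, rfl⟩
    exact ⟨r, hr, rfl⟩
  · rintro ⟨r, hr, rfl⟩
    exact ⟨r, hr, rfl⟩

theorem inv_intCast_mem_Zloc {n : ℤ} (hn : ¬ (ℓ : ℤ) ∣ n) : ((n : ℂ))⁻¹ ∈ Zloc ℓ := by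
  rw [mem_Zloc_iff]
  refine ⟨(n : ℚ)⁻¹, ?_, by push_cast; rfl⟩
  rw [Rat.inv_intCast_den]
  split_ifs with h
  · simp
  · rw [Nat.coprime_comm, Nat.Prime.coprime_iff_not_dvd Fact.out]
    intro h'
    exact hn (Int.natCast_dvd.mpr h')
theorem inv_natCast_mem_Zloc {n : ℕ} (hn : ¬ ℓ ∣ n) : ((n : ℂ))⁻¹ ∈ Zloc ℓ := by
  have := inv_intCast_mem_Zloc ℓ (n := (n : ℤ)) (by exact_mod_cast hn)
  simpa using this
theorem dvd_of_mem_Zloc (s : ℕ) (a : ℤ) (x : ℂ) (hx : x ∈ Zloc ℓ) (h : (a : ℂ) = (ℓ : ℂ) ^ s * x) :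
    ((ℓ : ℤ) ^ s) ∣ a := by
  obtain ⟨r, hr, rfl⟩ := mem_Zloc_iff.mp hx
  have h1 : (a : ℚ) = (ℓ : ℚ) ^ s * r := by exact_mod_cast h
  have h2 : a * (r.den : ℤ) = (ℓ : ℤ) ^ s * r.num := by
    have h3 : (a : ℚ) * r.den = (ℓ : ℚ) ^ s * r.num := by
      rw [h1, mul_assoc, Rat.mul_den_eq_num]
    exact_mod_cast h3
  have hcop : IsCoprime ((ℓ : ℤ) ^ s) (r.den : ℤ) := by
    apply IsCoprime.pow_left
    rw [Nat.isCoprime_iff_coprime]
    exact hr.symm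
  exact hcop.dvd_of_dvd_mul_right ⟨r.num, h2⟩
theorem inv_not_mem_Zloc : ((ℓ : ℂ))⁻¹ ∉ Zloc ℓ := by
  intro h
  have hℓ : (ℓ : ℂ) ≠ 0 := by exact_mod_cast (Fact.out : ℓ.Prime).ne_zero
  have := dvd_of_mem_Zloc ℓ 1 1 _ h (by simp [hℓ])
  rw [pow_one] at this
  have h1 : (ℓ : ℤ) = 1 ∨ (ℓ : ℤ) = -1 := Int.isUnit_iff.mp (isUnit_of_dvd_one this)
  have h2 := (Fact.out : ℓ.Prime).two_le
  omega

/-- reduction `ℤ_(ℓ) ⊆ ℚ → 𝔽_ℓ`. -/
def redQ : ↥(GaloisRep.ratLocalizedAt ℓ) →+* ZMod ℓ where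
  toFun x := ((x : ℚ) : ZMod ℓ)
  map_one' := by simp
  map_zero' := by simp
  map_mul' x y := by
    have hx : ((x : ℚ).den : ZMod ℓ) ≠ 0 := by
      rw [Ne, ZMod.natCast_eq_zero_iff]
      intro h
      exact (Fact.out : ℓ.Prime).one_lt.ne' (Nat.eq_one_of_dvd_coprimes x.2 h dvd_rfl)
    have hy : ((y : ℚ).den : ZMod ℓ) ≠ 0 := by
      rw [Ne, ZMod.natCast_eq_zero_iff]
      intro h
      exact (Fact.out : ℓ.Prime).one_lt.ne' (Nat.eq_one_of_dvd_coprimes y.2 h dvd_rfl)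
    simpa using Rat.cast_mul_of_ne_zero hx hy
  map_add' x y := by
    have hx : ((x : ℚ).den : ZMod ℓ) ≠ 0 := by
      rw [Ne, ZMod.natCast_eq_zero_iff]
      intro h
      exact (Fact.out : ℓ.Prime).one_lt.ne' (Nat.eq_one_of_dvd_coprimes x.2 h dvd_rfl)
    have hy : ((y : ℚ).den : ZMod ℓ) ≠ 0 := by
      rw [Ne, ZMod.natCast_eq_zero_iff]
      intro h
      exact (Fact.out : ℓ.Prime).one_lt.ne' (Nat.eq_one_of_dvd_coprimes y.2 h dvd_rfl)
    simpa using Rat.cast_add_of_ne_zero hx hy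

theorem redQ_surjective : Function.Surjective (redQ ℓ) := by
  intro a
  refine ⟨((a.val : ℕ) : ↥(GaloisRep.ratLocalizedAt ℓ)), ?_⟩
  rw [map_natCast]
  simp

theorem redQ_eq_zero_iff (x : ↥(GaloisRep.ratLocalizedAt ℓ)) :
    redQ ℓ x = 0 ↔ ∃ y : ↥(GaloisRep.ratLocalizedAt ℓ), x = (ℓ : ↥(GaloisRep.ratLocalizedAt ℓ)) * y := by
  constructor
  · intro h
    have hnd : ¬ (ℓ : ℤ) ∣ ((x : ℚ).den : ℤ) := by
      intro h
      have h' : ℓ ∣ (x : ℚ).den := by exact_mod_cast h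
      exact (Fact.out : ℓ.Prime).one_lt.ne' (Nat.eq_one_of_dvd_coprimes x.2 h' dvd_rfl)
    have hmul : x * (((x : ℚ).den : ℤ) : ↥(GaloisRep.ratLocalizedAt ℓ)) =
        (((x : ℚ).num : ℤ) : ↥(GaloisRep.ratLocalizedAt ℓ)) :=
      Subtype.ext (by simp [Rat.mul_den_eq_num])
    have h2 : (((x : ℚ).num : ℤ) : ZMod ℓ) = 0 := by
      have := congrArg (redQ ℓ) hmul
      rw [map_mul, h, zero_mul, map_intCast] at this
      exact this.symm
    rw [ZMod.intCast_zmod_eq_zero_iff_dvd] at h2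
    obtain ⟨k, hk⟩ := h2
    have hmem : (k : ℚ) * ((x : ℚ).den : ℚ)⁻¹ ∈ GaloisRep.ratLocalizedAt ℓ := by
      refine Subring.mul_mem _ (intCast_mem _ k) ?_
      show (((x : ℚ).den : ℚ)⁻¹).den.Coprime ℓ
      rw [Rat.inv_natCast_den, if_neg (x : ℚ).den_nz]
      exact x.2
    refine ⟨⟨_, hmem⟩, Subtype.ext ?_⟩
    have hx : (x : ℚ) = ((x : ℚ).num : ℚ) * ((x : ℚ).den : ℚ)⁻¹ := by
      rw [← div_eq_mul_inv, Rat.num_div_den]
    show (x : ℚ) = ((ℓ : ↥(GaloisRep.ratLocalizedAt ℓ)) : ℚ) * ((k : ℚ) * ((x : ℚ).den : ℚ)⁻¹)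
    conv_lhs => rw [hx, hk]
    push_cast
    ring
  · rintro ⟨y, rfl⟩
    rw [map_mul, map_natCast]
    simp

/-- reduction `ℤ_(ℓ) → 𝔽_ℓ`. -/
theorem exists_redZ : ∃ φ : ↥(Zloc ℓ) →+* ZMod ℓ, Function.Surjective φ ∧
    ∀ x, φ x = 0 ↔ ∃ y ∈ Zloc ℓ, (x : ℂ) = (ℓ : ℂ) * y := by
  let e : ↥(GaloisRep.ratLocalizedAt ℓ) ≃+* ↥(Zloc ℓ) :=
    (GaloisRep.ratLocalizedAt ℓ).equivMapOfInjective (algebraMap ℚ ℂ) (algebraMap ℚ ℂ).injective
  have he : ∀ r, ((e r : ↥(Zloc ℓ)) : ℂ) = ((r : ℚ) : ℂ) := fun r => rfl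
  refine ⟨(redQ ℓ).comp e.symm.toRingHom, (redQ_surjective ℓ).comp e.symm.surjective, fun x => ?_⟩
  obtain ⟨r, rfl⟩ := e.surjective x
  have : ((redQ ℓ).comp e.symm.toRingHom) (e r) = redQ ℓ r := by simp
  rw [this, redQ_eq_zero_iff, he]
  constructor
  · rintro ⟨y, rfl⟩
    exact ⟨e y, (e y).2, by rw [he]; push_cast; rfl⟩
  · rintro ⟨y, hy, h⟩
    obtain ⟨y', hy'⟩ := e.surjective ⟨y, hy⟩
    refine ⟨y', Subtype.ext ?_⟩
    have hy2 : y = ((y' : ℚ) : ℂ) := by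
      rw [← he, hy']
    have h' : ((r : ℚ) : ℂ) = (((ℓ : ℚ) * (y' : ℚ) : ℚ) : ℂ) := by rw [h, hy2]; push_cast; rfl
    have := Rat.cast_injective h'
    simpa using this

theorem Zloc_le_Oloc : Zloc ℓ ≤ Oloc ℓ := by
  intro x hx
  exact (integralClosure (Zloc ℓ) ℂ).algebraMap_mem ⟨x, hx⟩
theorem inv_not_mem_Oloc : ((ℓ : ℂ))⁻¹ ∉ Oloc ℓ := by
  intro h
  obtain ⟨φ, -, hφ⟩ := exists_redZ ℓ
  have hP : (RingHom.ker φ).IsPrime := RingHom.ker_isPrime φ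
  obtain ⟨Q, -, hQ, hQP⟩ := Ideal.exists_ideal_over_prime_of_isIntegral
    (S := integralClosure (Zloc ℓ) ℂ) (RingHom.ker φ) ⊥ (by
      intro x hx
      rw [Ideal.mem_comap, Ideal.mem_bot] at hx
      have : x = 0 := by
        apply Subtype.ext
        exact congrArg (fun z : ↥(integralClosure (Zloc ℓ) ℂ) => (z : ℂ)) hx
      rw [this]
      exact Ideal.zero_mem _)
  have hℓ : (ℓ : ℂ) ≠ 0 := by exact_mod_cast (Fact.out : ℓ.Prime).ne_zero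
  have h1 : ((ℓ : ℕ) : ↥(Zloc ℓ)) ∈ RingHom.ker φ := by
    rw [RingHom.mem_ker, hφ]
    exact ⟨1, (Zloc ℓ).one_mem, by simp⟩
  rw [← hQP, Ideal.mem_comap, map_natCast] at h1
  apply hQ.ne_top
  rw [Ideal.eq_top_iff_one]
  have h2 : (1 : ↥(integralClosure (Zloc ℓ) ℂ)) = ⟨(ℓ : ℂ)⁻¹, h⟩ * ((ℓ : ℕ) : _) := by
    apply Subtype.ext
    simp [hℓ]
  rw [h2]
  exact Q.mul_mem_left _ h1
theorem mem_Oloc_of_isIntegral (x : ℂ) (hx : IsIntegral (Oloc ℓ) x) : x ∈ Oloc ℓ := by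
  have hx' : IsIntegral (integralClosure (Zloc ℓ) ℂ) x := hx
  exact isIntegral_trans x hx'
theorem zetaP_pow (p : ℕ) (hp : p ≠ 0) : zetaP p ^ p = 1 := by
  have hp' : (p : ℂ) ≠ 0 := by exact_mod_cast hp
  rw [zetaP, ← Complex.exp_nat_mul, mul_div_cancel₀ _ hp', Complex.exp_two_pi_mul_I]
theorem zetaP_mem_Oloc (p : ℕ) (hp : p ≠ 0) : zetaP p ∈ Oloc ℓ := by
  show IsIntegral (Zloc ℓ) (zetaP p)
  refine IsIntegral.of_pow (Nat.pos_of_ne_zero hp) ?_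
  rw [zetaP_pow p hp]
  exact isIntegral_one

end Loc

end Fermat.Agent.S16
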