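import Fermat.Agent.S16.LDefs

set_option autoImplicit false

/-!
# S16, block D, LCOUNT part 1: Shapiro cocycles with arbitrary coefficients,
and the restriction of the cocycle to a cyclic subgroup is a coboundary
-/

namespace Fermat.Agent.S16.LCount

open CongruenceSubgroup ModularCurve ModularCurve.Period
open Fermat.Agent.S21 Fermat.Agent.S21.PartF
open scoped MatrixGroups

variable {Γ : Subgroup SL(2, ℤ)} {A : Type*} [AddCommGroup A]

/-- the twisted cocycle `d(g)(x) = φ(γ(g,x)) + w(gx) - w(x)`, arbitrary coefficients. -/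
noncomputable def dA (φ : Additive Γ →+ A) (w : (SL(2, ℤ) ⧸ Γ) → A) (g : SL(2, ℤ))
    (x : SL(2, ℤ) ⧸ Γ) : A :=
  φ (Additive.ofMul (gam Γ g x)) + w (g • x) - w x

lemma dA_mul (φ : Additive Γ →+ A) (w : (SL(2, ℤ) ⧸ Γ) → A) (g h : SL(2, ℤ))
    (x : SL(2, ℤ) ⧸ Γ) : dA φ w (g * h) x = dA φ w g (h • x) + dA φ w h x := by
  simp only [dA, gam_mul, ofMul_mul, map_add, mul_smul]
  abel

lemma dA_one (φ : Additive Γ →+ A) (w : (SL(2, ℤ) ⧸ Γ) → A) (x : SL(2, ℤ) ⧸ Γ) :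
    dA φ w 1 x = 0 := by
  have h := dA_mul φ w 1 1 x
  rw [one_mul, one_smul] at h
  exact left_eq_add.mp h

/-- the subgroup on which the cocycle vanishes. -/
noncomputable def vanishA (φ : Additive Γ →+ A) (w : (SL(2, ℤ) ⧸ Γ) → A) :
    Subgroup SL(2, ℤ) where
  carrier := {g | ∀ x, dA φ w g x = 0}
  mul_mem' := by
    intro a b ha hb x
    rw [dA_mul, ha, hb, add_zero]
  one_mem' := dA_one φ w
  inv_mem' := by
    intro a ha x
    have h := dA_mul φ w a⁻¹ a (a⁻¹ • x)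
    rw [inv_mul_cancel, dA_one, smul_inv_smul, ha, add_zero] at h
    exact h.symm

lemma dA_eq_zero_of_S_T (φ : Additive Γ →+ A) (w : (SL(2, ℤ) ⧸ Γ) → A)
    (hS : ∀ x, dA φ w ModularGroup.S x = 0) (hT : ∀ x, dA φ w ModularGroup.T x = 0)
    (g : SL(2, ℤ)) (x : SL(2, ℤ) ⧸ Γ) : dA φ w g x = 0 := by
  have hle : Subgroup.closure {ModularGroup.S, ModularGroup.T} ≤ vanishA φ w := by
    rw [Subgroup.closure_le]
    rintro a (rfl | rfl)
    · exact hS
    · exact hT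
  rw [SpecialLinearGroup.SL2Z_generators] at hle
  exact hle (Subgroup.mem_top g) x

lemma dA_eq_zero_of_S_U (φ : Additive Γ →+ A) (w : (SL(2, ℤ) ⧸ Γ) → A)
    (hS : ∀ x, dA φ w ModularGroup.S x = 0) (hU : ∀ x, dA φ w Umat x = 0)
    (g : SL(2, ℤ)) (x : SL(2, ℤ) ⧸ Γ) : dA φ w g x = 0 := by
  refine dA_eq_zero_of_S_T φ w hS ?_ g x
  have hT : ModularGroup.T = ModularGroup.S⁻¹ * Umat := by simp [Umat]
  have hmem : ModularGroup.S⁻¹ * Umat ∈ vanishA φ w :=
    (vanishA φ w).mul_mem ((vanishA φ w).inv_mem hS) hU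
  rw [hT]
  exact hmem

/-- if the cocycle vanishes identically, then `φ = 0` and `w` is constant. -/
lemma eq_zero_of_dA_eq_zero (φ : Additive Γ →+ A) (w : (SL(2, ℤ) ⧸ Γ) → A)
    (h : ∀ g x, dA φ w g x = 0) :
    φ = 0 ∧ ∀ x, w x = w ((1 : SL(2, ℤ)) : SL(2, ℤ) ⧸ Γ) := by
  set x₀ : SL(2, ℤ) ⧸ Γ := ((1 : SL(2, ℤ)) : SL(2, ℤ) ⧸ Γ) with hx₀
  have hφ : φ = 0 := by
    refine AddMonoidHom.ext fun γ' => ?_
    obtain ⟨γ, rfl⟩ := Additive.ofMul.surjective γ'
    set g : SL(2, ℤ) := x₀.out * γ * x₀.out⁻¹ with hg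
    have hgx : g • x₀ = x₀ := by
      conv_lhs => rw [← QuotientGroup.out_eq' x₀]
      rw [MulAction.Quotient.smul_mk, hg]
      have : x₀.out * (γ : SL(2, ℤ)) * x₀.out⁻¹ * x₀.out = x₀.out * γ := by group
      rw [smul_eq_mul, this]
      conv_rhs => rw [← QuotientGroup.out_eq' x₀]
      rw [QuotientGroup.eq]
      simp
    have hgam : gam Γ g x₀ = γ := by
      apply Subtype.ext
      show (g • x₀).out⁻¹ * (g * x₀.out) = γ
      rw [hgx, hg]
      group
    have := h g x₀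
    rw [dA, hgam, hgx] at this
    simpa using this
  refine ⟨hφ, fun x => ?_⟩
  induction x using QuotientGroup.induction_on with
  | H a =>
    have := h a x₀
    rw [dA, hφ] at this
    have hax : a • x₀ = (a : SL(2, ℤ) ⧸ Γ) := by
      rw [hx₀, MulAction.Quotient.smul_mk, smul_eq_mul, mul_one]
    rw [hax] at this
    simp only [AddMonoidHom.zero_apply, zero_add] at this
    exact sub_eq_zero.mp this

/-! ## restriction to a cyclic subgroup -/

/-- If `φ` kills all the elements `γ(g^m, y)` with `g^m y = y`, the function `x ↦ φ(γ(g,x))` is a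
coboundary for the action of `g`. -/
theorem exists_coboundary (φ : Additive Γ →+ A) (g : SL(2, ℤ))
    (h : ∀ (m : ℤ) (y : SL(2, ℤ) ⧸ Γ), g ^ m • y = y →
      φ (Additive.ofMul (gam Γ (g ^ m) y)) = 0) :
    ∃ w : (SL(2, ℤ) ⧸ Γ) → A, ∀ x, φ (Additive.ofMul (gam Γ g x)) = w (g • x) - w x := by
  classical
  -- the cocycle on `ℤ`
  set c : ℤ → (SL(2, ℤ) ⧸ Γ) → A := fun m y => φ (Additive.ofMul (gam Γ (g ^ m) y)) with hc
  have hadd : ∀ (m n : ℤ) (y : SL(2, ℤ) ⧸ Γ), c (m + n) y = c m (g ^ n • y) + c n y := by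
    intro m n y
    simp only [hc]
    rw [zpow_add, gam_mul, ofMul_mul, map_add]
  have hwd : ∀ (a b : ℤ) (r : SL(2, ℤ) ⧸ Γ), g ^ a • r = g ^ b • r → c a r = c b r := by
    intro a b r hab
    have h1 := hadd (a - b) b r
    rw [sub_add_cancel] at h1
    rw [h1]
    have h2 : g ^ (a - b) • (g ^ b • r) = g ^ b • r := by
      rw [← mul_smul, ← zpow_add, sub_add_cancel, hab]
    rw [show c (a - b) (g ^ b • r) = 0 from h _ _ h2, zero_add]
  -- representatives of the orbits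
  let s : Setoid (SL(2, ℤ) ⧸ Γ) := MulAction.orbitRel (Subgroup.zpowers g) (SL(2, ℤ) ⧸ Γ)
  let rep : (SL(2, ℤ) ⧸ Γ) → (SL(2, ℤ) ⧸ Γ) := fun x => (Quotient.mk s x).out
  have hrep : ∀ x, ∃ i : ℤ, g ^ i • rep x = x := by
    intro x
    have h1 : s (rep x) x := Quotient.exact (Quotient.out_eq (Quotient.mk s x))
    have h2 : rep x ∈ MulAction.orbit (Subgroup.zpowers g) x := h1
    obtain ⟨⟨k, hk⟩, hk2⟩ := h2
    obtain ⟨i, rfl⟩ := Subgroup.mem_zpowers_iff.mp hk
    refine ⟨-i, ?_⟩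
    have h3 : g ^ i • x = rep x := hk2
    rw [← h3, ← mul_smul, ← zpow_add]
    simp
  have hrepg : ∀ x, rep (g • x) = rep x := by
    intro x
    have : Quotient.mk s (g • x) = Quotient.mk s x := by
      apply Quotient.sound
      show g • x ∈ MulAction.orbit (Subgroup.zpowers g) x
      exact ⟨⟨g, Subgroup.mem_zpowers g⟩, rfl⟩
    simp only [rep, this]
  choose i hi using hrep
  refine ⟨fun x => c (i x) (rep x), fun x => ?_⟩
  have h1 : c (i (g • x)) (rep (g • x)) = c (1 + i x) (rep x) := by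
    rw [hrepg]
    apply hwd
    have := hi (g • x)
    rw [hrepg] at this
    rw [this, zpow_add, mul_smul, hi x, zpow_one]
  show _ = c (i (g • x)) (rep (g • x)) - c (i x) (rep x)
  rw [h1, hadd, hi x]
  simp [hc]

lemma gam_coe_of_fixed (g : SL(2, ℤ)) (y : SL(2, ℤ) ⧸ Γ) (hy : g • y = y) :
    ((gam Γ g y : Γ) : SL(2, ℤ)) = y.out⁻¹ * g * y.out := by
  show (g • y).out⁻¹ * (g * y.out) = _
  rw [hy, mul_assoc]

/-- elements of finite order -/
theorem exists_coboundary_of_pow {φ : Additive Γ →+ A} (hφ : IsPE Γ φ) (g : SL(2, ℤ))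
    (hg : g ^ 12 = 1) :
    ∃ w : (SL(2, ℤ) ⧸ Γ) → A, ∀ x, φ (Additive.ofMul (gam Γ g x)) = w (g • x) - w x := by
  refine exists_coboundary φ g fun m y hy => hφ.2 _ ?_
  apply Subtype.ext
  rw [Subgroup.coe_pow, gam_coe_of_fixed _ _ hy]
  have : (y.out⁻¹ * g ^ m * y.out) ^ 12 = y.out⁻¹ * (g ^ m) ^ 12 * y.out := by
    have := conj_pow (a := y.out⁻¹) (b := g ^ m) (i := 12)
    simpa using this
  rw [this, ← zpow_natCast, ← zpow_mul, mul_comm, zpow_mul, zpow_natCast, hg]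
  simp

/-- the translation `T` -/
theorem exists_coboundary_T {φ : Additive Γ →+ A} (hφ : IsParabolicHom Γ φ) :
    ∃ w : (SL(2, ℤ) ⧸ Γ) → A, ∀ x,
      φ (Additive.ofMul (gam Γ ModularGroup.T x)) = w (ModularGroup.T • x) - w x := by
  refine exists_coboundary φ ModularGroup.T fun m y hy => hφ _ ?_
  rw [gam_coe_of_fixed _ _ hy, Matrix.SpecialLinearGroup.coe_mul, Matrix.trace_mul_comm,
    ← Matrix.SpecialLinearGroup.coe_mul, ← mul_assoc, mul_inv_cancel, one_mul,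
    ModularGroup.coe_T_zpow, Matrix.trace_fin_two_of]
  norm_num

end Fermat.Agent.S16.LCount
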