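import Fermat.Agent.S16.LCount1

set_option autoImplicit false

/-!
# S16, block D, LCOUNT part 2: the dimension bound over an arbitrary field
-/

namespace Fermat.Agent.S16.LCount

open CongruenceSubgroup ModularCurve ModularCurve.Period
open Fermat.Agent.S21 Fermat.Agent.S21.PartF
open scoped MatrixGroups

variable (Γ : Subgroup SL(2, ℤ)) (k : Type*) [Field k]

/-- `D_g w = w ∘ g - w`. -/
noncomputable def Dg (g : SL(2, ℤ)) : ((SL(2, ℤ) ⧸ Γ) → k) →ₗ[k] ((SL(2, ℤ) ⧸ Γ) → k) :=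
  LinearMap.funLeft k k (fun x : SL(2, ℤ) ⧸ Γ => g • x) - LinearMap.id

variable {Γ k} in
@[simp] lemma Dg_apply (g : SL(2, ℤ)) (w : (SL(2, ℤ) ⧸ Γ) → k) (x : SL(2, ℤ) ⧸ Γ) :
    Dg Γ k g w x = w (g • x) - w x := rfl

/-- coboundaries for `g`. -/
noncomputable def Rg (g : SL(2, ℤ)) : Submodule k ((SL(2, ℤ) ⧸ Γ) → k) := LinearMap.range (Dg Γ k g)

/-- `g`-invariant functions. -/
noncomputable def Ig (g : SL(2, ℤ)) : Submodule k ((SL(2, ℤ) ⧸ Γ) → k) := LinearMap.ker (Dg Γ k g)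

variable {Γ k} in
lemma mem_Ig {g : SL(2, ℤ)} {l : (SL(2, ℤ) ⧸ Γ) → k} :
    l ∈ Ig Γ k g ↔ ∀ x, l (g • x) = l x := by
  rw [Ig, LinearMap.mem_ker]
  constructor
  · intro h x
    have := congrFun h x
    exact sub_eq_zero.mp this
  · intro h
    funext x
    exact sub_eq_zero.mpr (h x)

/-- the space of homomorphisms killing parabolic and finite order elements. -/
def PEA (R : Type*) [Ring R] (A : Type*) [AddCommGroup A] [Module R A] :
    Submodule R (Additive Γ →+ A) where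
  carrier := {φ | IsPE Γ φ}
  zero_mem' := ⟨fun _ _ => rfl, fun _ _ => rfl⟩
  add_mem' := by
    intro φ ψ hφ hψ
    refine ⟨fun γ hγ => ?_, fun γ hγ => ?_⟩
    · show φ _ + ψ _ = 0
      rw [hφ.1 γ hγ, hψ.1 γ hγ, add_zero]
    · show φ _ + ψ _ = 0
      rw [hφ.2 γ hγ, hψ.2 γ hγ, add_zero]
  smul_mem' := by
    intro c φ hφ
    refine ⟨fun γ hγ => ?_, fun γ hγ => ?_⟩
    · show c • φ _ = 0
      rw [hφ.1 γ hγ, smul_zero]
    · show c • φ _ = 0
      rw [hφ.2 γ hγ, smul_zero]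

/-- the space of homomorphisms killing parabolic and finite order elements, field coefficients. -/
abbrev PE := PEA Γ k k

/-- `dA` as a linear map in `(φ, w)`. -/
noncomputable def dLin (g : SL(2, ℤ)) :
    (PE Γ k × ((SL(2, ℤ) ⧸ Γ) → k)) →ₗ[k] ((SL(2, ℤ) ⧸ Γ) → k) where
  toFun p := dA (p.1 : Additive Γ →+ k) p.2 g
  map_add' p q := by
    funext x
    simp only [dA, Prod.fst_add, Prod.snd_add, Submodule.coe_add, AddMonoidHom.add_apply,
      Pi.add_apply]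
    ring
  map_smul' c p := by
    funext x
    simp only [dA, Prod.smul_fst, Prod.smul_snd, Submodule.coe_smul, AddMonoidHom.smul_apply,
      Pi.smul_apply, smul_eq_mul, RingHom.id_apply]
    ring

variable {Γ k}

lemma dA_mem_Rg_of_pow {φ : Additive Γ →+ k} (hφ : IsPE Γ φ) (w : (SL(2, ℤ) ⧸ Γ) → k)
    (g : SL(2, ℤ)) (hg : g ^ 12 = 1) : dA φ w g ∈ Rg Γ k g := by
  obtain ⟨w', hw'⟩ := exists_coboundary_of_pow hφ g hg
  refine ⟨w' + w, ?_⟩
  funext x
  simp only [Dg_apply, Pi.add_apply, dA, hw']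
  ring

lemma dA_T_mem_Rg {φ : Additive Γ →+ k} (hφ : IsPE Γ φ) (w : (SL(2, ℤ) ⧸ Γ) → k) :
    dA φ w ModularGroup.T ∈ Rg Γ k ModularGroup.T := by
  obtain ⟨w', hw'⟩ := exists_coboundary_T hφ.1
  refine ⟨w' + w, ?_⟩
  funext x
  simp only [Dg_apply, Pi.add_apply, dA, hw']
  ring

lemma S_pow : ModularGroup.S ^ 12 = 1 := by decide
lemma U_pow : Umat ^ 12 = 1 := by decide

variable (Γ k) in
/-- the comparison map `(φ, w) ↦ (d(S), d(U))`. -/
noncomputable def Psi :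
    (PE Γ k × ((SL(2, ℤ) ⧸ Γ) → k)) →ₗ[k] (Rg Γ k ModularGroup.S × Rg Γ k Umat) :=
  LinearMap.prod
    ((dLin Γ k ModularGroup.S).codRestrict (Rg Γ k ModularGroup.S)
      fun p => dA_mem_Rg_of_pow p.1.2 p.2 _ S_pow)
    ((dLin Γ k Umat).codRestrict (Rg Γ k Umat) fun p => dA_mem_Rg_of_pow p.1.2 p.2 _ U_pow)

lemma mem_ker_Psi (p : PE Γ k × ((SL(2, ℤ) ⧸ Γ) → k)) (hp : p ∈ LinearMap.ker (Psi Γ k)) :
    p.1 = 0 ∧ ∀ x, p.2 x = p.2 ((1 : SL(2, ℤ)) : SL(2, ℤ) ⧸ Γ) := by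
  rw [LinearMap.mem_ker] at hp
  have h1 : dA (p.1 : Additive Γ →+ k) p.2 ModularGroup.S = 0 :=
    congrArg (fun q => (q.1 : (SL(2, ℤ) ⧸ Γ) → k)) hp
  have h2 : dA (p.1 : Additive Γ →+ k) p.2 Umat = 0 :=
    congrArg (fun q => (q.2 : (SL(2, ℤ) ⧸ Γ) → k)) hp
  have := eq_zero_of_dA_eq_zero (p.1 : Additive Γ →+ k) p.2
    (dA_eq_zero_of_S_U _ p.2 (fun x => congrFun h1 x) (fun x => congrFun h2 x))
  exact ⟨Subtype.ext this.1, this.2⟩

lemma finrank_ker_Psi_le : Module.finrank k (LinearMap.ker (Psi Γ k)) ≤ 1 := by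
  let ev : LinearMap.ker (Psi Γ k) →ₗ[k] k :=
    ((LinearMap.proj ((1 : SL(2, ℤ)) : SL(2, ℤ) ⧸ Γ)).comp (LinearMap.snd k _ _)).comp
      (LinearMap.ker (Psi Γ k)).subtype
  have hinj : Function.Injective ev := by
    intro p q hp
    obtain ⟨h1, h2⟩ := mem_ker_Psi p.1 p.2
    obtain ⟨h1', h2'⟩ := mem_ker_Psi q.1 q.2
    apply Subtype.ext
    refine Prod.ext (h1.trans h1'.symm) (funext fun x => ?_)
    rw [h2 x, h2' x]
    exact hp
  have := LinearMap.finrank_le_finrank_of_injective hinj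
  simpa using this

/-- `PE` is finite dimensional. -/
theorem finiteDimensional_PE [Finite (SL(2, ℤ) ⧸ Γ)] : FiniteDimensional k (PE Γ k) := by
  let e : PE Γ k →ₗ[k] (((SL(2, ℤ) ⧸ Γ) → k) × ((SL(2, ℤ) ⧸ Γ) → k)) :=
    (LinearMap.prod (dLin Γ k ModularGroup.S) (dLin Γ k ModularGroup.T)).comp (LinearMap.inl k _ _)
  have hinj : Function.Injective e := by
    rw [← LinearMap.ker_eq_bot, LinearMap.ker_eq_bot']
    intro φ hφ
    have h1 : dA (φ : Additive Γ →+ k) 0 ModularGroup.S = 0 := congrArg Prod.fst hφ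
    have h2 : dA (φ : Additive Γ →+ k) 0 ModularGroup.T = 0 := congrArg Prod.snd hφ
    exact Subtype.ext (eq_zero_of_dA_eq_zero (φ : Additive Γ →+ k) 0
      (dA_eq_zero_of_S_T _ 0 (fun x => congrFun h1 x) (fun x => congrFun h2 x))).1
  exact FiniteDimensional.of_injective e hinj

variable [Fintype (SL(2, ℤ) ⧸ Γ)]

variable (Γ k) in
/-- the map `(a, b) ↦ (x ↦ b x - a (T x))`, which sends `(d(S), d(U))` to `d(T)`. -/
noncomputable def Theta :
    (Rg Γ k ModularGroup.S × Rg Γ k Umat) →ₗ[k] ((SL(2, ℤ) ⧸ Γ) → k) where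
  toFun p := fun x => (p.2 : (SL(2, ℤ) ⧸ Γ) → k) x - (p.1 : (SL(2, ℤ) ⧸ Γ) → k) (ModularGroup.T • x)
  map_add' p q := by
    funext x
    simp only [Prod.snd_add, Prod.fst_add, Submodule.coe_add, Pi.add_apply]
    ring
  map_smul' c p := by
    funext x
    simp only [Prod.smul_snd, Prod.smul_fst, Submodule.coe_smul, Pi.smul_apply, smul_eq_mul,
      RingHom.id_apply]
    ring

variable (Γ k) in
/-- the pairing with `T`-invariant functions. -/
noncomputable def pair :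
    ((SL(2, ℤ) ⧸ Γ) → k) →ₗ[k] Module.Dual k (Ig Γ k ModularGroup.T) where
  toFun u :=
    { toFun := fun l => ∑ x, (l : (SL(2, ℤ) ⧸ Γ) → k) x * u x
      map_add' := by
        intro l l'
        simp only [Submodule.coe_add, Pi.add_apply, add_mul, Finset.sum_add_distrib]
      map_smul' := by
        intro c l
        simp only [Submodule.coe_smul, Pi.smul_apply, smul_eq_mul, RingHom.id_apply,
          Finset.mul_sum, mul_assoc] }
  map_add' u v := by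
    ext l
    simp only [LinearMap.coe_mk, AddHom.coe_mk, Pi.add_apply, mul_add, Finset.sum_add_distrib,
      LinearMap.add_apply]
  map_smul' c u := by
    ext l
    simp only [LinearMap.coe_mk, AddHom.coe_mk, Pi.smul_apply, smul_eq_mul, RingHom.id_apply,
      LinearMap.smul_apply, Finset.mul_sum]
    refine Finset.sum_congr rfl fun x _ => ?_
    ring

variable (Γ k) in
/-- `Ξ = pair ∘ Θ`. -/
noncomputable def Xi :
    (Rg Γ k ModularGroup.S × Rg Γ k Umat) →ₗ[k] Module.Dual k (Ig Γ k ModularGroup.T) :=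
  (pair Γ k).comp (Theta Γ k)

lemma Xi_apply (p : Rg Γ k ModularGroup.S × Rg Γ k Umat) (l : Ig Γ k ModularGroup.T) :
    Xi Γ k p l = ∑ x, (l : (SL(2, ℤ) ⧸ Γ) → k) x *
      ((p.2 : (SL(2, ℤ) ⧸ Γ) → k) x - (p.1 : (SL(2, ℤ) ⧸ Γ) → k) (ModularGroup.T • x)) := rfl

lemma invariant_of_sum_eq_zero [DecidableEq (SL(2, ℤ) ⧸ Γ)] (g : SL(2, ℤ))
    (l : (SL(2, ℤ) ⧸ Γ) → k)
    (h : ∀ u : (SL(2, ℤ) ⧸ Γ) → k, ∑ x, l x * (u (g • x) - u x) = 0) (y : SL(2, ℤ) ⧸ Γ) :
    l (g • y) = l y := by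
  have h1 := h (Pi.single (g • y) 1)
  simp only [mul_sub, Finset.sum_sub_distrib] at h1
  have h2 : ∑ x, l x * (Pi.single (g • y) (1 : k) : (SL(2, ℤ) ⧸ Γ) → k) x = l (g • y) := by
    simp [Pi.single_apply]
  have h3 : ∑ x, l x * (Pi.single (g • y) (1 : k) : (SL(2, ℤ) ⧸ Γ) → k) (g • x) = l y := by
    simp [Pi.single_apply]
  rw [h2, h3] at h1
  linear_combination -h1

lemma const_of_Xi [DecidableEq (SL(2, ℤ) ⧸ Γ)] (l : Ig Γ k ModularGroup.T)
    (h : ∀ p, Xi Γ k p l = 0) (x : SL(2, ℤ) ⧸ Γ) :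
    (l : (SL(2, ℤ) ⧸ Γ) → k) x = (l : (SL(2, ℤ) ⧸ Γ) → k) ((1 : SL(2, ℤ)) : SL(2, ℤ) ⧸ Γ) := by
  have hU : ∀ y, (l : (SL(2, ℤ) ⧸ Γ) → k) (Umat • y) = (l : (SL(2, ℤ) ⧸ Γ) → k) y := by
    refine invariant_of_sum_eq_zero Umat _ fun u => ?_
    have := h (0, ⟨Dg Γ k Umat u, LinearMap.mem_range_self _ u⟩)
    rw [Xi_apply] at this
    simpa using this
  have hS : ∀ y, (l : (SL(2, ℤ) ⧸ Γ) → k) (ModularGroup.S • y)
      = (l : (SL(2, ℤ) ⧸ Γ) → k) y := by
    refine invariant_of_sum_eq_zero ModularGroup.S _ fun u => ?_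
    have := h (⟨Dg Γ k ModularGroup.S u, LinearMap.mem_range_self _ u⟩, 0)
    rw [Xi_apply] at this
    rw [← Equiv.sum_comp (MulAction.toPerm ModularGroup.T)]
    have h2 : ∀ x, (l : (SL(2, ℤ) ⧸ Γ) → k) (ModularGroup.T • x)
      = (l : (SL(2, ℤ) ⧸ Γ) → k) x := mem_Ig.mp l.2
    simp only [MulAction.toPerm_apply, h2]
    simp only [Submodule.coe_zero, Pi.zero_apply, zero_sub, mul_neg,
      Finset.sum_neg_distrib, neg_eq_zero, Dg_apply] at this
    exact this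
  refine (eq_zero_of_dA_eq_zero (0 : Additive Γ →+ k) (l : (SL(2, ℤ) ⧸ Γ) → k)
    (dA_eq_zero_of_S_U _ _ (fun y => ?_) (fun y => ?_))).2 x
  · simp [dA, hS]
  · simp [dA, hU]

lemma Xi_Psi_eq_zero (p : PE Γ k × ((SL(2, ℤ) ⧸ Γ) → k)) : Xi Γ k (Psi Γ k p) = 0 := by
  ext l
  rw [Xi_apply, LinearMap.zero_apply]
  obtain ⟨w, hw⟩ := dA_T_mem_Rg p.1.2 p.2
  have hl : ∀ x, (l : (SL(2, ℤ) ⧸ Γ) → k) (ModularGroup.T • x)
      = (l : (SL(2, ℤ) ⧸ Γ) → k) x := mem_Ig.mp l.2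
  have h1 : ∀ x, ((Psi Γ k p).2 : (SL(2, ℤ) ⧸ Γ) → k) x
      - ((Psi Γ k p).1 : (SL(2, ℤ) ⧸ Γ) → k) (ModularGroup.T • x)
      = w (ModularGroup.T • x) - w x := by
    intro x
    have h := dA_mul (p.1 : Additive Γ →+ k) p.2 ModularGroup.S ModularGroup.T x
    have h2 := congrFun hw x
    rw [Dg_apply] at h2
    show dA (p.1 : Additive Γ →+ k) p.2 Umat x
      - dA (p.1 : Additive Γ →+ k) p.2 ModularGroup.S (ModularGroup.T • x) = _
    rw [Umat, h, h2]
    ring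
  simp only [h1, mul_sub, Finset.sum_sub_distrib]
  rw [sub_eq_zero, ← Equiv.sum_comp (MulAction.toPerm ModularGroup.T)
    (fun x => (l : (SL(2, ℤ) ⧸ Γ) → k) x * w x)]
  refine Finset.sum_congr rfl fun x _ => ?_
  rw [MulAction.toPerm_apply, hl]

lemma finrank_coann_le [DecidableEq (SL(2, ℤ) ⧸ Γ)] :
    Module.finrank k (LinearMap.range (Xi Γ k)).dualCoannihilator ≤ 1 := by
  let ev : (LinearMap.range (Xi Γ k)).dualCoannihilator →ₗ[k] k :=
    ((LinearMap.proj ((1 : SL(2, ℤ)) : SL(2, ℤ) ⧸ Γ)).comp (Ig Γ k ModularGroup.T).subtype).comp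
      (LinearMap.range (Xi Γ k)).dualCoannihilator.subtype
  have hinj : Function.Injective ev := by
    intro l l' hl
    have hl2 : ∀ (l : (LinearMap.range (Xi Γ k)).dualCoannihilator) (p), Xi Γ k p l.1 = 0 := by
      intro l p
      have := l.2
      rw [Submodule.mem_dualCoannihilator] at this
      exact this _ (LinearMap.mem_range_self _ p)
    apply Subtype.ext
    apply Subtype.ext
    funext x
    rw [const_of_Xi l.1 (hl2 l) x, const_of_Xi l'.1 (hl2 l') x]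
    exact hl
  have := LinearMap.finrank_le_finrank_of_injective hinj
  simpa using this

lemma range_Psi_le : LinearMap.range (Psi Γ k) ≤ LinearMap.ker (Xi Γ k) := by
  rintro _ ⟨p, rfl⟩
  rw [LinearMap.mem_ker]
  exact Xi_Psi_eq_zero p

/-- the dimension bound over an arbitrary field. -/
theorem finrank_PE_le [DecidableEq (SL(2, ℤ) ⧸ Γ)] :
    Module.finrank k (PE Γ k) + Fintype.card (SL(2, ℤ) ⧸ Γ)
        + Module.finrank k (Ig Γ k ModularGroup.T)
      ≤ Module.finrank k (Rg Γ k ModularGroup.S) + Module.finrank k (Rg Γ k Umat) + 2 := by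
  have := finiteDimensional_PE (Γ := Γ) (k := k)
  have h1 := LinearMap.finrank_range_add_finrank_ker (Psi Γ k)
  have h2 : Module.finrank k (LinearMap.range (Psi Γ k)) ≤
      Module.finrank k (LinearMap.ker (Xi Γ k)) :=
    Submodule.finrank_mono range_Psi_le
  have h3 := finrank_ker_Psi_le (Γ := Γ) (k := k)
  have h4 := LinearMap.finrank_range_add_finrank_ker (Xi Γ k)
  have h5 := Subspace.finrank_add_finrank_dualCoannihilator_eq (LinearMap.range (Xi Γ k))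
  have h6 := finrank_coann_le (Γ := Γ) (k := k)
  rw [Module.finrank_prod, Module.finrank_fintype_fun_eq_card] at h1
  rw [Module.finrank_prod] at h4
  omega

end Fermat.Agent.S16.LCount
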