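import Fermat.Agent.S21.PartH
import Fermat.Prelude.Def_CuspForm_HeckeEvalForms
import Fermat.Prelude.Def_ModularCurve_ModularUnit
import Fermat.Prelude.Sol.S_ModularForm_heckeT_slash_eq_self_of_mem_Gamma0

set_option autoImplicit false

/-!
# S16, block D (lower bound `a ∈ I ∩ ℤ → n ∣ a`): shared definitions
-/

namespace Fermat.Agent.S16

open CongruenceSubgroup ModularCurve ModularCurve.Period UpperHalfPlane
open scoped MatrixGroups

/-- A homomorphism on `Γ` which kills the parabolic elements (`tr² = 4`) and the elements of order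
dividing `12` (these are all the elements of finite order of `SL(2,ℤ)`). -/
def IsPE (Γ : Subgroup SL(2, ℤ)) {A : Type*} [AddCommGroup A] (φ : Additive Γ →+ A) : Prop :=
  IsParabolicHom Γ φ ∧ ∀ γ : Γ, γ ^ 12 = 1 → φ (Additive.ofMul γ) = 0

/-- The (linear) period map `f ↦ (γ ↦ ∫_z^{γ z} f)` on cusp forms of weight 2. -/
noncomputable def Per (N : ℕ) [NeZero N] :
    CuspForm (Gamma0 N) 2 →ₗ[ℂ] (Additive (Gamma0 N) →+ ℂ) :=
  S21.perLin (Gamma0 N) ∘ₗ S21.PartH.cuspToMF N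

theorem Per_spec (N : ℕ) [NeZero N] (f : CuspForm (Gamma0 N) 2) (F : ℍ → ℂ)
    (hF : S21.IsPrim f F) (γ : Gamma0 N) (z : ℍ) :
    Per N f (Additive.ofMul γ) = F ((γ : SL(2, ℤ)) • z) - F z :=
  S21.perLin_spec (Gamma0 N) (S21.PartH.cuspToMF N f) F hF γ z

theorem Per_isParabolicHom (N : ℕ) [NeZero N] (f : CuspForm (Gamma0 N) 2) :
    IsParabolicHom (Gamma0 N) (Per N f) :=
  S21.perLin_mem_parabolicHoms _ (S21.PartH.cuspToMF_isCF N f)

/-- The lattice `H¹(X₀(N), ℤ)` inside `S₂(Γ₀(N))`: forms all of whose periods have integral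
real part. -/
def Lam (N : ℕ) [NeZero N] : AddSubgroup (CuspForm (Gamma0 N) 2) where
  carrier := {f | ∀ γ : Additive (Gamma0 N), ∃ m : ℤ, (Per N f γ).re = m}
  zero_mem' := fun γ => ⟨0, by simp⟩
  add_mem' := by
    intro f g hf hg γ
    obtain ⟨m, hm⟩ := hf γ
    obtain ⟨m', hm'⟩ := hg γ
    exact ⟨m + m', by simp [hm, hm']⟩
  neg_mem' := by
    intro f hf γ
    obtain ⟨m, hm⟩ := hf γ
    exact ⟨-m, by simp [hm]⟩

theorem mem_Lam {N : ℕ} [NeZero N] {f : CuspForm (Gamma0 N) 2} :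
    f ∈ Lam N ↔ ∀ γ : Additive (Gamma0 N), ∃ m : ℤ, (Per N f γ).re = m := Iff.rfl

end Fermat.Agent.S16
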