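import Fermat.Agent.S16.LevelOneFormal

/-!
# S16, level-one block: level one forms which are constant modulo `ℓ ≥ 5`
-/

set_option autoImplicit false

namespace Fermat.Agent.S16

open UpperHalfPlane ModularForm
open scoped MatrixGroups

namespace LevelOne

open MvPolynomial

lemma aeval_map_cst {S κ : Type*} [CommRing S] [Field κ] (φ : S →+* κ)
    (f : MvPolynomial (Fin 3) S) :
    aeval ![cst κ E4q, cst κ E6q, cst κ Dq] (map φ f) =
      PowerSeries.map φ (aeval ![cst S E4q, cst S E6q, cst S Dq] f) := by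
  induction f using MvPolynomial.induction_on with
  | C a =>
    rw [map_C, aeval_C, aeval_C]
    show PowerSeries.C (φ a) = PowerSeries.map φ (PowerSeries.C a)
    rw [PowerSeries.map_C]
  | add p q hp hq => simp only [map_add, hp, hq]
  | mul_X p i hp =>
    simp only [map_mul, hp, map_X, aeval_X]
    congr 1
    fin_cases i
    · exact (cst_map φ E4q).symm
    · exact (cst_map φ E6q).symm
    · exact (cst_map φ Dq).symm

/-- reduction of a level one form modulo `ℓ ≥ 5` as an isobaric polynomial in `E₄, E₆` -/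
theorem exists_isobaric_mod (ℓ : ℕ) [Fact ℓ.Prime] (hℓ : 5 ≤ ℓ)
    {S : Type*} [CommRing S] (ι : S →+* ℂ) (hι : Function.Injective ι)
    {κ : Type*} [Field κ] [CharP κ ℓ] (φ : S →+* κ)
    {k : ℤ} (k' : ℕ) (hk : k = k') (F : ModularForm 𝒮ℒ k) (g : PowerSeries S)
    (hg : g.map ι = qExpansion 1 F) :
    ∃ f : MvPolynomial (Fin 2) κ, f.IsWeightedHomogeneous ![4, 6] k' ∧ ev κ f = g.map φ := by
  obtain ⟨f₃, hf₃, hev₃⟩ := levelOne_structure ι hι k' hk F g hg
  obtain ⟨n2, n3⟩ := two_three_ne_zero (κ := κ) ℓ hℓ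
  have c1 : (1728 : κ) ≠ 0 := by
    have : (1728 : κ) = 2 ^ 6 * 3 ^ 3 := by norm_num
    rw [this]
    exact mul_ne_zero (pow_ne_zero _ n2) (pow_ne_zero _ n3)
  have hf₃' : (map φ f₃).IsWeightedHomogeneous ![4, 6, 12] k' := by
    intro d hd
    rw [coeff_map] at hd
    exact hf₃ fun h => hd (by rw [h, map_zero])
  set h : Fin 3 → MvPolynomial (Fin 2) κ := ![X 0, X 1, C (1728⁻¹) * (X 0 ^ 3 - X 1 ^ 2)] with hh
  have hiso : ∀ i, (h i).IsWeightedHomogeneous ![4, 6] ((![4, 6, 12] : Fin 3 → ℕ) i) := by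
    intro i
    fin_cases i
    · exact isWeightedHomogeneous_X κ ![4, 6] 0
    · exact isWeightedHomogeneous_X κ ![4, 6] 1
    · exact (((isWeightedHomogeneous_X κ ![4, 6] 0).pow 3).sub
        ((isWeightedHomogeneous_X κ ![4, 6] 1).pow 2)).C_mul _
  refine ⟨aeval h (map φ f₃), isobaric_aeval hiso hf₃', ?_⟩
  rw [← hev₃, ← aeval_map_cst, ← AlgHom.comp_apply, comp_aeval]
  congr 2
  funext i
  fin_cases i
  · exact ev_X0
  · exact ev_X1
  · show ev κ (C (1728⁻¹) * (X 0 ^ 3 - X 1 ^ 2)) = cst κ Dq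
    rw [map_mul, map_sub, map_pow, map_pow, ev_X0, ev_X1, ev_C, disc_eq, ← mul_assoc,
      ← map_ofNat (PowerSeries.C (R := κ)) 1728, ← map_mul, inv_mul_cancel₀ c1, map_one, one_mul]

end LevelOne

/-- **(L2)** a level one form of weight `2 ℓ ^ a` which is constant modulo `ℓ ≥ 5` vanishes
modulo `ℓ`. -/
theorem levelOne_const_mod_descent (ℓ : ℕ) [Fact ℓ.Prime] (hℓ : 5 ≤ ℓ)
    {S : Type*} [CommRing S] (ι : S →+* ℂ) (hι : Function.Injective ι)
    {κ : Type*} [Field κ] [CharP κ ℓ] (φ : S →+* κ)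
    {k : ℤ} (a : ℕ) (hk : k = 2 * (ℓ : ℤ) ^ a) (F : ModularForm 𝒮ℒ k) (g : PowerSeries S)
    (hg : g.map ι = qExpansion 1 F) (hn : ∀ n, n ≠ 0 → φ (g.coeff n) = 0) :
    φ (g.coeff 0) = 0 := by
  obtain ⟨f, hf, hev⟩ := LevelOne.exists_isobaric_mod ℓ hℓ ι hι φ (2 * ℓ ^ a)
    (by rw [hk]; push_cast; ring) F g hg
  refine LevelOne.const_eq_zero_of_weight ℓ hℓ a f hf _ ?_
  rw [hev]
  ext n
  rw [PowerSeries.coeff_map, PowerSeries.coeff_C]
  split_ifs with h
  · rw [h]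
  · exact hn n h

end Fermat.Agent.S16
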