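import Fermat.Agent.S24.JFunQ

/-!
# S16, level-one block: the integral `q`-series `E₂, E₄, E₆, Δ`
-/

set_option autoImplicit false

namespace Fermat.Agent.S16

/-- `E₂ = 1 - 24 ∑ σ₁(n) qⁿ` -/
noncomputable def E2q : PowerSeries ℤ :=
  PowerSeries.mk fun n => if n = 0 then 1 else -24 * ∑ d ∈ n.divisors, (d : ℤ)

/-- `E₄ = 1 + 240 ∑ σ₃(n) qⁿ` -/
noncomputable def E4q : PowerSeries ℤ := ModularCurve.eisenstein4

/-- `E₆ = 1 - 504 ∑ σ₅(n) qⁿ` -/
noncomputable def E6q : PowerSeries ℤ :=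
  PowerSeries.mk fun n => if n = 0 then 1 else -504 * ∑ d ∈ n.divisors, (d : ℤ) ^ 5

/-- `Δ = q ∏ (1 - qⁿ)²⁴` -/
noncomputable def Dq : PowerSeries ℤ := PowerSeries.X * ModularCurve.dedekindEtaUnit

/-- the image of an integral series in `A⟦q⟧` -/
noncomputable abbrev cst (A : Type*) [CommRing A] (f : PowerSeries ℤ) : PowerSeries A :=
  f.map (Int.castRingHom A)

end Fermat.Agent.S16
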