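import Fermat.Agent.S16.LevelOneStruct

/-!
# S16, level-one block: formal theory of isobaric polynomials in `E₄, E₆` over a field of
characteristic `ℓ ≥ 5`
-/

set_option autoImplicit false

namespace Fermat.Agent.S16

namespace LevelOne

open MvPolynomial

section formal

variable {κ : Type*} [Field κ]

/-- evaluation `X₀ ↦ E₄`, `X₁ ↦ E₆` -/
noncomputable def ev (κ : Type*) [Field κ] : MvPolynomial (Fin 2) κ →ₐ[κ] PowerSeries κ :=
  aeval ![cst κ E4q, cst κ E6q]

@[simp] lemma ev_X0 : ev κ (X 0) = cst κ E4q := by simp [ev]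
@[simp] lemma ev_X1 : ev κ (X 1) = cst κ E6q := by simp [ev]
@[simp] lemma ev_C (c : κ) : ev κ (C c) = PowerSeries.C c := by
  simp [ev]

lemma ram4 : 3 * theta κ (cst κ E4q) = cst κ E2q * cst κ E4q - cst κ E6q := by
  have := congrArg (cst κ) ramanujan_E4
  simpa only [cst, map_mul, map_sub, ← theta_map, map_ofNat] using this

lemma ram6 : 2 * theta κ (cst κ E6q) = cst κ E2q * cst κ E6q - cst κ E4q ^ 2 := by
  have := congrArg (cst κ) ramanujan_E6
  simpa only [cst, map_mul, map_sub, map_pow, ← theta_map, map_ofNat] using this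

lemma disc_eq : cst κ E4q ^ 3 - cst κ E6q ^ 2 = 1728 * cst κ Dq := by
  have := congrArg (cst κ) E4q_cube_sub_E6q_sq
  simpa only [cst, map_mul, map_sub, map_pow, map_ofNat] using this

lemma cst_Dq_ne_zero' : cst κ Dq ≠ 0 := by
  intro h
  have := Dq_mul_inv (S := κ)
  rw [h, zero_mul] at this
  exact PowerSeries.X_ne_zero this.symm

/-- chain rule -/
lemma theta_ev (f : MvPolynomial (Fin 2) κ) :
    theta κ (ev κ f) = ev κ (pderiv 0 f) * theta κ (cst κ E4q) +
      ev κ (pderiv 1 f) * theta κ (cst κ E6q) := by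
  induction f using MvPolynomial.induction_on with
  | C a => simp [theta_apply]
  | add p q hp hq => simp only [map_add, hp, hq]; ring
  | mul_X p i hp =>
    rw [map_mul, Derivation.leibniz, hp, Derivation.leibniz, Derivation.leibniz]
    simp only [smul_eq_mul, map_add, map_mul]
    fin_cases i
    · simp
      ring
    · simp
      ring

/-- Euler -/
lemma euler_ev {f : MvPolynomial (Fin 2) κ} {k : ℕ} (hf : f.IsWeightedHomogeneous ![4, 6] k) :
    4 * cst κ E4q * ev κ (pderiv 0 f) + 6 * cst κ E6q * ev κ (pderiv 1 f) = k * ev κ f := by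
  have := congrArg (ev κ) hf.sum_weight_X_mul_pderiv
  simp only [Fin.sum_univ_two, map_add, map_nsmul, map_mul, ev_X0, ev_X1] at this
  simp only [Matrix.cons_val_zero, Matrix.cons_val_one, nsmul_eq_mul] at this
  rw [← this]
  push_cast
  ring

lemma weight_eq (d : Fin 2 →₀ ℕ) : Finsupp.weight ![4, 6] d = 4 * d 0 + 6 * d 1 := by
  rw [Finsupp.weight_apply, Finsupp.sum_fintype _ _ (by simp), Fin.sum_univ_two]
  simp [mul_comm]

lemma pderiv_isobaric {f : MvPolynomial (Fin 2) κ} {k : ℕ}
    (hf : f.IsWeightedHomogeneous ![4, 6] k) (i : Fin 2) :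
    ∃ k₁, (k₁ < k ∨ pderiv i f = 0) ∧ (pderiv i f).IsWeightedHomogeneous ![4, 6] k₁ := by
  by_cases h : (![4, 6] : Fin 2 → ℕ) i ≤ k
  · refine ⟨k - (![4, 6] : Fin 2 → ℕ) i, Or.inl ?_, hf.pderiv (Nat.sub_add_cancel h)⟩
    have : 0 < (![4, 6] : Fin 2 → ℕ) i := by fin_cases i <;> simp
    omega
  · have h0 : pderiv i f = 0 := by
      ext m
      rw [coeff_pderiv, coeff_zero]
      by_contra hne
      have h1 : coeff (m + Finsupp.single i 1) f ≠ 0 := left_ne_zero_of_mul hne
      have h2 := hf h1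
      rw [map_add, Finsupp.weight_single] at h2
      apply h
      rw [← h2]
      simp
    exact ⟨0, Or.inr h0, h0 ▸ isWeightedHomogeneous_zero _ _ _⟩

section char

variable (ℓ : ℕ) [hℓ : Fact ℓ.Prime] [CharP κ ℓ]

include ℓ in
lemma natCast_ne_zero_of_lt {n : ℕ} (h0 : 0 < n) (hn : n < ℓ) : (n : κ) ≠ 0 := by
  rw [Ne, CharP.cast_eq_zero_iff κ ℓ]
  exact fun h => absurd (Nat.le_of_dvd h0 h) (by omega)

include ℓ in
lemma two_three_ne_zero (h5 : 5 ≤ ℓ) : (2 : κ) ≠ 0 ∧ (3 : κ) ≠ 0 := by
  have h2 := natCast_ne_zero_of_lt (κ := κ) ℓ (n := 2) (by norm_num) (by omega)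
  have h3 := natCast_ne_zero_of_lt (κ := κ) ℓ (n := 3) (by norm_num) (by omega)
  exact ⟨by exact_mod_cast h2, by exact_mod_cast h3⟩

lemma ps_C_mul_eq_zero {c : κ} (hc : c ≠ 0) {x : PowerSeries κ}
    (h : PowerSeries.C c * x = 0) : x = 0 := by
  rcases mul_eq_zero.mp h with h | h
  · exact absurd ((map_eq_zero_iff _ PowerSeries.C_injective).mp h) hc
  · exact h

include ℓ in
/-- the Jacobian argument -/
lemma ev_pderiv_eq_zero (h5 : 5 ≤ ℓ) {f : MvPolynomial (Fin 2) κ} {k : ℕ}
    (hf : f.IsWeightedHomogeneous ![4, 6] k) (h1 : theta κ (ev κ f) = 0)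
    (h2 : (k : PowerSeries κ) * ev κ f = 0) :
    ev κ (pderiv 0 f) = 0 ∧ ev κ (pderiv 1 f) = 0 := by
  obtain ⟨n2, n3⟩ := two_three_ne_zero (κ := κ) ℓ h5
  have e1 := theta_ev f
  have e2 := euler_ev hf
  rw [h1] at e1
  rw [h2] at e2
  set u := ev κ (pderiv 0 f)
  set v := ev κ (pderiv 1 f)
  have r4 := ram4 (κ := κ)
  have r6 := ram6 (κ := κ)
  have rd := disc_eq (κ := κ)
  set Q := cst κ E4q
  set R := cst κ E6q
  set P := cst κ E2q
  set D := cst κ Dq
  have e3 : 4 * R * u + 6 * Q ^ 2 * v = 0 := by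
    linear_combination P * e2 + 12 * e1 + 4 * u * r4 + 6 * v * r6
  have hv : PowerSeries.C (6 * 1728 : κ) * (D * v) = 0 := by
    have : (6 * 1728 : PowerSeries κ) * (D * v) = 0 := by
      linear_combination Q * e3 - R * e2 - 6 * v * rd
    rw [map_mul, map_ofNat, map_ofNat]
    exact this
  have hu : PowerSeries.C (4 * 1728 : κ) * (D * u) = 0 := by
    have : (4 * 1728 : PowerSeries κ) * (D * u) = 0 := by
      linear_combination Q ^ 2 * e2 - R * e3 - 4 * u * rd
    rw [map_mul, map_ofNat, map_ofNat]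
    exact this
  have c1 : (6 * 1728 : κ) ≠ 0 := by
    have : (6 * 1728 : κ) = 2 ^ 7 * 3 ^ 4 := by norm_num
    rw [this]
    exact mul_ne_zero (pow_ne_zero _ n2) (pow_ne_zero _ n3)
  have c2 : (4 * 1728 : κ) ≠ 0 := by
    have : (4 * 1728 : κ) = 2 ^ 8 * 3 ^ 3 := by norm_num
    rw [this]
    exact mul_ne_zero (pow_ne_zero _ n2) (pow_ne_zero _ n3)
  have hD : D ≠ 0 := cst_Dq_ne_zero'
  exact ⟨(mul_eq_zero.mp (ps_C_mul_eq_zero c2 hu)).resolve_left hD,
    (mul_eq_zero.mp (ps_C_mul_eq_zero c1 hv)).resolve_left hD⟩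

/-- Frobenius on series with coefficients in the prime field -/
lemma cst_pow_char (F : PowerSeries ℤ) :
    cst κ F ^ ℓ = PowerSeries.expand ℓ hℓ.out.ne_zero (cst κ F) := by
  have : ExpChar κ ℓ := ExpChar.prime hℓ.out
  have h := MvPowerSeries.map_frobenius_expand ℓ hℓ.out.ne_zero (f := cst κ F)
  rw [MvPowerSeries.map_expand] at h
  have h2 : MvPowerSeries.map (frobenius κ ℓ) (cst κ F) = cst κ F := by
    show PowerSeries.map (frobenius κ ℓ) (cst κ F) = cst κ F
    exact cst_map _ F
  rw [h2] at h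
  exact h.symm

lemma ev_expand (g : MvPolynomial (Fin 2) κ) :
    ev κ (expand ℓ g) = PowerSeries.expand ℓ hℓ.out.ne_zero (ev κ g) := by
  rw [ev, aeval_expand, ← AlgHom.comp_apply, comp_aeval]
  congr 2
  funext i
  fin_cases i
  · exact cst_pow_char ℓ E4q
  · exact cst_pow_char ℓ E6q

lemma ps_expand_injective {x y : PowerSeries κ}
    (h : PowerSeries.expand ℓ hℓ.out.ne_zero x = PowerSeries.expand ℓ hℓ.out.ne_zero y) :
    x = y := by
  ext n
  rw [← PowerSeries.coeff_expand_mul ℓ hℓ.out.ne_zero x, h, PowerSeries.coeff_expand_mul]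

/-- a polynomial with vanishing partial derivatives is a polynomial in the `ℓ`-th powers -/
lemma exists_expand {f : MvPolynomial (Fin 2) κ} (hd : ∀ i, pderiv i f = 0) :
    ∃ g : MvPolynomial (Fin 2) κ, f = expand ℓ g ∧
      (∀ k, f.IsWeightedHomogeneous ![4, 6] k → f ≠ 0 → ℓ ∣ k) ∧
      ∀ k k', f.IsWeightedHomogeneous ![4, 6] k → ℓ * k' = k →
        g.IsWeightedHomogeneous ![4, 6] k' := by
  classical
  have hdvd : ∀ d ∈ f.support, ∀ i, ℓ ∣ d i := by
    intro d hd' i
    by_cases h0 : d i = 0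
    · rw [h0]; exact dvd_zero _
    have h1 : d = (d - Finsupp.single i 1) + Finsupp.single i 1 := by
      ext j
      by_cases hj : j = i
      · subst hj
        simp
        omega
      · simp [Ne.symm hj]
    have h2 := coeff_pderiv f (d - Finsupp.single i 1) (i := i)
    rw [hd i, coeff_zero, ← h1] at h2
    have h3 : (((d - Finsupp.single i 1 : Fin 2 →₀ ℕ) i : ℕ) : κ) + 1 = (d i : κ) := by
      have : (d - Finsupp.single i 1 : Fin 2 →₀ ℕ) i + 1 = d i := by
        simp
        omega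
      exact_mod_cast congrArg (Nat.cast : ℕ → κ) this
    rw [h3] at h2
    have h4 : (d i : κ) = 0 :=
      (mul_eq_zero.mp h2.symm).resolve_left (mem_support_iff.mp hd')
    exact (CharP.cast_eq_zero_iff κ ℓ _).mp h4
  have hsm : ∀ d ∈ f.support, ℓ • (d.mapRange (· / ℓ) (Nat.zero_div ℓ)) = d := by
    intro d hd'
    ext i
    simp only [Finsupp.smul_apply, Finsupp.mapRange_apply, smul_eq_mul]
    exact Nat.mul_div_cancel' (hdvd d hd' i)
  refine ⟨∑ d ∈ f.support, monomial (d.mapRange (· / ℓ) (Nat.zero_div ℓ)) (coeff d f), ?_, ?_, ?_⟩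
  · rw [map_sum]
    conv_lhs => rw [← support_sum_monomial_coeff f]
    refine Finset.sum_congr rfl fun d hd' => ?_
    rw [expand_monomial, hsm d hd']
  · intro k hk hf0
    obtain ⟨d, hd'⟩ : f.support.Nonempty := by
      rw [Finset.nonempty_iff_ne_empty, Ne, support_eq_empty]
      exact hf0
    have := hk (mem_support_iff.mp hd')
    rw [← hsm d hd', map_nsmul] at this
    exact ⟨_, this.symm⟩
  · intro k k' hk hkk
    refine IsWeightedHomogeneous.sum _ _ _ fun d hd' => isWeightedHomogeneous_monomial _ _ _ ?_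
    have := hk (mem_support_iff.mp hd')
    rw [← hsm d hd', map_nsmul, ← hkk, smul_eq_mul] at this
    exact Nat.eq_of_mul_eq_mul_left hℓ.out.pos this

include ℓ in
/-- **injectivity of the `q`-expansion on isobaric polynomials** -/
theorem ev_injective_isobaric (h5 : 5 ≤ ℓ) : ∀ (k : ℕ) (f : MvPolynomial (Fin 2) κ),
    f.IsWeightedHomogeneous ![4, 6] k → ev κ f = 0 → f = 0 := by
  intro k
  induction k using Nat.strong_induction_on with
  | _ k ih =>
    intro f hf hev
    have hJ := ev_pderiv_eq_zero ℓ h5 hf (by rw [hev, map_zero]) (by rw [hev, mul_zero])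
    have hd : ∀ i, pderiv i f = 0 := by
      intro i
      obtain ⟨k₁, h1, h2⟩ := pderiv_isobaric hf i
      rcases h1 with h1 | h1
      · refine ih k₁ h1 _ h2 ?_
        fin_cases i
        · exact hJ.1
        · exact hJ.2
      · exact h1
    obtain ⟨g, hg, hdvd, hiso⟩ := exists_expand ℓ hd
    by_contra hf0
    obtain ⟨k', rfl⟩ := hdvd k hf hf0
    have hgev : ev κ g = 0 := by
      apply ps_expand_injective ℓ
      rw [← ev_expand, ← hg, hev, map_zero]
    rcases Nat.eq_zero_or_pos k' with rfl | hk'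
    · -- weight zero: constants
      have huniq : ∀ d : Fin 2 →₀ ℕ, Finsupp.weight ![4, 6] d = ℓ * 0 → d = 0 := by
        intro d hd'
        rw [weight_eq, mul_zero] at hd'
        ext i
        fin_cases i
        · show d 0 = 0
          omega
        · show d 1 = 0
          omega
      have h1 := hf.eq_monomial_of_unique_weight huniq
      have h2 : f = C (coeff 0 f) := h1
      rw [h2, ev_C] at hev
      have h3 : coeff 0 f = 0 := (map_eq_zero_iff _ PowerSeries.C_injective).mp hev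
      rw [h3, map_zero] at h2
      exact hf0 h2
    · have hlt : k' < ℓ * k' := by
        have := hℓ.out.two_le
        nlinarith
      have := ih k' hlt g (hiso _ _ hf rfl) hgev
      rw [this, map_zero] at hg
      exact hf0 hg

include ℓ in
/-- **descent**: a constant of weight `ℓ k'` is a constant of weight `k'` -/
theorem descent (h5 : 5 ≤ ℓ) {k' : ℕ} {f : MvPolynomial (Fin 2) κ}
    (hf : f.IsWeightedHomogeneous ![4, 6] (ℓ * k')) {u : κ} (hev : ev κ f = PowerSeries.C u) :
    ∃ g : MvPolynomial (Fin 2) κ, g.IsWeightedHomogeneous ![4, 6] k' ∧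
      ev κ g = PowerSeries.C u := by
  have hJ := ev_pderiv_eq_zero ℓ h5 hf (by rw [hev, theta_apply]; simp) (by
    have : ((ℓ * k' : ℕ) : PowerSeries κ) = 0 := by
      have h0 : ((ℓ * k' : ℕ) : κ) = 0 := by
        rw [CharP.cast_eq_zero_iff κ ℓ]
        exact dvd_mul_right _ _
      rw [← map_natCast (PowerSeries.C (R := κ)), h0, map_zero]
    rw [this, zero_mul])
  have hd : ∀ i, pderiv i f = 0 := by
    intro i
    obtain ⟨k₁, -, h2⟩ := pderiv_isobaric hf i
    refine ev_injective_isobaric ℓ h5 k₁ _ h2 ?_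
    fin_cases i
    · exact hJ.1
    · exact hJ.2
  obtain ⟨g, hg, -, hiso⟩ := exists_expand ℓ hd
  refine ⟨g, hiso _ _ hf rfl, ?_⟩
  apply ps_expand_injective ℓ
  rw [← ev_expand, ← hg, hev, PowerSeries.expand_C]

include ℓ in
/-- no non-zero constant of weight `2 ℓ ^ a` -/
theorem const_eq_zero_of_weight (h5 : 5 ≤ ℓ) : ∀ (a : ℕ) (f : MvPolynomial (Fin 2) κ),
    f.IsWeightedHomogeneous ![4, 6] (2 * ℓ ^ a) → ∀ u : κ, ev κ f = PowerSeries.C u → u = 0 := by
  intro a
  induction a with
  | zero =>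
    intro f hf u hev
    have h0 : f = 0 := hf.eq_zero_of_no_monomials fun d => by
      rw [weight_eq, pow_zero]
      omega
    rw [h0, map_zero] at hev
    exact (map_eq_zero_iff _ PowerSeries.C_injective).mp hev.symm
  | succ a ih =>
    intro f hf u hev
    have hf' : f.IsWeightedHomogeneous ![4, 6] (ℓ * (2 * ℓ ^ a)) := by
      convert hf using 1
      ring
    obtain ⟨g, hg, hgev⟩ := descent ℓ h5 hf' hev
    exact ih g hg u hgev

end char

/-- substitution of isobaric polynomials in an isobaric polynomial -/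
lemma isobaric_aeval {σ τ : Type*} {w : σ → ℕ} {w' : τ → ℕ} {h : σ → MvPolynomial τ κ}
    (hh : ∀ i, (h i).IsWeightedHomogeneous w' (w i)) {f : MvPolynomial σ κ} {k : ℕ}
    (hf : f.IsWeightedHomogeneous w k) : (aeval h f).IsWeightedHomogeneous w' k := by
  induction hf using IsWeightedHomogeneous.induction_on with
  | zero => rw [map_zero]; exact isWeightedHomogeneous_zero _ _ _
  | add p q hp hq ihp ihq => rw [map_add]; exact ihp.add ihq
  | monomial d r hr =>
    rw [aeval_monomial]
    have h1 : (d.prod fun i e => h i ^ e).IsWeightedHomogeneous w' k := by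
      rw [← hr, Finsupp.weight_apply]
      exact IsWeightedHomogeneous.prod _ _ _ fun i _ => (hh i).pow _
    exact h1.C_mul r

end formal

end LevelOne

end Fermat.Agent.S16
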