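import Fermat.Agent.S16.LevelOneSeries

/-!
# S16, level-one block: a level one form with `q`-expansion in `S⟦q⟧` is an isobaric polynomial
in `E₄, E₆, Δ` with coefficients in `S`
-/

set_option autoImplicit false

namespace Fermat.Agent.S16

open UpperHalfPlane ModularForm Filter Fermat.Agent.S21 Fermat.Agent.S23 Fermat.Agent.S24
open scoped MatrixGroups Manifold Topology

namespace LevelOne

lemma isMF_mem_niceAlg {k : ℤ} {a : ℍ → ℂ} (ha : IsMF ⊤ k a) : a ∈ niceAlg :=
  mem_niceAlg one_mem_strictPeriods_SL ha.toLevelOne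

lemma cst_map {A B : Type*} [CommRing A] [CommRing B] (φ : A →+* B) (f : PowerSeries ℤ) :
    (cst A f).map φ = cst B f := by
  ext n
  simp [cst]

lemma constantCoeff_cst {A : Type*} [CommRing A] (f : PowerSeries ℤ) :
    PowerSeries.constantCoeff (cst A f) = (PowerSeries.constantCoeff f : ℤ) := by
  rw [← PowerSeries.coeff_zero_eq_constantCoeff_apply, PowerSeries.coeff_map,
    PowerSeries.coeff_zero_eq_constantCoeff_apply]
  rfl

lemma exists_four_six {k : ℕ} (hk : Even k) (h4 : 4 ≤ k) : ∃ x y : ℕ, 4 * x + 6 * y = k := by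
  obtain ⟨m, rfl⟩ := hk
  rcases Nat.even_or_odd' m with ⟨c, rfl | rfl⟩
  · exact ⟨c, 0, by ring⟩
  · exact ⟨c - 1, 1, by omega⟩

lemma Dq_mul_inv {S : Type*} [CommRing S] :
    cst S Dq * cst S ModularCurve.dedekindEtaUnitInv = PowerSeries.X := by
  have h := congrArg (cst S) ModularCurve.dedekindEtaUnit_mul_inv
  simp only [cst, map_mul, map_one] at h
  simp only [cst, Dq, map_mul, PowerSeries.map_X]
  rw [mul_assoc, h, mul_one]

lemma cst_Dq_ne_zero : cst ℂ Dq ≠ 0 := by
  intro h
  have := Dq_mul_inv (S := ℂ)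
  rw [h, zero_mul] at this
  exact PowerSeries.X_ne_zero this.symm

theorem structure_aux {S : Type*} [CommRing S] (ι : S →+* ℂ) (hι : Function.Injective ι) :
    ∀ (k' : ℕ) (a : ℍ → ℂ), IsMF ⊤ (k' : ℤ) a → ∀ g : PowerSeries S,
      g.map ι = qExpansion 1 a →
      ∃ f : MvPolynomial (Fin 3) S, f.IsWeightedHomogeneous ![4, 6, 12] k' ∧
        MvPolynomial.aeval ![cst S E4q, cst S E6q, cst S Dq] f = g := by
  have hinj : Function.Injective (PowerSeries.map ι) := PowerSeries.map_injective _ hι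
  have hzero : ∀ (k' : ℕ) (g : PowerSeries S), g.map ι = qExpansion 1 (0 : ℍ → ℂ) →
      ∃ f : MvPolynomial (Fin 3) S, f.IsWeightedHomogeneous ![4, 6, 12] k' ∧
        MvPolynomial.aeval ![cst S E4q, cst S E6q, cst S Dq] f = g := by
    intro k' g hg
    refine ⟨0, MvPolynomial.isWeightedHomogeneous_zero _ _ _, ?_⟩
    rw [map_zero]
    apply hinj
    rw [hg, qExpansion_zero, map_zero]
  intro k'
  induction k' using Nat.strong_induction_on with
  | _ k' ih =>
    intro a ha g hg
    rcases Nat.even_or_odd k' with hev | hodd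
    swap
    · have : a = 0 := isMF_eq_zero_of_odd (Subgroup.mem_top _) (by exact_mod_cast hodd) ha
      subst this
      exact hzero k' g hg
    by_cases h4 : k' < 4
    · obtain rfl | rfl : k' = 0 ∨ k' = 2 := by
        obtain ⟨m, rfl⟩ := hev
        omega
      · obtain ⟨c, rfl⟩ := isMF_const_of_weight_zero (by simpa using ha)
        refine ⟨MvPolynomial.C (g.coeff 0), MvPolynomial.isWeightedHomogeneous_C _ _, ?_⟩
        rw [MvPolynomial.aeval_C]
        apply hinj
        have h1 : qExpansion 1 (fun _ : ℍ => c) = PowerSeries.C c := by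
          have := qHom.commutes c
          rw [qHom_apply] at this
          exact this
        rw [hg, h1]
        have h2 : ι (g.coeff 0) = c := by
          have := congrArg (PowerSeries.coeff 0) hg
          rw [h1] at this
          simpa using this
        have h3 : algebraMap S (PowerSeries S) (g.coeff 0) = PowerSeries.C (g.coeff 0) := rfl
        rw [h3, PowerSeries.map_C, h2]
      · have : a = 0 := isMF_top_two_eq_zero (by simpa using ha)
        subst this
        exact hzero 2 g hg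
    push Not at h4
    obtain ⟨x, y, hxy⟩ := exists_four_six hev h4
    set c0 := g.coeff 0 with hc0
    set g₁ : PowerSeries S := g - PowerSeries.C c0 * (cst S E4q ^ x * cst S E6q ^ y) with hg₁
    have hmon : IsMF ⊤ (k' : ℤ) ((E₄ : ℍ → ℂ) ^ x * (E₆ : ℍ → ℂ) ^ y) :=
      ((PartA2.IsMF.pow isMF_E4 x).mul (PartA2.IsMF.pow isMF_E6 y)).congr_wt (by rw [← hxy]; push_cast; ring)
    set b : ℍ → ℂ := a - (ι c0) • ((E₄ : ℍ → ℂ) ^ x * (E₆ : ℍ → ℂ) ^ y) with hb
    have hbMF : IsMF ⊤ (k' : ℤ) b := ha.sub (hmon.smul _)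
    have hbq : qExpansion 1 b = g₁.map ι := by
      have h1 : (⟨b, isMF_mem_niceAlg hbMF⟩ : niceAlg) = ⟨a, isMF_mem_niceAlg ha⟩ -
          (ι c0) • (⟨_, E4_mem⟩ ^ x * ⟨_, E6_mem⟩ ^ y) := rfl
      have h2 := qExp_eq_of_eq h1
      simp only [map_sub, map_smul, map_mul, map_pow, qHom_apply, qExpansion_E4,
        qExpansion_E6] at h2
      rw [h2, hg₁, map_sub, map_mul, map_mul, map_pow, map_pow, cst_map, cst_map, hg,
        PowerSeries.map_C, PowerSeries.smul_eq_C_mul]
    have hg₁0 : PowerSeries.constantCoeff g₁ = 0 := by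
      rw [hg₁, map_sub, map_mul, map_mul, map_pow, map_pow, constantCoeff_cst, constantCoeff_cst,
        constantCoeff_E4q, constantCoeff_E6q]
      simp [hc0]
    have hbt : Tendsto b atImInfty (𝓝 0) := by
      have := tendsto_of_mem_niceAlg (isMF_mem_niceAlg hbMF)
      rw [hbq, PowerSeries.coeff_map, PowerSeries.coeff_zero_eq_constantCoeff_apply, hg₁0,
        map_zero] at this
      exact this
    obtain ⟨h, hhMF, hbh⟩ := PartA2.exists_eq_discriminant_mul hbMF hbt
    have hmonW : (MvPolynomial.C c0 * (MvPolynomial.X 0 ^ x * MvPolynomial.X 1 ^ y) :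
        MvPolynomial (Fin 3) S).IsWeightedHomogeneous ![4, 6, 12] k' := by
      have := (((MvPolynomial.isWeightedHomogeneous_X S ![4, 6, 12] 0).pow x).mul
        ((MvPolynomial.isWeightedHomogeneous_X S ![4, 6, 12] 1).pow y)).C_mul c0
      convert this using 1
      simp
      omega
    have hmonE : MvPolynomial.aeval ![cst S E4q, cst S E6q, cst S Dq]
        (MvPolynomial.C c0 * (MvPolynomial.X 0 ^ x * MvPolynomial.X 1 ^ y)) =
        PowerSeries.C c0 * (cst S E4q ^ x * cst S E6q ^ y) := by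
      simp
    by_cases h12 : k' < 12
    · have h0 : h = 0 := isMF_eq_zero_of_neg (by omega) hhMF
      have hg₁z : g₁ = 0 := by
        apply hinj
        rw [← hbq, hbh, h0, mul_zero, qExpansion_zero, map_zero]
      refine ⟨_, hmonW, ?_⟩
      rw [hmonE]
      rw [hg₁, sub_eq_zero] at hg₁z
      exact hg₁z.symm
    · push Not at h12
      obtain ⟨k'', rfl⟩ : ∃ k'', k' = k'' + 12 := ⟨k' - 12, by omega⟩
      obtain ⟨g₂, hg₂⟩ := PowerSeries.X_dvd_iff.mpr hg₁0
      set g₃ := g₂ * cst S ModularCurve.dedekindEtaUnitInv with hg₃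
      have hD3 : cst S Dq * g₃ = g₁ := by
        rw [hg₃, mul_left_comm, Dq_mul_inv, hg₂, mul_comm]
      have hhMF' : IsMF ⊤ (k'' : ℤ) h := hhMF.congr_wt (by push_cast; ring)
      have hq3 : g₃.map ι = qExpansion 1 h := by
        have h1 : (⟨b, isMF_mem_niceAlg hbMF⟩ : niceAlg) =
            ⟨_, discriminant_mem⟩ * ⟨h, isMF_mem_niceAlg hhMF'⟩ := Subtype.ext hbh
        have h2 := qExp_eq_of_eq h1
        simp only [map_mul, qHom_apply, qExpansion_D] at h2
        rw [hbq, ← hD3, map_mul, cst_map] at h2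
        exact mul_left_cancel₀ cst_Dq_ne_zero h2
      obtain ⟨f', hf'W, hf'E⟩ := ih k'' (by omega) h hhMF' g₃ hq3
      refine ⟨MvPolynomial.C c0 * (MvPolynomial.X 0 ^ x * MvPolynomial.X 1 ^ y) +
        MvPolynomial.X 2 * f', hmonW.add ?_, ?_⟩
      · have := (MvPolynomial.isWeightedHomogeneous_X S ![4, 6, 12] 2).mul hf'W
        convert this using 1
        simp
        omega
      · rw [map_add, hmonE, map_mul, hf'E, MvPolynomial.aeval_X]
        show _ + cst S Dq * g₃ = g
        rw [hD3, hg₁]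
        ring

end LevelOne

/-- **(L1)** -/
theorem levelOne_structure {S : Type*} [CommRing S] (ι : S →+* ℂ) (hι : Function.Injective ι)
    {k : ℤ} (k' : ℕ) (hk : k = k') (F : ModularForm 𝒮ℒ k) (g : PowerSeries S)
    (hg : g.map ι = qExpansion 1 F) :
    ∃ f : MvPolynomial (Fin 3) S, f.IsWeightedHomogeneous ![4, 6, 12] k' ∧
      MvPolynomial.aeval ![cst S E4q, cst S E6q, cst S Dq] f = g :=
  LevelOne.structure_aux ι hι k' F ((isMF_top_coe F).congr_wt hk) g hg

end Fermat.Agent.S16
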