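import Fermat.Agent.S16.Pair
import Fermat.Agent.S24.UT

/-!
# S16, package NORM: the norm from `Γ₀(p)` to level one and its `q^(1/p)`-expansion
-/

set_option autoImplicit false

namespace Fermat.Agent.S16

open UpperHalfPlane ModularForm CongruenceSubgroup Fermat.Agent.S21 Fermat.Agent.S23
  Fermat.Agent.S23.Prim Filter
open scoped MatrixGroups Manifold Topology

local notation "S" => ModularGroup.S
local notation "T" => ModularGroup.T

lemma prod_slash_SL {ι : Type*} (k : ℤ) (s : Finset ι) (f : ι → ℍ → ℂ) (γ : SL(2, ℤ)) :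
    (∏ i ∈ s, f i) ∣[k * s.card] γ = ∏ i ∈ s, f i ∣[k] γ := by
  rw [SL_slash, ModularForm.prod_slash]
  simp [SL_slash]

theorem normF_mul (p : ℕ) (k l : ℤ) (F G : ℍ → ℂ) :
    normF p (k + l) (F * G) = normF p k F * normF p l G := by
  unfold normF
  simp_rw [mul_slash_SL2]
  rw [Finset.prod_mul_distrib]
  ring

lemma prod_zmod_val {p : ℕ} [NeZero p] {M : Type*} [CommMonoid M] (f : ℕ → M) :
    ∏ b : ZMod p, f b.val = ∏ i ∈ Finset.range p, f i := by
  refine Finset.prod_bij (fun b _ => b.val) ?_ ?_ ?_ ?_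
  · intro b _
    exact Finset.mem_range.mpr (ZMod.val_lt b)
  · intro a _ b _ h
    exact ZMod.val_injective p h
  · intro i hi
    exact ⟨(i : ZMod p), Finset.mem_univ _, ZMod.val_cast_of_lt (Finset.mem_range.mp hi)⟩
  · intro b _
    rfl

/-- the product of the `p` conjugates at the other cusp -/
noncomputable def nrU (p : ℕ) [NeZero p] (k : ℤ) (F : ℍ → ℂ) : ℍ → ℂ :=
  ∏ b : ZMod p, cj k F (b.val : ℤ)

lemma normF_eq (p : ℕ) [NeZero p] (k : ℤ) (F : ℍ → ℂ) : normF p k F = F * nrU p k F := by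
  rw [normF, nrU, prod_zmod_val (fun i : ℕ => cj k F (i : ℤ))]
  congr 1
  refine Finset.prod_congr rfl fun b _ => ?_
  rw [cj, zpow_natCast]

section
variable {p : ℕ} [hp : Fact p.Prime] {k : ℤ} {F : ℍ → ℂ}

lemma nrU_slash (γ : SL(2, ℤ)) :
    nrU p k F ∣[k * p] γ = ∏ b : ZMod p, cj k F (b.val : ℤ) ∣[k] γ := by
  have := prod_slash_SL k (Finset.univ : Finset (ZMod p)) (fun b => cj k F (b.val : ℤ)) γ
  rwa [Finset.card_univ, ZMod.card] at this

lemma nrU_slash_T (hF : IsMF (Gamma0 p) k F) : nrU p k F ∣[k * p] T = nrU p k F := by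
  rw [nrU_slash]
  unfold nrU
  simp_rw [cj_slash_T]
  rw [← Equiv.prod_comp (Equiv.addRight (1 : ZMod p)) (fun b : ZMod p => cj k F (b.val : ℤ))]
  refine Finset.prod_congr rfl fun b _ => ?_
  refine (cj_congr hF ?_).symm
  apply dvd_val_sub
  simp

lemma normF_slash_T (hF : IsMF (Gamma0 p) k F) :
    normF p k F ∣[k + k * p] T = normF p k F := by
  rw [normF_eq, mul_slash_SL2, nrU_slash_T hF, hF.inv _ (T_mem p)]

lemma normF_slash_S (hF : IsMF (Gamma0 p) k F) :
    normF p k F ∣[k + k * p] S = normF p k F := by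
  rw [normF_eq, mul_slash_SL2, nrU_slash]
  unfold nrU
  rw [← Finset.mul_prod_erase Finset.univ _ (Finset.mem_univ (0 : ZMod p)),
    ← Finset.mul_prod_erase Finset.univ (fun b : ZMod p => cj k F (b.val : ℤ))
      (Finset.mem_univ (0 : ZMod p))]
  simp only [ZMod.val_zero, Nat.cast_zero]
  rw [cj_zero_slash_S hF, ← cj_zero]
  have key : ∏ x ∈ Finset.univ.erase (0 : ZMod p), cj k F (x.val : ℤ) ∣[k] S =
      ∏ x ∈ Finset.univ.erase (0 : ZMod p), cj k F (x.val : ℤ) := by
    refine Finset.prod_nbij' (fun b => -b⁻¹) (fun b => -b⁻¹) ?_ ?_ ?_ ?_ ?_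
    · intro b hb
      simp only [Finset.mem_erase, Finset.mem_univ, and_true] at hb ⊢
      simpa using hb
    · intro b hb
      simp only [Finset.mem_erase, Finset.mem_univ, and_true] at hb ⊢
      simpa using hb
    · intro b _
      simp
    · intro b _
      simp
    · intro b hb
      simp only [Finset.mem_erase, Finset.mem_univ, and_true] at hb
      refine cj_slash_S hF ?_
      rw [← ZMod.intCast_zmod_eq_zero_iff_dvd]
      push_cast
      rw [ZMod.natCast_zmod_val, ZMod.natCast_zmod_val]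
      field_simp
      ring
  rw [key]
  ring

theorem isMF_normF (hF : IsMF (Gamma0 p) k F) : IsMF ⊤ (k * (p + 1)) (normF p k F) := by
  have hw : k * ((p : ℤ) + 1) = k + k * p := by ring
  rw [hw]
  have hinv : ∀ γ : SL(2, ℤ), normF p k F ∣[k + k * p] γ = normF p k F :=
    SlashInvariantForm.slash_action_generators_SL2Z (normF_slash_S hF) (normF_slash_T hF)
  refine ⟨?_, fun γ _ => hinv γ, fun g => ?_⟩
  · rw [normF_eq]
    refine hF.holo.mul ?_
    unfold nrU
    exact MDifferentiable.prod (t := Finset.univ) fun b _ => cj_mdiff hF _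
  · rw [hinv g, normF_eq]
    have h1 : IsBoundedAtImInfty F := by simpa using hF.bdd 1
    refine h1.mul ?_
    have h2 : (∏ b : ZMod p, cj k F (b.val : ℤ)) ∈ Filter.boundedFilterSubalgebra ℂ atImInfty :=
      Subalgebra.prod_mem _ fun i _ => cj_bdd hF _
    exact h2

/-! ### the `q^(1/p)`-expansion -/

open Fermat.Agent.S24 in
lemma mem_nice_one {g : ℍ → ℂ} (hg : g ∈ niceAlg) : g ∈ nice 1 :=
  ⟨by simpa using hg.1, hg.2.1, hg.2.2⟩

omit hp in
lemma zetaP_pow_eq (b : ℕ) :
    Complex.exp (2 * Real.pi * Complex.I * ((b : ℤ) : ℂ) / ((p : ℤ) : ℂ)) = zetaP p ^ b := by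
  rw [zetaP, ← Complex.exp_nat_mul]
  congr 1
  push_cast
  ring

open Fermat.Agent.S24 in
theorem IsPair.norm {A B : PowerSeries ℂ} (h : IsPair p k F A B) : ∃ n : PowerSeries ℂ,
    IsL1 (k * (p + 1)) (normF p k F) n ∧
      Vp p n = Vp p A * ∏ b ∈ Finset.range p, PowerSeries.rescale (zetaP p ^ b) B := by
  have hpos : (0 : ℤ) < p := by exact_mod_cast hp.out.pos
  have hN := isMF_normF h.isMF
  refine ⟨qExpansion 1 (normF p k F), ⟨hN, rfl⟩, ?_⟩
  -- the three kinds of elements of `nice 1`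
  let N1 : S24.nice 1 := ⟨normF p k F, mem_nice_one (mem_niceAlg_of_isMF_top hN)⟩
  let F1 : S24.nice 1 := ⟨F, mem_nice_one h.nice⟩
  let G1 : S24.nice 1 := ⟨sharp p k F, mem_nice_one h.nice0⟩
  have hd1 : (1 : ℤ) * (p : ℕ) = 1 * (p : ℕ) := rfl
  have hdp : (1 : ℤ) * (p : ℕ) = (p : ℤ) * (1 : ℕ) := by simp
  have hid : ∀ τ : ℍ, utZ 1 0 1 one_pos one_pos • τ = τ := by
    intro τ
    ext
    rw [coe_utZ_smul]
    simp
  have hub : ∀ (b : ℕ) (τ : ℍ), utZ 1 b p one_pos hpos • τ = ub p b • τ := by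
    intro b τ
    ext
    rw [coe_utZ_smul, coe_ub_smul]
    simp
  have key : utNice 1 0 1 one_pos one_pos p ⟨p, hd1⟩ N1 =
      utNice 1 0 1 one_pos one_pos p ⟨p, hd1⟩ F1 *
        ∏ b ∈ Finset.range p, utNice 1 b p one_pos hpos p ⟨1, hdp⟩ G1 := by
    apply Subtype.ext
    funext τ
    rw [utNice_apply, hid]
    simp only [MulMemClass.coe_mul, Pi.mul_apply, utNice_apply, hid, SubmonoidClass.coe_finsetProd,
      Finset.prod_apply]
    show normF p k F τ = F τ * ∏ b ∈ Finset.range p, sharp p k F (utZ 1 b p one_pos hpos • τ)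
    rw [normF, Pi.mul_apply, Finset.prod_apply]
    congr 1
    refine Finset.prod_congr rfl fun b _ => ?_
    rw [hub, ← cj_apply, cj, zpow_natCast]
  have key2 := congrArg (S24.qHom p) key
  rw [map_mul, map_prod] at key2
  have e1 : ∀ (X : S24.nice 1), S24.qHom p (utNice 1 0 1 one_pos one_pos p ⟨p, hd1⟩ X) =
      Vp p (qExpansion 1 X.1) := by
    intro X
    ext n
    rw [qHom_utNice_coeff 1 0 1 one_pos one_pos p p hd1, coeff_Vp]
    split_ifs
    · simp [S24.qHom]
    · rfl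
  have e2 : ∀ b : ℕ, S24.qHom p (utNice 1 b p one_pos hpos p ⟨1, hdp⟩ G1) =
      PowerSeries.rescale (zetaP p ^ b) B := by
    intro b
    ext n
    rw [qHom_utNice_coeff 1 b p one_pos hpos p 1 hdp, PowerSeries.coeff_rescale, if_pos (one_dvd n),
      Nat.div_one, zetaP_pow_eq, ← h.qexp0']
    simp [S24.qHom, G1, mul_comm]
  rw [e1, e1] at key2
  simp_rw [e2] at key2
  rw [← h.qexp]
  exact key2

end

end Fermat.Agent.S16
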