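import Fermat.Agent.S16.Defs
import Fermat.Agent.S20.PartC1
import Fermat.Prelude.Thm_ModularForm_sturm_bound_Gamma0

set_option autoImplicit false

namespace Fermat.Agent.S16

open UpperHalfPlane ModularForm CongruenceSubgroup
open scoped MatrixGroups

/-- SMALLP: there are no cusp forms of weight 2 and level 2 or 3. -/
theorem cuspForm_eq_zero_of_le_three (p : ℕ) [Fact p.Prime] (hp : p ≤ 3)
    (f : CuspForm (Gamma0 p) 2) : f = 0 := by
  have hpp : p.Prime := Fact.out
  have hidx : (Gamma0 p).index ≤ 4 := by
    have h := S20.PartC1.index_Gamma0_mul 1 p hpp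
    rw [one_mul, if_neg (by simpa using hpp.one_lt.ne')] at h
    have h1 : (Gamma0 1).index = 1 := by
      have := S20.index_Gamma0 1
      simpa using this
    rw [h, h1]
    omega
  have h1 : (1 : ℝ) ∈ (Gamma0 p : Subgroup (GL (Fin 2) ℝ)).strictPeriods := by
    simp [CongruenceSubgroup.strictPeriods_Gamma0]
  have key : (CuspForm.toModularFormₗ f) = 0 := by
    apply ModularForm.sturm_bound_Gamma0 p
    intro n hn
    have hn0 : n = 0 := by
      omega
    subst hn0
    exact CuspFormClass.qExpansion_coeff_zero f one_pos h1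
  exact CuspForm.toModularFormₗ_injective (by rw [key, _root_.map_zero])

end Fermat.Agent.S16
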