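import Fermat.Agent.S16.Formal
import Fermat.Agent.S16.Eis
import Fermat.Agent.S16.SmallP
import Fermat.Prelude.Def_ModularCurve_ModularUnit

set_option autoImplicit false

/-!
# S16, NUM: the upper bound in `q`-expansion form
-/

namespace Fermat.Agent.S16

open UpperHalfPlane ModularForm CongruenceSubgroup
open scoped MatrixGroups
open CuspForm ModularCurve

namespace Num

/-- the numerical heart: `24 ℓ^r / (p - 1) ∈ M ℤ_(ℓ)` as soon as `ℓ^r ∤ n` and `M g ∣ 24 ℓ`. -/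
theorem exists_mem_Zloc (p : ℕ) (hp : 2 ≤ p) (ℓ r M : ℕ) [Fact ℓ.Prime]
    (hM : M * Nat.gcd (p - 1) 12 ∣ 24 * ℓ) (hnot : ¬ ℓ ^ r ∣ eisensteinNumerator p) :
    ∃ y ∈ Zloc ℓ, (((p : ℂ) - 1) / 24)⁻¹ * (ℓ : ℂ) ^ r = (M : ℂ) * y := by
  have hℓ : ℓ.Prime := Fact.out
  set g := Nat.gcd (p - 1) 12 with hg
  have hg0 : 0 < g := Nat.gcd_pos_of_pos_right _ (by norm_num)
  have hgd : g ∣ p - 1 := Nat.gcd_dvd_left _ _
  have hn : eisensteinNumerator p * g = p - 1 := Nat.div_mul_cancel hgd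
  have hn0 : eisensteinNumerator p ≠ 0 := by
    intro h
    rw [h, zero_mul] at hn
    omega
  obtain ⟨v, n', hn', hnv⟩ := Nat.exists_eq_pow_mul_and_not_dvd hn0 ℓ hℓ.ne_one
  have hvr : v < r := by
    by_contra hcon
    push Not at hcon
    exact hnot (hnv ▸ Dvd.dvd.mul_right (pow_dvd_pow ℓ hcon) n')
  obtain ⟨e, rfl⟩ : ∃ e, r = v + 1 + e := ⟨r - v - 1, by omega⟩
  obtain ⟨t, ht⟩ := hM
  refine ⟨(t : ℂ) * (ℓ : ℂ) ^ e * ((n' : ℂ))⁻¹, ?_, ?_⟩
  · exact (Zloc ℓ).mul_mem ((Zloc ℓ).mul_mem (natCast_mem _ t)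
      ((Zloc ℓ).pow_mem (natCast_mem _ ℓ) e)) (inv_natCast_mem_Zloc ℓ hn')
  · have hn'0 : (n' : ℂ) ≠ 0 := by
      intro h
      have : n' = 0 := by exact_mod_cast h
      exact hn' (this ▸ dvd_zero _)
    have hp1 : ((p : ℂ) - 1) = (ℓ : ℂ) ^ v * n' * g := by
      have : ((p - 1 : ℕ) : ℂ) = (ℓ : ℂ) ^ v * n' * g := by
        rw [← hn, hnv]; push_cast; ring
      rw [← this, Nat.cast_sub (by omega)]; simp
    have hℓ0 : (ℓ : ℂ) ≠ 0 := by exact_mod_cast hℓ.ne_zero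
    have hgc : (g : ℂ) ≠ 0 := by exact_mod_cast hg0.ne'
    have ht' : (24 : ℂ) * ℓ = M * g * t := by exact_mod_cast ht
    rw [hp1]
    field_simp
    rw [pow_add, pow_add, pow_one]
    linear_combination (ℓ : ℂ) ^ v * (ℓ : ℂ) ^ e * ht'

theorem dvd_six {g : ℕ} (h : g ∣ 12) (h4 : ¬ 4 ∣ g) : g ∣ 6 := by
  have hle : g ≤ 12 := Nat.le_of_dvd (by norm_num) h
  interval_cases g <;> revert h h4 <;> decide

theorem dvd_four {g : ℕ} (h : g ∣ 12) (h3 : ¬ 3 ∣ g) : g ∣ 4 := by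
  have hle : g ≤ 12 := Nat.le_of_dvd (by norm_num) h
  interval_cases g <;> revert h h3 <;> decide

end Num

variable (p : ℕ) [Fact p.Prime]

/-- the normalised form `H = c⁻¹ (E' - f)` is `≡ 1 mod M`. -/
theorem Num.exists_pair (hp : 2 ≤ p) (f : CuspForm (Gamma0 p) 2) (ℓ r : ℕ) [Fact ℓ.Prime] (a : ℕ → ℤ)
    (ha : ∀ k, (qExpansion 1 f).coeff k = a k)
    (hc : ∀ k, 1 ≤ k → ((ℓ : ℤ) ^ r) ∣ a k - sigmaP p k)
    (hnot : ¬ ℓ ^ r ∣ eisensteinNumerator p) :
    ∃ (H : ℍ → ℂ) (A B : PowerSeries ℂ), IsPair p 2 H A B ∧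
      ∀ M : ℕ, M * Nat.gcd (p - 1) 12 ∣ 24 * ℓ → Cong (Zloc ℓ) (M : ℂ) A 1 := by
  obtain ⟨E, B₁, hE⟩ := exists_eis p
  obtain ⟨B₂, hf⟩ := isPair_cusp f
  set c : ℂ := ((p : ℂ) - 1) / 24 with hcdef
  have hc0 : c ≠ 0 := by
    have : (p : ℂ) - 1 ≠ 0 := by
      rw [sub_ne_zero]
      have : p ≠ 1 := by omega
      exact_mod_cast this
    rw [hcdef]
    exact div_ne_zero this (by norm_num)
  refine ⟨_, _, _, (hE.sub hf).smul c⁻¹, fun M hM => ?_⟩
  obtain ⟨y, hy, hyM⟩ := Num.exists_mem_Zloc p hp ℓ r M hM hnot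
  rw [cong_iff_coeff]
  intro k
  have h1 : (1 : ℝ) ∈ (Gamma0 p : Subgroup (GL (Fin 2) ℝ)).strictPeriods := by
    simp [CongruenceSubgroup.strictPeriods_Gamma0]
  rcases Nat.eq_zero_or_pos k with rfl | hk
  · refine ⟨0, (Zloc ℓ).zero_mem, ?_⟩
    have h0 : (qExpansion 1 f).coeff 0 = 0 := CuspFormClass.qExpansion_coeff_zero f one_pos h1
    simp only [PowerSeries.coeff_C_mul, map_sub, map_add, h0, deltaS, PowerSeries.coeff_mk,
      PowerSeries.coeff_zero_C, PowerSeries.coeff_zero_one, sigmaP]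
    simp [hc0]
  · obtain ⟨m, hm⟩ := hc k hk
    refine ⟨-(m : ℂ) * y, (Zloc ℓ).mul_mem ((Zloc ℓ).neg_mem (intCast_mem _ m)) hy, ?_⟩
    have hk0 : k ≠ 0 := hk.ne'
    have hm' : (a k : ℂ) - (sigmaP p k : ℂ) = (ℓ : ℂ) ^ r * m := by exact_mod_cast hm
    simp only [PowerSeries.coeff_C_mul, map_sub, map_add, ha, deltaS, PowerSeries.coeff_mk,
      PowerSeries.coeff_C, PowerSeries.coeff_one, if_neg hk0, zero_add, sub_zero]
    linear_combination (-c⁻¹) * hm' - (m : ℂ) * hyM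

/-- NUM: the upper bound in `q`-expansion form, from the four arithmetic cases. -/
theorem Num.no_congruence_of
    (caseA : ∀ {H : ℍ → ℂ} {A B : PowerSeries ℂ} (ℓ : ℕ) [Fact ℓ.Prime], 5 ≤ ℓ → IsPair p 2 H A B →
      Cong (Zloc ℓ) ℓ A 1 → False)
    (sign : ∀ {H : ℍ → ℂ} {A B : PowerSeries ℂ}, 5 ≤ p → ∀ (ℓ s : ℕ) [Fact ℓ.Prime], ℓ ≠ p →
      ℓ ^ s ∣ 504 → IsPair p 2 H A B → Cong (Zloc ℓ) ((ℓ : ℂ) ^ s) A 1 → ℓ ^ s ∣ p ^ 3 + 1)
    (case3 : ∀ {H : ℍ → ℂ} {A B : PowerSeries ℂ}, p % 3 = 2 → IsPair p 2 H A B →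
      Cong (Zloc 3) 9 A 1 → False)
    (case2 : ∀ {H : ℍ → ℂ} {A B : PowerSeries ℂ}, p % 8 = 7 → IsPair p 2 H A B →
      Cong (Zloc 2) 8 A 1 → False)
    (f : CuspForm (Gamma0 p) 2) (ℓ r : ℕ) [Fact ℓ.Prime] (a : ℕ → ℤ)
    (ha : ∀ k, (qExpansion 1 f).coeff k = a k)
    (hc : ∀ k, 1 ≤ k → ((ℓ : ℤ) ^ r) ∣ a k - sigmaP p k) : ℓ ^ r ∣ eisensteinNumerator p := by
  have hpp : p.Prime := Fact.out
  have hℓ : ℓ.Prime := Fact.out
  by_cases hp3 : p ≤ 3
  · -- no cusp forms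
    have hf := cuspForm_eq_zero_of_le_three p hp3 f
    have h1 := hc 1 le_rfl
    have ha1 : a 1 = 0 := by
      have := ha 1
      rw [hf] at this
      have h0 : (qExpansion 1 ((0 : CuspForm (Gamma0 p) 2) : ℍ → ℂ)).coeff 1 = 0 := by
        have : ((0 : CuspForm (Gamma0 p) 2) : ℍ → ℂ) = 0 := rfl
        rw [this, qExpansion_zero]; simp
      rw [h0] at this
      exact_mod_cast this.symm
    have hs : sigmaP p 1 = 1 := by
      have : ¬ p ∣ 1 := by simpa using hpp.one_lt.ne'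
      simp [sigmaP, this]
    rw [ha1, hs] at h1
    have h2 : ((ℓ : ℤ) ^ r) ∣ 1 := by simpa using h1
    have h3 : ℓ ^ r ∣ 1 := by exact_mod_cast h2
    exact h3.trans (one_dvd _)
  push Not at hp3
  have hp5 : 5 ≤ p := by
    rcases Nat.lt_or_ge p 5 with h | h
    · have : p = 4 := by omega
      subst this
      exact absurd hpp (by norm_num)
    · exact h
  by_contra hnot
  obtain ⟨H, A, B, hH, hcong⟩ := Num.exists_pair p (by omega) f ℓ r a ha hc hnot
  set g := Nat.gcd (p - 1) 12 with hg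
  have hg12 : g ∣ 12 := Nat.gcd_dvd_right _ _
  have hgp : g ∣ p - 1 := Nat.gcd_dvd_left _ _
  have hodd : p % 2 = 1 := by
    rcases hpp.eq_two_or_odd with h | h
    · omega
    · exact h
  rcases Nat.lt_or_ge ℓ 5 with hℓ5 | hℓ5
  · have hℓ23 : ℓ = 2 ∨ ℓ = 3 := by
      have := hℓ.two_le
      interval_cases ℓ
      · left; rfl
      · right; rfl
      · exact absurd hℓ (by norm_num)
    rcases hℓ23 with rfl | rfl
    · -- ℓ = 2
      rcases (by omega : p % 4 = 1 ∨ p % 4 = 3) with h4 | h4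
      · have hA := hcong 4 ((Nat.mul_dvd_mul_left 4 hg12).trans (by norm_num))
        have hA' : Cong (Zloc 2) (((2 : ℕ) : ℂ) ^ 2) A 1 := by
          convert hA using 1; norm_num
        have := sign hp5 2 2 (by omega) (by norm_num) hH hA'
        have h5 : (p ^ 3 + 1) % 4 = 2 := by
          have : p ^ 3 % 4 = 1 := by
            rw [Nat.pow_mod, h4]
          omega
        omega
      · have hg6 : g ∣ 6 := by
          have h4g : ¬ 4 ∣ g := fun h => by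
            have := h.trans hgp
            omega
          exact Num.dvd_six hg12 h4g
        have hA := hcong 8 ((Nat.mul_dvd_mul_left 8 hg6).trans (by norm_num))
        have hA' : Cong (Zloc 2) (((2 : ℕ) : ℂ) ^ 3) A 1 := by
          convert hA using 1; norm_num
        have h8 := sign hp5 2 3 (by omega) (by norm_num) hH hA'
        have hp8 : p % 8 = 7 := by
          have h9 : (p ^ 3 + 1) % 8 = 0 := Nat.mod_eq_zero_of_dvd (by simpa using h8)
          rcases (by omega : p % 8 = 3 ∨ p % 8 = 7) with h | h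
          · have : p ^ 3 % 8 = 3 := by rw [Nat.pow_mod, h]
            omega
          · exact h
        exact case2 hp8 hH (by exact_mod_cast hA)
    · -- ℓ = 3
      have hp3' : p % 3 ≠ 0 := by
        intro h
        have := (Nat.prime_dvd_prime_iff_eq Nat.prime_three hpp).mp (Nat.dvd_of_mod_eq_zero h)
        omega
      rcases (by omega : p % 3 = 1 ∨ p % 3 = 2) with h3 | h3
      · have hA := hcong 3 ((Nat.mul_dvd_mul_left 3 hg12).trans (by norm_num))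
        have hA' : Cong (Zloc 3) (((3 : ℕ) : ℂ) ^ 1) A 1 := by
          convert hA using 1; norm_num
        have := sign hp5 3 1 (by omega) (by norm_num) hH hA'
        have h5 : (p ^ 3 + 1) % 3 = 2 := by
          have : p ^ 3 % 3 = 1 := by
            rw [Nat.pow_mod, h3]
          omega
        omega
      · have hg4 : g ∣ 4 := by
          have h3g : ¬ 3 ∣ g := fun h => by
            have := h.trans hgp
            omega
          exact Num.dvd_four hg12 h3g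
        have hA := hcong 9 ((Nat.mul_dvd_mul_left 9 hg4).trans (by norm_num))
        exact case3 h3 hH (by exact_mod_cast hA)
  · -- ℓ ≥ 5
    have hA := hcong ℓ ((Nat.mul_dvd_mul_left ℓ hg12).trans ⟨2, by ring⟩)
    exact caseA ℓ hℓ5 hH hA

end Fermat.Agent.S16
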