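import Fermat.Agent.S16.LevelOneDefs
import Fermat.Agent.S24.JFunOrd

/-!
# S16, package LVL1: the triangular basis `Δ^i E₄^{3(m-i)}` of `M_{12m}(SL₂(ℤ))`, integrally

* `tri_zero`: formal triangularity over any commutative ring;
* `exists_tri`: a level one form of weight `12 m` whose `q`-coefficients lie in a subring `A ⊆ ℂ`
  is an `A`-linear combination of the `Δ^i E₄^{3(m-i)}`;
* `exists_tri_int`: the version for `A = ℤ`, with the identity of integral power series.
-/

set_option autoImplicit false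

namespace Fermat.Agent.S16.Tri

open UpperHalfPlane ModularForm Filter CongruenceSubgroup Fermat.Agent.S21 Fermat.Agent.S23
open scoped MatrixGroups Manifold Topology

local notation "ι" => PowerSeries.map (Int.castRingHom ℂ)

section formal

variable {R : Type*} [CommRing R]

lemma coeff_tri_lt (u E : PowerSeries R) {i n : ℕ} (e : ℕ) (h : n < i) :
    ((PowerSeries.X * u) ^ i * E ^ e).coeff n = 0 := by
  rw [mul_pow, mul_assoc, PowerSeries.coeff_X_pow_mul', if_neg (not_le.mpr h)]

lemma coeff_tri_self {u E : PowerSeries R} (hu : PowerSeries.constantCoeff u = 1)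
    (hE : PowerSeries.constantCoeff E = 1) (i e : ℕ) :
    ((PowerSeries.X * u) ^ i * E ^ e).coeff i = 1 := by
  rw [mul_pow, mul_assoc, PowerSeries.coeff_X_pow_mul', if_pos le_rfl, Nat.sub_self,
    PowerSeries.coeff_zero_eq_constantCoeff]
  simp [hu, hE]

/-- Formal triangularity: if the first `r` coefficients of `∑ x_i (Xu)^i E^{e_i}` vanish, then
`x_i = 0` for `i < r`. -/
theorem tri_zero {u E : PowerSeries R} (hu : PowerSeries.constantCoeff u = 1)
    (hE : PowerSeries.constantCoeff E = 1) (m : ℕ) (e : ℕ → ℕ) (x : ℕ → R) (r : ℕ)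
    (hr : r ≤ m + 1)
    (h : ∀ n < r, (∑ i ∈ Finset.range (m + 1),
      PowerSeries.C (x i) * ((PowerSeries.X * u) ^ i * E ^ (e i))).coeff n = 0) :
    ∀ i < r, x i = 0 := by
  intro i
  induction i using Nat.strong_induction_on with
  | _ i ih =>
    intro hi
    have h1 := h i hi
    rw [map_sum, Finset.sum_eq_single i] at h1
    · rwa [PowerSeries.coeff_C_mul, coeff_tri_self hu hE, mul_one] at h1
    · intro j _ hji
      rw [PowerSeries.coeff_C_mul]
      rcases lt_or_gt_of_ne hji with hlt | hgt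
      · rw [ih j hlt (hlt.trans hi), zero_mul]
      · rw [coeff_tri_lt u E _ hgt, mul_zero]
    · intro hni
      exact absurd (Finset.mem_range.mpr (lt_of_lt_of_le hi hr)) hni

end formal

/-- power series over `ℂ` all of whose coefficients lie in the subring `A` -/
noncomputable def coeffsIn (A : Subring ℂ) : Subring (PowerSeries ℂ) := (PowerSeries.map A.subtype).range

lemma mem_coeffsIn {A : Subring ℂ} {s : PowerSeries ℂ} :
    s ∈ coeffsIn A ↔ ∀ n, s.coeff n ∈ A := by
  constructor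
  · rintro ⟨t, rfl⟩ n
    simp
  · intro h
    refine ⟨PowerSeries.mk fun n => ⟨s.coeff n, h n⟩, ?_⟩
    ext n
    simp

lemma map_int_mem_coeffsIn (A : Subring ℂ) (a : PowerSeries ℤ) : ι a ∈ coeffsIn A := by
  rw [mem_coeffsIn]
  intro n
  rw [PowerSeries.coeff_map]
  exact intCast_mem A _

lemma C_mem_coeffsIn {A : Subring ℂ} {c : ℂ} (hc : c ∈ A) : PowerSeries.C c ∈ coeffsIn A := by
  rw [mem_coeffsIn]
  intro n
  rw [PowerSeries.coeff_C]
  split_ifs
  · exact hc
  · exact zero_mem A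

lemma isMF_top_mem_niceAlg {k : ℤ} {F : ℍ → ℂ} (hF : IsMF ⊤ k F) : F ∈ niceAlg :=
  mem_niceAlg one_mem_strictPeriods_SL hF.toLevelOne

lemma qExpansion_discriminant_eq : qExpansion 1 discriminant = ι Dq := by
  rw [S24.qExpansion_discriminant, Dq, map_mul, PowerSeries.map_X]

lemma qExpansion_E4_eq : qExpansion 1 E₄ = ι E4q := S24.qExpansion_E4

lemma qExpansion_mul_nice {f g : ℍ → ℂ} (hf : f ∈ niceAlg) (hg : g ∈ niceAlg) :
    qExpansion 1 (f * g) = qExpansion 1 f * qExpansion 1 g :=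
  qExpansion_mul (analyticAt_of_mem_niceAlg hf) (analyticAt_of_mem_niceAlg hg)

lemma qExpansion_add_nice {f g : ℍ → ℂ} (hf : f ∈ niceAlg) (hg : g ∈ niceAlg) :
    qExpansion 1 (f + g) = qExpansion 1 f + qExpansion 1 g :=
  qExpansion_add (analyticAt_of_mem_niceAlg hf) (analyticAt_of_mem_niceAlg hg)

lemma qExpansion_sub_nice {f g : ℍ → ℂ} (hf : f ∈ niceAlg) (hg : g ∈ niceAlg) :
    qExpansion 1 (f - g) = qExpansion 1 f - qExpansion 1 g :=
  qExpansion_sub (analyticAt_of_mem_niceAlg hf) (analyticAt_of_mem_niceAlg hg)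

lemma qExpansion_pow_nice {f : ℍ → ℂ} (hf : f ∈ niceAlg) (n : ℕ) :
    qExpansion 1 (f ^ n) = qExpansion 1 f ^ n := by
  induction n with
  | zero => simpa using qExpansion_one 1
  | succ n ih => rw [pow_succ, pow_succ, qExpansion_mul_nice (pow_mem hf n) hf, ih]

lemma qExpansion_smul_nice {f : ℍ → ℂ} (hf : f ∈ niceAlg) (c : ℂ) :
    qExpansion 1 (c • f) = PowerSeries.C c * qExpansion 1 f := by
  rw [← PowerSeries.smul_eq_C_mul]
  exact qExpansion_smul (analyticAt_of_mem_niceAlg hf) c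

lemma qExpansion_sum_nice {α : Type*} (s : Finset α) {f : α → ℍ → ℂ}
    (hf : ∀ i ∈ s, f i ∈ niceAlg) :
    qExpansion 1 (∑ i ∈ s, f i) = ∑ i ∈ s, qExpansion 1 (f i) := by
  classical
  induction s using Finset.induction_on with
  | empty => simpa using qExpansion_zero 1
  | insert a s ha ih =>
    rw [Finset.sum_insert ha, Finset.sum_insert ha,
      qExpansion_add_nice (hf a (Finset.mem_insert_self a s))
        (Subalgebra.sum_mem _ fun i hi => hf i (Finset.mem_insert_of_mem hi)),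
      ih fun i hi => hf i (Finset.mem_insert_of_mem hi)]

lemma E4_mem_niceAlg : (⇑E₄ : ℍ → ℂ) ∈ niceAlg := isMF_top_mem_niceAlg isMF_E4

lemma discriminant_mem_niceAlg : (discriminant : ℍ → ℂ) ∈ niceAlg :=
  isMF_top_mem_niceAlg isCF_Delta.isMF

/-- the basis element `Δ^i E₄^e` -/
noncomputable def triFun (i e : ℕ) : ℍ → ℂ := discriminant ^ i * (⇑E₄ : ℍ → ℂ) ^ e

lemma triFun_mem (i e : ℕ) : triFun i e ∈ niceAlg :=
  mul_mem (pow_mem discriminant_mem_niceAlg i) (pow_mem E4_mem_niceAlg e)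

lemma qExpansion_triFun (i e : ℕ) : qExpansion 1 (triFun i e) = ι (Dq ^ i * E4q ^ e) := by
  rw [triFun, qExpansion_mul_nice (pow_mem discriminant_mem_niceAlg i) (pow_mem E4_mem_niceAlg e),
    qExpansion_pow_nice discriminant_mem_niceAlg, qExpansion_pow_nice E4_mem_niceAlg,
    qExpansion_discriminant_eq, qExpansion_E4_eq, map_mul, map_pow, map_pow]

lemma isMF_triFun (i e : ℕ) : IsMF ⊤ (12 * i + 4 * e) (triFun i e) :=
  ((PartA2.IsMF.pow isCF_Delta.isMF i).mul (PartA2.IsMF.pow isMF_E4 e)).congr_wt (by ring)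

/-- dividing by `Δ` preserves `A`-integrality of `q`-expansions -/
lemma coeffsIn_of_Dq_mul {A : Subring ℂ} {s : PowerSeries ℂ} (h : ι Dq * s ∈ coeffsIn A) :
    s ∈ coeffsIn A := by
  have h1 : PowerSeries.X * s = ι ModularCurve.dedekindEtaUnitInv * (ι Dq * s) := by
    have h2 := congrArg ι ModularCurve.dedekindEtaUnit_mul_inv
    rw [map_mul, map_one] at h2
    rw [Dq, map_mul, PowerSeries.map_X]
    linear_combination (-PowerSeries.X * s) * h2
  have h3 : PowerSeries.X * s ∈ coeffsIn A := by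
    rw [h1]
    exact mul_mem (map_int_mem_coeffsIn A _) h
  rw [mem_coeffsIn] at h3 ⊢
  intro n
  have := h3 (n + 1)
  rwa [mul_comm, PowerSeries.coeff_succ_mul_X] at this

/-- **LVL1**: a level one form of weight `12 m` with `q`-coefficients in `A` is an `A`-linear
combination of `Δ^i E₄^{3(m-i)}`, `0 ≤ i ≤ m`. -/
theorem exists_tri (A : Subring ℂ) (m : ℕ) {F : ℍ → ℂ} (hF : IsMF ⊤ (12 * m) F)
    (hA : qExpansion 1 F ∈ coeffsIn A) :
    ∃ x : ℕ → ℂ, (∀ i, x i ∈ A) ∧
      F = ∑ i ∈ Finset.range (m + 1), x i • triFun i (3 * (m - i)) := by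
  induction m generalizing F with
  | zero =>
    have hF0 : IsMF ⊤ 0 F := hF.congr_wt (by simp)
    obtain ⟨c, hc⟩ := ModularFormClass.levelOne_weight_zero_const hF0.toLevelOne
    have hc' : F = Function.const ℍ c := hc
    have hFc : F = c • (1 : ℍ → ℂ) := by
      rw [hc']; ext z; simp
    have hcA : c ∈ A := by
      have := mem_coeffsIn.mp hA 0
      rw [hFc, qExpansion_smul_nice (one_mem niceAlg), qExpansion_one] at this
      simpa using this
    refine ⟨fun _ => c, fun _ => hcA, ?_⟩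
    rw [hFc]
    simp [triFun]
  | succ m ih =>
    set x₀ := (qExpansion 1 F).coeff 0 with hx₀
    have hx₀A : x₀ ∈ A := mem_coeffsIn.mp hA 0
    set F' : ℍ → ℂ := F - x₀ • triFun 0 (3 * (m + 1)) with hF'
    have hFn := isMF_top_mem_niceAlg hF
    have hF'mf : IsMF ⊤ (12 * ((m + 1 : ℕ) : ℤ)) F' :=
      hF.sub (((isMF_triFun 0 (3 * (m + 1))).congr_wt (by push_cast; ring)).smul x₀)
    have hqF' : qExpansion 1 F' = qExpansion 1 F - PowerSeries.C x₀ * ι (Dq ^ 0 * E4q ^ (3 * (m + 1))) := by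
      rw [hF', qExpansion_sub_nice hFn (Subalgebra.smul_mem _ (triFun_mem _ _) _),
        qExpansion_smul_nice (triFun_mem _ _), qExpansion_triFun]
    have hF'A : qExpansion 1 F' ∈ coeffsIn A := by
      rw [hqF']
      exact sub_mem hA (mul_mem (C_mem_coeffsIn hx₀A) (map_int_mem_coeffsIn A _))
    have hF'0 : (qExpansion 1 F').coeff 0 = 0 := by
      rw [hqF', map_sub, PowerSeries.coeff_C_mul, PowerSeries.coeff_map,
        PowerSeries.coeff_zero_eq_constantCoeff]
      simp [E4q, hx₀]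
    have hlim : Tendsto F' atImInfty (𝓝 0) := by
      have := PartA2.tendsto_levelOne hF'mf.toLevelOne
      rwa [IsMF.coe_toLevelOne, hF'0] at this
    obtain ⟨b, hb, hFb⟩ := PartA2.exists_eq_discriminant_mul hF'mf hlim
    have hb' : IsMF ⊤ (12 * (m : ℤ)) b := hb.congr_wt (by push_cast; ring)
    have hbA : qExpansion 1 b ∈ coeffsIn A := by
      apply coeffsIn_of_Dq_mul
      rw [← qExpansion_discriminant_eq,
        ← qExpansion_mul_nice discriminant_mem_niceAlg (isMF_top_mem_niceAlg hb'), ← hFb]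
      exact hF'A
    obtain ⟨y, hyA, hy⟩ := ih hb' hbA
    refine ⟨fun i => Nat.casesOn i x₀ y, ?_, ?_⟩
    · intro i
      cases i with
      | zero => exact hx₀A
      | succ i => exact hyA i
    · rw [Finset.sum_range_succ']
      have h1 : F = F' + x₀ • triFun 0 (3 * (m + 1)) := by rw [hF']; abel
      rw [h1, hFb, hy, Finset.mul_sum]
      congr 1
      refine Finset.sum_congr rfl fun i _ => ?_
      have : m + 1 - (i + 1) = m - i := by omega
      simp only [this, triFun]
      ext z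
      simp only [Pi.mul_apply, Pi.smul_apply, Pi.pow_apply, smul_eq_mul]
      ring

lemma map_int_injective : Function.Injective ι :=
  PowerSeries.map_injective _ (RingHom.injective_int _)

/-- **LVL1 over `ℤ`.** -/
theorem exists_tri_int (m : ℕ) {F : ℍ → ℂ} (hF : IsMF ⊤ (12 * m) F) (a : PowerSeries ℤ)
    (ha : qExpansion 1 F = ι a) :
    ∃ x : ℕ → ℤ,
      F = ∑ i ∈ Finset.range (m + 1), (x i : ℂ) • triFun i (3 * (m - i)) ∧
      a = ∑ i ∈ Finset.range (m + 1), PowerSeries.C (x i) * (Dq ^ i * E4q ^ (3 * (m - i))) := by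
  obtain ⟨x, hx, hFx⟩ := exists_tri (Int.castRingHom ℂ).range m hF
    (by rw [ha]; exact map_int_mem_coeffsIn _ _)
  choose y hy using hx
  have hy' : ∀ i, ((y i : ℤ) : ℂ) = x i := hy
  have hF2 : F = ∑ i ∈ Finset.range (m + 1), (y i : ℂ) • triFun i (3 * (m - i)) := by
    rw [hFx]
    exact Finset.sum_congr rfl fun i _ => by rw [hy']
  refine ⟨y, hF2, ?_⟩
  apply map_int_injective
  rw [← ha, hF2, qExpansion_sum_nice _ fun i _ => Subalgebra.smul_mem _ (triFun_mem _ _) _, map_sum]
  refine Finset.sum_congr rfl fun i _ => ?_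
  rw [qExpansion_smul_nice (triFun_mem _ _), qExpansion_triFun, map_mul (ι) (PowerSeries.C _),
    PowerSeries.map_C]
  rfl

lemma map_cst {S : Type*} [CommRing S] (ι' : S →+* ℂ) (a : PowerSeries ℤ) :
    (cst S a).map ι' = ι a := by
  ext n
  simp

lemma map_cst' {S R : Type*} [CommRing S] [CommRing R] (φ : S →+* R) (a : PowerSeries ℤ) :
    (cst S a).map φ = cst R a := by
  ext n
  simp

/-- **LVL1 over a ring `S ↪ ℂ`.** -/
theorem exists_tri_ring {S : Type*} [CommRing S] (ι' : S →+* ℂ) (hι : Function.Injective ι')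
    (m : ℕ) {F : ℍ → ℂ} (hF : IsMF ⊤ (12 * m) F) (g : PowerSeries S)
    (hg : g.map ι' = qExpansion 1 F) :
    ∃ x : ℕ → S,
      F = ∑ i ∈ Finset.range (m + 1), ι' (x i) • triFun i (3 * (m - i)) ∧
      g = ∑ i ∈ Finset.range (m + 1),
        PowerSeries.C (x i) * (cst S Dq ^ i * cst S E4q ^ (3 * (m - i))) := by
  obtain ⟨x, hx, hFx⟩ := exists_tri ι'.range m hF (by
    rw [← hg, mem_coeffsIn]
    intro n
    exact ⟨g.coeff n, by simp⟩)
  choose y hy using hx
  have hF2 : F = ∑ i ∈ Finset.range (m + 1), ι' (y i) • triFun i (3 * (m - i)) := by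
    rw [hFx]
    exact Finset.sum_congr rfl fun i _ => by rw [hy]
  refine ⟨y, hF2, ?_⟩
  apply PowerSeries.map_injective ι' hι
  rw [hg, hF2, qExpansion_sum_nice _ fun i _ => Subalgebra.smul_mem _ (triFun_mem _ _) _, map_sum]
  refine Finset.sum_congr rfl fun i _ => ?_
  rw [qExpansion_smul_nice (triFun_mem _ _), qExpansion_triFun, map_mul (PowerSeries.map ι'),
    PowerSeries.map_C, map_mul (PowerSeries.map ι'), map_pow, map_pow, map_cst, map_cst, map_mul,
    map_pow, map_pow]

lemma constantCoeff_cst_one {R : Type*} [CommRing R] {a : PowerSeries ℤ}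
    (ha : PowerSeries.constantCoeff a = 1) : PowerSeries.constantCoeff (cst R a) = 1 := by
  rw [← PowerSeries.coeff_zero_eq_constantCoeff_apply] at ha ⊢
  rw [PowerSeries.coeff_map, ha]
  simp

lemma cst_Dq (R : Type*) [CommRing R] :
    cst R Dq = PowerSeries.X * cst R ModularCurve.dedekindEtaUnit := by
  rw [cst, Dq, map_mul, PowerSeries.map_X]

lemma constantCoeff_E4q : PowerSeries.constantCoeff E4q = 1 :=
  ModularCurve.constantCoeff_eisenstein4

lemma constantCoeff_E6q : PowerSeries.constantCoeff E6q = 1 := by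
  rw [← PowerSeries.coeff_zero_eq_constantCoeff_apply]
  simp [E6q]

/-- **Sturm bound, weight `12 m`**, for an arbitrary ring homomorphism `φ`. -/
theorem sturm_tri {S R : Type*} [CommRing S] [CommRing R] (ι' : S →+* ℂ)
    (hι : Function.Injective ι') (φ : S →+* R)
    (m : ℕ) {F : ℍ → ℂ} (hF : IsMF ⊤ (12 * m) F) (g : PowerSeries S)
    (hg : g.map ι' = qExpansion 1 F) (h : ∀ n ≤ m, φ (g.coeff n) = 0) :
    ∀ n, φ (g.coeff n) = 0 := by
  obtain ⟨x, -, hx⟩ := exists_tri_ring ι' hι m hF g hg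
  have h1 : g.map φ = ∑ i ∈ Finset.range (m + 1), PowerSeries.C (φ (x i)) *
      ((PowerSeries.X * cst R ModularCurve.dedekindEtaUnit) ^ i *
        cst R E4q ^ (3 * (m - i))) := by
    conv_lhs => rw [hx]
    rw [map_sum]
    refine Finset.sum_congr rfl fun i _ => ?_
    rw [map_mul, PowerSeries.map_C, map_mul, map_pow, map_pow, map_cst', map_cst', cst_Dq]
  have h2 := tri_zero (constantCoeff_cst_one (R := R) ModularCurve.constantCoeff_dedekindEtaUnit)
    (constantCoeff_cst_one (R := R) constantCoeff_E4q) m (fun i => 3 * (m - i))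
    (fun i => φ (x i)) (m + 1) le_rfl (by
      intro n hn
      rw [← h1, PowerSeries.coeff_map]
      exact h n (Nat.lt_succ_iff.mp hn))
  have h3 : g.map φ = 0 := by
    rw [h1]
    refine Finset.sum_eq_zero fun i hi => ?_
    rw [h2 i (Finset.mem_range.mp hi), map_zero, zero_mul]
  intro n
  rw [← PowerSeries.coeff_map, h3, map_zero]

lemma qExpansion_E6_eq : qExpansion 1 E₆ = ι E6q := by
  ext n
  rw [EisensteinSeries.E_qExpansion_coeff _ ⟨3, rfl⟩, PowerSeries.coeff_map, E6q,
    PowerSeries.coeff_mk]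
  split_ifs with hn
  · simp
  · norm_num [show bernoulli 6 = 1 / 42 by decide +kernel, ArithmeticFunction.sigma_apply]

lemma E6_mem_niceAlg : (⇑E₆ : ℍ → ℂ) ∈ niceAlg := isMF_top_mem_niceAlg isMF_E6

/-- **Sturm bound, any weight**: multiply by `E₄^a E₆^b` to reach weight `12 m`. -/
theorem sturm_general {S R : Type*} [CommRing S] [CommRing R] (ι' : S →+* ℂ)
    (hι : Function.Injective ι') (φ : S →+* R) {k : ℤ} (a b m : ℕ) (hk : k + 4 * a + 6 * b = 12 * m)
    {F : ℍ → ℂ} (hF : IsMF ⊤ k F) (g : PowerSeries S)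
    (hg : g.map ι' = qExpansion 1 F) (h : ∀ n ≤ m, φ (g.coeff n) = 0) :
    ∀ n, φ (g.coeff n) = 0 := by
  set E : ℍ → ℂ := (⇑E₄ : ℍ → ℂ) ^ a * (⇑E₆ : ℍ → ℂ) ^ b with hE
  have hEn : E ∈ niceAlg := mul_mem (pow_mem E4_mem_niceAlg a) (pow_mem E6_mem_niceAlg b)
  have hEmf : IsMF ⊤ (4 * a + 6 * b) E :=
    ((PartA2.IsMF.pow isMF_E4 a).mul (PartA2.IsMF.pow isMF_E6 b)).congr_wt (by ring)
  have hFE : IsMF ⊤ (12 * m) (F * E) := (hF.mul hEmf).congr_wt (by rw [← hk]; ring)
  set e : PowerSeries ℤ := E4q ^ a * E6q ^ b with he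
  have he0 : PowerSeries.constantCoeff e = 1 := by
    rw [he, map_mul, map_pow, map_pow, constantCoeff_E4q, constantCoeff_E6q]
    simp
  have hqE : qExpansion 1 E = ι e := by
    rw [hE, qExpansion_mul_nice (pow_mem E4_mem_niceAlg a) (pow_mem E6_mem_niceAlg b),
      qExpansion_pow_nice E4_mem_niceAlg, qExpansion_pow_nice E6_mem_niceAlg, qExpansion_E4_eq,
      qExpansion_E6_eq, he, map_mul, map_pow, map_pow]
  have hg' : (g * cst S e).map ι' = qExpansion 1 (F * E) := by
    rw [qExpansion_mul_nice (isMF_top_mem_niceAlg hF) hEn, map_mul, hg, map_cst, hqE]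
  have h1 := sturm_tri ι' hι φ m hFE (g * cst S e) hg' (by
    intro n hn
    rw [PowerSeries.coeff_mul, map_sum]
    refine Finset.sum_eq_zero fun ij hij => ?_
    have : ij.1 ≤ m := by
      have := Finset.HasAntidiagonal.mem_antidiagonal.mp hij
      omega
    rw [map_mul, h _ this, zero_mul])
  have h2 : g.map φ * cst R e = 0 := by
    ext n
    rw [← map_cst' φ, ← map_mul, PowerSeries.coeff_map, h1 n, map_zero]
  have hu : IsUnit (cst R e) := by
    rw [PowerSeries.isUnit_iff_constantCoeff, constantCoeff_cst_one he0]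
    exact isUnit_one
  have h3 : g.map φ = 0 := by
    simpa using (hu.mul_left_eq_zero).mp h2
  intro n
  rw [← PowerSeries.coeff_map, h3, map_zero]

end Fermat.Agent.S16.Tri
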